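import Fermat.Agent.BR3.CoverK.OfMinpolyChart

/-!
# Program C, node (ELL-PUR): the ring of a smooth chart is local with residue field `A / 𝔪`

`C : SmoothChart A O res Q T` with `π = residue A`.

* `isUnit_iff_adicValuation_eq_one`, `chart_not_isUnit_iff` : the non-units of `C.R` are the functions
  whose residue vanishes at `Q`;
* `isLocalRing_chart` : `C.R` is a local ring;
* `isAlgClosed_residueField_chart` : its residue field is algebraically closed when the residue
  field of `A` is (it is a quotient of `A / 𝔪`, hence isomorphic to it).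

These are the standing instances on the `K`-level ring `R` of `PurityPlug.purity_plug`.
-/

set_option autoImplicit false
set_option linter.unusedSectionVars false
set_option linter.style.haveILetI false

noncomputable section

namespace Fermat.Agent.BR3.EllPurity

open AlgebraicCurve IsLocalRing Polynomial
open Fermat.Agent.Red Fermat.Agent.BR.Centre Fermat.Agent.BR.S0
open Fermat.Agent.BR3.CoverK.OfMinpoly

variable {K F k : Type*} [Field K] [Field F] [Algebra K F] [Field k]
  {Ft : Type*} [Field Ft] [Algebra k Ft]
  {A : ValuationSubring K} {π : A →+* k} {O : ValuationSubring F} {res : O →+* Ft}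
  {Q : Place k Ft} {T : Set (Place K F)} (C : SmoothChart A O res Q T)
  (hres : ∀ (a : K) (ha : a ∈ A) (h : algebraMap K F a ∈ O),
    res ⟨algebraMap K F a, h⟩ = algebraMap k Ft (π ⟨a, ha⟩))

include hres in
/-- the residue of a function of the chart ring is regular at the point -/
theorem adicValuation_res_le_one (y : C.R) : Q.adicValuation (res ⟨y, C.le y y.2⟩) ≤ 1 := by
  have h := ord_res_nonneg C hres y.2
  rw [Q.adicValuation_le_one_iff]
  exact Or.inr h

include hres in
/-- a function of the chart ring whose residue vanishes at the point is not a unit -/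
theorem not_isUnit_of_lt_one {y : C.R} (hy : Q.adicValuation (res ⟨y, C.le y y.2⟩) < 1) :
    ¬ IsUnit y := by
  intro hu
  obtain ⟨w, hw⟩ := isUnit_iff_exists_inv.mp hu
  have h1 : res ⟨y, C.le y y.2⟩ * res ⟨w, C.le w w.2⟩ = 1 := by
    rw [← map_mul, ← map_one res]
    congr 1
    exact Subtype.ext (congrArg (fun z : C.R => (z : F)) hw)
  have h2 : Q.adicValuation (res ⟨y, C.le y y.2⟩) * Q.adicValuation (res ⟨w, C.le w w.2⟩) = 1 := by
    rw [← map_mul, h1, map_one]
  have h3 := adicValuation_res_le_one C hres w
  have h4 : Q.adicValuation (res ⟨y, C.le y y.2⟩) * Q.adicValuation (res ⟨w, C.le w w.2⟩) < 1 :=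
    lt_of_le_of_lt (mul_le_mul' le_rfl h3) (by rw [mul_one]; exact hy)
  rw [h2] at h4
  exact lt_irrefl _ h4

include hres in
/-- the non-units of the chart ring are the functions whose residue vanishes at the point -/
theorem chart_not_isUnit_iff (y : C.R) :
    ¬ IsUnit y ↔ Q.adicValuation (res ⟨y, C.le y y.2⟩) < 1 :=
  ⟨C.branch y, not_isUnit_of_lt_one C hres⟩

include hres in
/-- **the ring of a smooth chart is local** -/
theorem isLocalRing_chart : IsLocalRing C.R := by
  haveI : Nontrivial C.R := inferInstance
  refine IsLocalRing.of_nonunits_add fun a b ha hb => ?_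
  rw [mem_nonunits_iff] at ha hb ⊢
  rw [chart_not_isUnit_iff C hres] at ha hb ⊢
  have e : (⟨((a + b : C.R) : F), C.le _ (a + b).2⟩ : O) =
      ⟨a, C.le a a.2⟩ + ⟨b, C.le b b.2⟩ := rfl
  rw [e, map_add]
  exact lt_of_le_of_lt (Q.adicValuation.map_add _ _) (max_lt ha hb)

/-- a field which is the image of an algebraically closed field is algebraically closed -/
theorem isAlgClosed_of_surjective {k₁ κ : Type*} [Field k₁] [Field κ] [IsAlgClosed k₁]
    (g : k₁ →+* κ) (hg : Function.Surjective g) : IsAlgClosed κ := by
  apply IsAlgClosed.of_exists_root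
  intro p _ hp
  obtain ⟨P, hP⟩ := Polynomial.map_surjective g hg p
  have hdeg : P.degree ≠ 0 := by
    intro h
    have h1 : p.degree ≤ 0 := by
      rw [← hP]
      exact Polynomial.degree_map_le.trans h.le
    exact absurd (Polynomial.degree_pos_of_irreducible hp) (not_lt.mpr h1)
  obtain ⟨x, hx⟩ := IsAlgClosed.exists_root P hdeg
  refine ⟨g x, ?_⟩
  rw [← hP, Polynomial.eval_map, Polynomial.eval₂_at_apply, hx, map_zero]

/-- the constants, as a ring homomorphism into the chart ring -/
def chartConstHom : A →+* C.R :=
  ((algebraMap K F).comp A.subtype).codRestrict C.R fun a => C.algebraMap_mem a a.2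

theorem coe_chartConstHom (a : A) : ((chartConstHom C a : C.R) : F) = algebraMap K F a := rfl

include hres in
/-- the constants of the maximal ideal are non-units of the chart ring -/
theorem isLocalHom_chartConstHom (hπ0 : ∀ a : A, A.valuation (a : K) < 1 → π a = 0) :
    IsLocalHom (chartConstHom C) := by
  constructor
  intro a ha
  by_contra hcon
  have hv : A.valuation (a : K) < 1 :=
    (A.valuation_lt_one_iff a).mp
      ((IsLocalRing.mem_maximalIdeal a).mpr (mem_nonunits_iff.mpr hcon))
  have h2 : Q.adicValuation (res ⟨(chartConstHom C a : C.R), C.le _ (chartConstHom C a).2⟩) < 1 := by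
    have e : res ⟨(chartConstHom C a : C.R), C.le _ (chartConstHom C a).2⟩ =
        algebraMap k Ft (π a) := hres (a : K) a.2 _
    rw [e, hπ0 a hv, map_zero, map_zero]
    exact zero_lt_one
  exact not_isUnit_of_lt_one C hres h2 ha

include hres in
/-- **the residue field of the ring of a smooth chart is algebraically closed** when the residue
field of `A` is -/
theorem isAlgClosed_residueField_chart [IsAlgClosed (ResidueField A)]
    (hπ0 : ∀ a : A, A.valuation (a : K) < 1 → π a = 0) :
    haveI := isLocalRing_chart C hres
    IsAlgClosed (ResidueField C.R) := by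
  haveI := isLocalRing_chart C hres
  haveI := isLocalHom_chartConstHom C hres hπ0
  refine isAlgClosed_of_surjective (ResidueField.map (chartConstHom C)) ?_
  intro x
  obtain ⟨y, rfl⟩ := IsLocalRing.residue_surjective x
  obtain ⟨a, ha⟩ := C.residue y
  refine ⟨IsLocalRing.residue A a, ?_⟩
  rw [ResidueField.map_residue]
  symm
  rw [← sub_eq_zero, ← map_sub, IsLocalRing.residue_eq_zero_iff]
  exact mem_nonunits_iff.mpr ha

end Fermat.Agent.BR3.EllPurity
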