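import Mathlib
import Fermat.Agent.Red.Values
import Fermat.Agent.Red.NormalForm
import Fermat.Agent.X0.Alg.PlaceBasic
import Fermat.Agent.BR3.CoverSmooth.Basic

/-!
# Program C, team (ELL-PUR), piece (ELL-PUR-U): a standard étale generator is unramified

`E'' / E'` an extension of function fields over `k`, `Q''` a place of `E''` over the place `Q'` of
`E'`, `u` a generator of `E'' / E'`, root of `Ψ ∈ E'[X]` with coefficients regular at `Q'`, such
that `u` has a rational value `c` at `Q''` and `Ψ'(u)` is a unit at `Q''` (`EtPoint`).  Then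

* **(A)** `EtPoint.ord_map` : `Q''.ord (algebraMap E' E'' f) = Q'.ord f` (`e = 1`);
* **(B)** `EtPoint.eq_of_value` : a second place of `E''` over `Q'` at which `u` has the same
  value `c` is equal to `Q''`.

The proof is elementary: `R = O_{Q'}[u]`; every `a ∈ R` decomposes as `a = a₀ + (u - c) r` with
`a₀ ∈ O_{Q'}`, `r ∈ R`; from `Ψ = (X - c) Φ + Ψ(c)` the element `b = Φ(u)` is a unit at `Q''` with
`(u - c) b = -Ψ(c) ∈ 𝔪_{Q'}`; so for `a ∈ R` vanishing at `Q''` one has `b a = ϖ a₁` with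
`a₁ ∈ R` (`ϖ` a parameter at `Q'`), and by induction on `ord_{Q''} a` every nonzero `a ∈ R`
satisfies `β a = ϖ ^ m a'` with `β, a' ∈ R` units at `Q''`.  Hence `ord_{Q''}` takes its values in
`e ℤ` on `E'' = Frac R`, `e = ord_{Q''} ϖ`, so `e = 1`.  The unit criterion on `R` (`a₀` a unit
of `O_{Q'}`) does not depend on the place, which gives (B).
-/

set_option autoImplicit false
set_option linter.unusedSectionVars false

namespace Fermat.Agent.BR3.EllPurity.EtDVR

open AlgebraicCurve Polynomial Fermat.Agent.Red Fermat.Agent.X0 Fermat.Agent.BR3.CoverSmooth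

variable {k : Type*} [Field k] {E' E'' : Type*} [Field E'] [Field E''] [Algebra k E']
  [Algebra k E''] [Algebra E' E''] [IsScalarTower k E' E'']

/-! ### The ring `O_{Q'}[u]` -/

section Adj

variable (Q' : Place k E')

/-- the inclusion `O_{Q'} → E''` -/
noncomputable def iota : Q'.toValuationSubring →+* E'' :=
  (algebraMap E' E'').comp Q'.toValuationSubring.subtype

theorem iota_apply (a : Q'.toValuationSubring) :
    iota (E'' := E'') Q' a = algebraMap E' E'' (a : E') := rfl

theorem iota_algebraMap (c : k) :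
    iota (E'' := E'') Q' (algebraMap k Q'.toValuationSubring c) = algebraMap k E'' c := by
  rw [iota_apply, Place.coe_algebraMap, ← IsScalarTower.algebraMap_apply]

theorem iota_injective : Function.Injective (iota (E'' := E'') Q') := fun _ _ h =>
  Subtype.ext ((algebraMap E' E'').injective h)

variable (u : E'')

/-- the subring `O_{Q'}[u]` of `E''` -/
noncomputable def adj : Subring E'' := (Polynomial.eval₂RingHom (iota (E'' := E'') Q') u).range

theorem mem_adj {a : E''} :
    a ∈ adj Q' u ↔ ∃ P : (Q'.toValuationSubring)[X], P.eval₂ (iota Q') u = a := by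
  rw [adj, RingHom.mem_range]
  rfl

theorem eval₂_mem_adj (P : (Q'.toValuationSubring)[X]) : P.eval₂ (iota Q') u ∈ adj Q' u :=
  (mem_adj Q' u).2 ⟨P, rfl⟩

theorem iota_mem_adj (a : Q'.toValuationSubring) : iota Q' a ∈ adj Q' u :=
  (mem_adj Q' u).2 ⟨C a, eval₂_C _ _⟩

/-- the values of the polynomials with coefficients regular at `Q'` lie in `O_{Q'}[u]` -/
theorem aeval_mem_adj {p : E'[X]} (hp : ∀ i, p.coeff i ∈ Q'.toValuationSubring) :
    aeval u p ∈ adj Q' u := by
  have hl : p ∈ Polynomial.lifts Q'.toValuationSubring.subtype := by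
    rw [Polynomial.lifts_iff_coeff_lifts]
    intro n
    exact ⟨⟨p.coeff n, hp n⟩, rfl⟩
  obtain ⟨P, hP⟩ := (Polynomial.mem_lifts p).1 hl
  refine (mem_adj Q' u).2 ⟨P, ?_⟩
  rw [← hP, aeval_def, eval₂_map]
  rfl

/-- **The decomposition** `a = a₀ + (u - c) r` of the elements of `O_{Q'}[u]`. -/
theorem exists_decomp (c : k) {a : E''} (ha : a ∈ adj Q' u) :
    ∃ a₀ : Q'.toValuationSubring, ∃ r ∈ adj Q' u,
      a = iota Q' a₀ + (u - algebraMap k E'' c) * r := by
  obtain ⟨P, rfl⟩ := (mem_adj Q' u).1 ha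
  refine ⟨P.eval (algebraMap k Q'.toValuationSubring c),
    (P /ₘ (X - C (algebraMap k Q'.toValuationSubring c))).eval₂ (iota Q') u,
    eval₂_mem_adj Q' u _, ?_⟩
  have h := Polynomial.modByMonic_add_div P (X - C (algebraMap k Q'.toValuationSubring c))
  rw [Polynomial.modByMonic_X_sub_C_eq_C_eval] at h
  conv_lhs => rw [← h]
  rw [eval₂_add, eval₂_mul, eval₂_C, eval₂_sub, eval₂_X, eval₂_C, iota_algebraMap]

end Adj

/-! ### General facts on a place -/

section Gen

variable {F : Type*} [Field F] [Algebra k F] (v : Place k F)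

theorem ord_eq_zero_of_val_eq_one {f : F} (h : v.adicValuation f = 1) : v.ord f = 0 := by
  rw [Place.ord, h]
  simp

theorem ne_zero_of_val_eq_one {f : F} (h : v.adicValuation f = 1) : f ≠ 0 := by
  rintro rfl
  rw [map_zero] at h
  exact zero_ne_one h

theorem val_eq_one_of_mem_of_not_lt {f : F} (hf : f ∈ v.toValuationSubring)
    (h : ¬ v.adicValuation f < 1) : v.adicValuation f = 1 :=
  le_antisymm (mem_iff_le_one.1 hf) (not_lt.1 h)

theorem val_mul_lt_one {f g : F} (hf : v.adicValuation f < 1) (hg : v.adicValuation g ≤ 1) :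
    v.adicValuation (f * g) < 1 := by
  rw [map_mul]
  exact mul_lt_one_of_nonneg_of_lt_one_left zero_le hf hg

/-- divisibility by a parameter in the discrete valuation ring of a place -/
theorem exists_eq_mul_irreducible {ϖ : v.toValuationSubring} (hϖ : Irreducible ϖ)
    {a : v.toValuationSubring} (h : v.adicValuation (a : F) < 1) :
    ∃ s : v.toValuationSubring, a = s * ϖ := by
  have hnu : ¬ IsUnit a := fun hu =>
    absurd ((v.adicValuation_coe_eq_one_iff a).2 hu) (ne_of_lt h)
  have hm : a ∈ IsLocalRing.maximalIdeal v.toValuationSubring :=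
    (IsLocalRing.mem_maximalIdeal a).2 hnu
  rw [(IsDiscreteValuationRing.irreducible_iff_uniformizer ϖ).1 hϖ,
    Ideal.mem_span_singleton'] at hm
  obtain ⟨s, hs⟩ := hm
  exact ⟨s, hs.symm⟩

theorem val_irreducible_lt_one {ϖ : v.toValuationSubring} (hϖ : Irreducible ϖ) :
    v.adicValuation (ϖ : F) < 1 := by
  have h1 : v.adicValuation (ϖ : F) ≤ 1 := mem_iff_le_one.1 ϖ.2
  refine lt_of_le_of_ne h1 fun h => hϖ.not_isUnit ?_
  exact (v.adicValuation_coe_eq_one_iff ϖ).1 h

end Gen

/-! ### The hypotheses -/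

/-- **A standard étale point**: `Q''` is a place of `E''` over the place `Q'` of `E'`, at which
the generator `u` of `E'' / E'`, root of `Ψ` (coefficients regular at `Q'`), has the rational
value `c`, a simple root of the reduction of `Ψ` (`Ψ'(u)` is a unit at `Q''`). -/
structure EtPoint (Q' : Place k E') (Q'' : Place k E'') (u : E'') (Ψ : E'[X]) (c : k) :
    Prop where
  lies : ∀ g : E', algebraMap E' E'' g ∈ Q''.toValuationSubring ↔ g ∈ Q'.toValuationSubring
  coeff_mem : ∀ i, Ψ.coeff i ∈ Q'.toValuationSubring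
  root : aeval u Ψ = 0
  gen : ∀ y : E'', ∃ p : E'[X], aeval u p = y
  value : IsValueAt Q'' u c
  simple : ¬ Q''.adicValuation (aeval u (derivative Ψ)) < 1

/-! ### A point over `Q'` with a rational value of `u` -/

section Over

variable {Q' : Place k E'} {Q'' : Place k E''} {u : E''} {c : k}
  (hlies : ∀ g : E', algebraMap E' E'' g ∈ Q''.toValuationSubring ↔ g ∈ Q'.toValuationSubring)
  (hval : IsValueAt Q'' u c)

include hlies in
theorem iota_mem (a : Q'.toValuationSubring) : iota Q' a ∈ Q''.toValuationSubring :=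
  (hlies _).2 a.2

include hlies in
theorem iota_lt_one_iff (a : Q'.toValuationSubring) :
    Q''.adicValuation (iota Q' a) < 1 ↔ Q'.adicValuation (a : E') < 1 :=
  lt_one_iff_of_mem_iff (algebraMap E' E'') hlies a

include hlies hval in
/-- `O_{Q'}[u] ⊆ O_{Q''}` -/
theorem mem_of_mem_adj {a : E''} (ha : a ∈ adj Q' u) : a ∈ Q''.toValuationSubring := by
  obtain ⟨P, rfl⟩ := (mem_adj Q' u).1 ha
  exact eval₂_mem_subring (iota Q') Q''.toValuationSubring.toSubring (iota_mem hlies) hval.mem P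

include hlies hval in
theorem val_le_one_of_mem_adj {a : E''} (ha : a ∈ adj Q' u) : Q''.adicValuation a ≤ 1 :=
  mem_iff_le_one.1 (mem_of_mem_adj hlies hval ha)

include hlies hval in
/-- **The criterion**: `a = a₀ + (u - c) r` vanishes at `Q''` iff `a₀` vanishes at `Q'`. -/
theorem val_lt_one_iff {a r : E''} {a₀ : Q'.toValuationSubring} (hr : r ∈ adj Q' u)
    (ha : a = iota Q' a₀ + (u - algebraMap k E'' c) * r) :
    Q''.adicValuation a < 1 ↔ Q'.adicValuation (a₀ : E') < 1 := by
  have hxr : Q''.adicValuation ((u - algebraMap k E'' c) * r) < 1 :=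
    val_mul_lt_one Q'' hval (val_le_one_of_mem_adj hlies hval hr)
  rw [← iota_lt_one_iff hlies a₀]
  constructor
  · intro h
    have e : iota Q' a₀ = a - (u - algebraMap k E'' c) * r := by rw [ha]; ring
    rw [e]
    exact (Valuation.map_sub _ _ _).trans_lt (max_lt h hxr)
  · intro h
    rw [ha]
    exact (Valuation.map_add _ _ _).trans_lt (max_lt h hxr)

end Over

/-- the criterion does not depend on the place: two places over `Q'` with the same value of `u`
have the same zeros on `O_{Q'}[u]` -/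
theorem val_lt_one_iff_of_two {Q' : Place k E'} {Q'' Q''' : Place k E''} {u : E''} {c : k}
    (hlies : ∀ g : E', algebraMap E' E'' g ∈ Q''.toValuationSubring ↔ g ∈ Q'.toValuationSubring)
    (hval : IsValueAt Q'' u c)
    (hlies' : ∀ g : E', algebraMap E' E'' g ∈ Q'''.toValuationSubring ↔
      g ∈ Q'.toValuationSubring)
    (hval' : IsValueAt Q''' u c) {a : E''} (ha : a ∈ adj Q' u) :
    Q''.adicValuation a < 1 ↔ Q'''.adicValuation a < 1 := by
  obtain ⟨a₀, r, hr, e⟩ := exists_decomp Q' u c ha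
  rw [val_lt_one_iff hlies hval hr e, val_lt_one_iff hlies' hval' hr e]

/-! ### The unit `b` and the induction -/

namespace EtPoint

variable {Q' : Place k E'} {Q'' : Place k E''} {u : E''} {Ψ : E'[X]} {c : k}
  (H : EtPoint Q' Q'' u Ψ c)

include H

theorem mem_of_mem_adj {a : E''} (ha : a ∈ adj Q' u) : a ∈ Q''.toValuationSubring :=
  EtDVR.mem_of_mem_adj H.lies H.value ha

theorem val_le_one {a : E''} (ha : a ∈ adj Q' u) : Q''.adicValuation a ≤ 1 :=
  val_le_one_of_mem_adj H.lies H.value ha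

/-- `Ψ'(u)` is a unit at `Q''` -/
theorem val_deriv : Q''.adicValuation (aeval u (derivative Ψ)) = 1 := by
  refine val_eq_one_of_mem_of_not_lt Q'' (H.mem_of_mem_adj (aeval_mem_adj Q' u ?_)) H.simple
  intro i
  rw [coeff_derivative]
  exact mul_mem (H.coeff_mem _) (add_mem (natCast_mem _ i) (one_mem _))

/-- **The unit `b`**: from `Ψ = (X - c) Φ + Ψ(c)`, `b = Φ(u)` is a unit at `Q''` and
`(u - c) b = -Ψ(c)` vanishes at `Q'`. -/
theorem exists_unit : ∃ b ∈ adj Q' u, ∃ d₀ : Q'.toValuationSubring,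
    Q''.adicValuation b = 1 ∧ (u - algebraMap k E'' c) * b = -iota Q' d₀ ∧
      Q'.adicValuation (d₀ : E') < 1 := by
  have hl : Ψ ∈ Polynomial.lifts Q'.toValuationSubring.subtype := by
    rw [Polynomial.lifts_iff_coeff_lifts]
    intro n
    exact ⟨⟨Ψ.coeff n, H.coeff_mem n⟩, rfl⟩
  obtain ⟨Ψ₀, hΨ₀⟩ := (Polynomial.mem_lifts Ψ).1 hl
  have hev : ∀ P : (Q'.toValuationSubring)[X],
      P.eval₂ (iota Q') u = aeval u (P.map Q'.toValuationSubring.subtype) := by
    intro P
    rw [aeval_def, eval₂_map]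
    rfl
  set c₀ : Q'.toValuationSubring := algebraMap k Q'.toValuationSubring c with hc₀
  set Φ : (Q'.toValuationSubring)[X] := Ψ₀ /ₘ (X - C c₀) with hΦ
  have h := Polynomial.modByMonic_add_div Ψ₀ (X - C c₀)
  rw [Polynomial.modByMonic_X_sub_C_eq_C_eval] at h
  -- the value at `u`
  have h1 : iota Q' (Ψ₀.eval c₀) + (u - algebraMap k E'' c) * Φ.eval₂ (iota Q') u = 0 := by
    have : (C (Ψ₀.eval c₀) + (X - C c₀) * Φ).eval₂ (iota Q') u = Ψ₀.eval₂ (iota Q') u := by
      rw [h]
    rw [eval₂_add, eval₂_mul, eval₂_C, eval₂_sub, eval₂_X, eval₂_C, iota_algebraMap, hev Ψ₀,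
      hΨ₀, H.root] at this
    exact this
  -- the derivative
  have h2 : aeval u (derivative Ψ) =
      Φ.eval₂ (iota Q') u + (u - algebraMap k E'' c) * (derivative Φ).eval₂ (iota Q') u := by
    have hd : derivative Ψ₀ = Φ + (X - C c₀) * derivative Φ := by
      conv_lhs => rw [← h]
      rw [derivative_add, derivative_C, zero_add, derivative_mul, derivative_sub, derivative_X,
        derivative_C, sub_zero, one_mul]
    rw [← hΨ₀, Polynomial.derivative_map, ← hev, hd, eval₂_add, eval₂_mul, eval₂_sub, eval₂_X,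
      eval₂_C, iota_algebraMap]
  have hb : Φ.eval₂ (iota Q') u ∈ adj Q' u := eval₂_mem_adj Q' u Φ
  have hxd : Q''.adicValuation
      ((u - algebraMap k E'' c) * (derivative Φ).eval₂ (iota Q') u) < 1 :=
    val_mul_lt_one Q'' H.value (H.val_le_one (eval₂_mem_adj Q' u _))
  have hb1 : Q''.adicValuation (Φ.eval₂ (iota Q') u) = 1 := by
    have e : Φ.eval₂ (iota Q') u = aeval u (derivative Ψ) -
        (u - algebraMap k E'' c) * (derivative Φ).eval₂ (iota Q') u := by
      rw [h2]; ring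
    rw [e, Valuation.map_sub_eq_of_lt_left _ (by rw [H.val_deriv]; exact hxd), H.val_deriv]
  have hxb : (u - algebraMap k E'' c) * Φ.eval₂ (iota Q') u = -iota Q' (Ψ₀.eval c₀) := by
    rw [eq_neg_iff_add_eq_zero, add_comm]
    exact h1
  refine ⟨_, hb, Ψ₀.eval c₀, hb1, hxb, ?_⟩
  rw [← iota_lt_one_iff H.lies, ← neg_neg (iota Q' (Ψ₀.eval c₀)), ← hxb, Valuation.map_neg]
  exact val_mul_lt_one Q'' H.value (le_of_eq hb1)

/-- **The step**: an element of `O_{Q'}[u]` vanishing at `Q''` is, up to the unit `b`, divisible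
by the parameter of `Q'`. -/
theorem exists_step {ϖ : Q'.toValuationSubring} (hϖ : Irreducible ϖ) {b : E''}
    (hb : b ∈ adj Q' u) {d₀ : Q'.toValuationSubring}
    (hxb : (u - algebraMap k E'' c) * b = -iota Q' d₀) (hd₀ : Q'.adicValuation (d₀ : E') < 1)
    {a : E''} (ha : a ∈ adj Q' u) (hlt : Q''.adicValuation a < 1) :
    ∃ a₁ ∈ adj Q' u, b * a = iota Q' ϖ * a₁ := by
  obtain ⟨a₀, r, hr, e⟩ := exists_decomp Q' u c ha
  have ha₀ : Q'.adicValuation (a₀ : E') < 1 := (val_lt_one_iff H.lies H.value hr e).1 hlt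
  obtain ⟨s, hs⟩ := exists_eq_mul_irreducible Q' hϖ ha₀
  obtain ⟨d₁, hd₁⟩ := exists_eq_mul_irreducible Q' hϖ hd₀
  refine ⟨b * iota Q' s - iota Q' d₁ * r,
    (adj Q' u).sub_mem ((adj Q' u).mul_mem hb (iota_mem_adj Q' u s))
      ((adj Q' u).mul_mem (iota_mem_adj Q' u d₁) hr), ?_⟩
  have e1 : b * a = b * iota Q' a₀ + ((u - algebraMap k E'' c) * b) * r := by
    rw [e]; ring
  rw [e1, hxb, hs, hd₁, map_mul, map_mul]
  ring

/-- the parameter of `Q'` vanishes at `Q''` -/
theorem ord_iota_pos {ϖ : Q'.toValuationSubring} (hϖ : Irreducible ϖ) :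
    0 < Q''.ord (iota Q' ϖ) := by
  have h1 : Q''.adicValuation (iota Q' ϖ) < 1 :=
    (iota_lt_one_iff H.lies ϖ).2 (val_irreducible_lt_one Q' hϖ)
  have h0 : iota (E'' := E'') Q' ϖ ≠ 0 := by
    rw [Ne, ← map_zero (iota (E'' := E'') Q')]
    exact fun h => hϖ.ne_zero (iota_injective Q' h)
  exact ((adicValuation_lt_one_iff Q'').1 h1).resolve_left h0

/-- **The factorisation**: every nonzero `a ∈ O_{Q'}[u]` satisfies `β a = ϖ ^ m a'` with
`β, a' ∈ O_{Q'}[u]` units at `Q''`. -/
theorem exists_factor {ϖ : Q'.toValuationSubring} (hϖ : Irreducible ϖ) :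
    ∀ (n : ℕ) (a : E''), a ∈ adj Q' u → a ≠ 0 → Q''.ord a = n →
      ∃ m : ℕ, ∃ β ∈ adj Q' u, ∃ a' ∈ adj Q' u, Q''.adicValuation β = 1 ∧
        Q''.adicValuation a' = 1 ∧ β * a = iota Q' ϖ ^ m * a' := by
  obtain ⟨b, hb, d₀, hb1, hxb, hd₀⟩ := H.exists_unit
  have hb0 : b ≠ 0 := ne_zero_of_val_eq_one Q'' hb1
  have hT := H.ord_iota_pos hϖ
  have hT0 : iota (E'' := E'') Q' ϖ ≠ 0 := by
    rintro h0
    rw [h0, Place.ord_zero] at hT
    exact lt_irrefl _ hT
  intro n
  induction n using Nat.strong_induction_on with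
  | _ n ih =>
    intro a ha ha0 hn
    by_cases hlt : Q''.adicValuation a < 1
    · obtain ⟨a₁, ha₁, e⟩ := H.exists_step hϖ hb hxb hd₀ ha hlt
      have ha₁0 : a₁ ≠ 0 := by
        rintro rfl
        rw [mul_zero] at e
        exact (mul_ne_zero hb0 ha0) e
      have hord : Q''.ord a = Q''.ord (iota Q' ϖ) + Q''.ord a₁ := by
        have h1 := congrArg Q''.ord e
        rw [Q''.ord_mul hb0 ha0, Q''.ord_mul hT0 ha₁0, ord_eq_zero_of_val_eq_one Q'' hb1,
          zero_add] at h1
        exact h1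
      have hnn : 0 ≤ Q''.ord a₁ := (Place.mem_iff_ord_nonneg Q'').1 (H.mem_of_mem_adj ha₁)
      obtain ⟨n₁, hn₁⟩ := Int.eq_ofNat_of_zero_le hnn
      have hlt' : n₁ < n := by
        have : (n₁ : ℤ) < n := by omega
        exact_mod_cast this
      obtain ⟨m, β, hβ, a', ha', hβ1, ha'1, e'⟩ := ih n₁ hlt' a₁ ha₁ ha₁0 hn₁
      refine ⟨m + 1, β * b, (adj Q' u).mul_mem hβ hb, a', ha', ?_, ha'1, ?_⟩
      · rw [map_mul, hβ1, hb1, one_mul]
      · rw [mul_assoc, e, ← mul_assoc, mul_comm β, mul_assoc, e', pow_succ]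
        ring
    · refine ⟨0, 1, (adj Q' u).one_mem, a, ha, map_one _, ?_, by rw [pow_zero]⟩
      exact val_eq_one_of_mem_of_not_lt Q'' (H.mem_of_mem_adj ha) hlt

/-- the orders at `Q''` of the elements of `O_{Q'}[u]` are multiples of `e = ord_{Q''} ϖ` -/
theorem exists_ord_eq_mul {ϖ : Q'.toValuationSubring} (hϖ : Irreducible ϖ) {a : E''}
    (ha : a ∈ adj Q' u) (ha0 : a ≠ 0) :
    ∃ m : ℕ, Q''.ord a = m * Q''.ord (iota Q' ϖ) := by
  have hnn : 0 ≤ Q''.ord a := (Place.mem_iff_ord_nonneg Q'').1 (H.mem_of_mem_adj ha)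
  obtain ⟨n, hn⟩ := Int.eq_ofNat_of_zero_le hnn
  obtain ⟨m, β, -, a', -, hβ1, ha'1, e⟩ := H.exists_factor hϖ n a ha ha0 hn
  refine ⟨m, ?_⟩
  have hT := H.ord_iota_pos hϖ
  have hT0 : iota (E'' := E'') Q' ϖ ≠ 0 := by
    rintro h0
    rw [h0, Place.ord_zero] at hT
    exact lt_irrefl _ hT
  have h1 := congrArg Q''.ord e
  rw [Q''.ord_mul (ne_zero_of_val_eq_one Q'' hβ1) ha0,
    Q''.ord_mul (pow_ne_zero _ hT0) (ne_zero_of_val_eq_one Q'' ha'1),
    ord_eq_zero_of_val_eq_one Q'' hβ1, ord_eq_zero_of_val_eq_one Q'' ha'1, zero_add, add_zero,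
    Place.ord_pow] at h1
  exact h1

/-- every element of `E''` is a quotient `a / s` with `a ∈ O_{Q'}[u]`, `s ∈ O_{Q'}` -/
theorem exists_quot (y : E'') :
    ∃ s : Q'.toValuationSubring, s ≠ 0 ∧ iota Q' s * y ∈ adj Q' u := by
  obtain ⟨p, rfl⟩ := H.gen y
  obtain ⟨s, hs, hsp⟩ := IsLocalization.integerNormalization_spec
    (nonZeroDivisors Q'.toValuationSubring) p
  refine ⟨s, nonZeroDivisors.ne_zero hs, ?_⟩
  refine (mem_adj Q' u).2
    ⟨IsLocalization.integerNormalization (nonZeroDivisors Q'.toValuationSubring) p, ?_⟩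
  have h1 : (IsLocalization.integerNormalization (nonZeroDivisors Q'.toValuationSubring) p).eval₂
      (iota Q') u = aeval u ((IsLocalization.integerNormalization
        (nonZeroDivisors Q'.toValuationSubring) p).map
          (algebraMap Q'.toValuationSubring E')) := by
    rw [aeval_def, eval₂_map]
    rfl
  rw [h1, hsp]
  have h2 : (s • p : E'[X]) = C ((s : E')) * p := by
    ext i
    rw [coeff_smul, coeff_C_mul]
    rfl
  rw [h2, map_mul, aeval_C]
  rfl

/-- **`e = 1`**: the parameter of `Q'` is a parameter of `Q''`. -/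
theorem ord_iota_irreducible {ϖ : Q'.toValuationSubring} (hϖ : Irreducible ϖ) :
    Q''.ord (iota Q' ϖ) = 1 := by
  obtain ⟨y, hy⟩ := Fermat.Agent.Red.NormalForm.exists_ord_eq_one Q''
  have hy0 : y ≠ 0 := by
    rintro rfl
    rw [Place.ord_zero] at hy
    exact zero_ne_one hy
  obtain ⟨s, hs0, hsy⟩ := H.exists_quot y
  have hs0' : iota (E'' := E'') Q' s ≠ 0 := by
    rw [Ne, ← map_zero (iota (E'' := E'') Q')]
    exact fun h => hs0 (iota_injective Q' h)
  obtain ⟨m₁, h1⟩ := H.exists_ord_eq_mul hϖ hsy (mul_ne_zero hs0' hy0)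
  obtain ⟨m₂, h2⟩ := H.exists_ord_eq_mul hϖ (iota_mem_adj Q' u s) hs0'
  rw [Q''.ord_mul hs0' hy0, hy, h2] at h1
  have hpos := H.ord_iota_pos hϖ
  have hdvd : Q''.ord (iota Q' ϖ) ∣ 1 := ⟨(m₁ : ℤ) - m₂, by rw [mul_sub]; linarith⟩
  exact Int.eq_one_of_dvd_one hpos.le hdvd

/-- **(A) A standard étale point is unramified**: the orders at `Q''` of the functions of `E'`
are their orders at `Q'`. -/
theorem ord_map (f : E') : Q''.ord (algebraMap E' E'' f) = Q'.ord f := by
  rcases eq_or_ne f 0 with rfl | hf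
  · rw [map_zero, Place.ord_zero, Place.ord_zero]
  obtain ⟨ϖ, hϖ⟩ := IsDiscreteValuationRing.exists_irreducible Q'.toValuationSubring
  obtain ⟨w, hw⟩ := Q'.exists_unit_mul_zpow hf hϖ
  have hT := H.ord_iota_irreducible hϖ
  have hT0 : iota (E'' := E'') Q' ϖ ≠ 0 := by
    rintro h0
    rw [h0, Place.ord_zero] at hT
    exact zero_ne_one hT
  -- the unit of `O_{Q'}` is a unit at `Q''`
  have hw1 : iota (E'' := E'') Q' (w : Q'.toValuationSubring) *
      iota Q' ((w⁻¹ : (Q'.toValuationSubring)ˣ) : Q'.toValuationSubring) = 1 := by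
    rw [← map_mul, ← Units.val_mul, mul_inv_cancel, Units.val_one, map_one]
  have hw0 : iota (E'' := E'') Q' (w : Q'.toValuationSubring) ≠ 0 := left_ne_zero_of_mul_eq_one hw1
  have hw0' : iota (E'' := E'') Q' ((w⁻¹ : (Q'.toValuationSubring)ˣ) : Q'.toValuationSubring) ≠ 0 :=
    right_ne_zero_of_mul_eq_one hw1
  have hwo : Q''.ord (iota Q' (w : Q'.toValuationSubring)) = 0 := by
    have h1 := (Place.mem_iff_ord_nonneg Q'').1 (iota_mem H.lies (w : Q'.toValuationSubring))
    have h2 := (Place.mem_iff_ord_nonneg Q'').1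
      (iota_mem H.lies ((w⁻¹ : (Q'.toValuationSubring)ˣ) : Q'.toValuationSubring))
    have h3 := congrArg Q''.ord hw1
    rw [Q''.ord_mul hw0 hw0', Place.ord_one] at h3
    omega
  have e : algebraMap E' E'' f = iota Q' (w : Q'.toValuationSubring) *
      iota Q' ϖ ^ (Q'.ord f) := by
    conv_lhs => rw [hw]
    rw [map_mul, map_zpow₀]
    rfl
  rw [e, Q''.ord_mul hw0 (zpow_ne_zero _ hT0), hwo, zero_add, Place.ord_zpow, hT, mul_one]

/-- the order at `Q''` of a nonzero element of `O_{Q'}[u]` is the exponent of its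
factorisation -/
theorem ord_eq_of_factor {ϖ : Q'.toValuationSubring} (hϖ : Irreducible ϖ) {a β a' : E''} {m : ℕ}
    (ha0 : a ≠ 0) (hβ1 : Q''.adicValuation β = 1) (ha'1 : Q''.adicValuation a' = 1)
    (e : β * a = iota Q' ϖ ^ m * a') : Q''.ord a = m := by
  have hT := H.ord_iota_irreducible hϖ
  have hT0 : iota (E'' := E'') Q' ϖ ≠ 0 := by
    rintro h0
    rw [h0, Place.ord_zero] at hT
    exact zero_ne_one hT
  have h1 := congrArg Q''.ord e
  rw [Q''.ord_mul (ne_zero_of_val_eq_one Q'' hβ1) ha0,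
    Q''.ord_mul (pow_ne_zero _ hT0) (ne_zero_of_val_eq_one Q'' ha'1),
    ord_eq_zero_of_val_eq_one Q'' hβ1, ord_eq_zero_of_val_eq_one Q'' ha'1, zero_add, add_zero,
    Place.ord_pow, hT, mul_one] at h1
  exact h1

/-- a second place over `Q'` with the same value of `u` is again a standard étale point -/
theorem of_value {Q''' : Place k E''}
    (hlies : ∀ g : E', algebraMap E' E'' g ∈ Q'''.toValuationSubring ↔
      g ∈ Q'.toValuationSubring)
    (hval : IsValueAt Q''' u c) : EtPoint Q' Q''' u Ψ c where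
  lies := hlies
  coeff_mem := H.coeff_mem
  root := H.root
  gen := H.gen
  value := hval
  simple := by
    have hmem : aeval u (derivative Ψ) ∈ adj Q' u := by
      refine aeval_mem_adj Q' u fun i => ?_
      rw [coeff_derivative]
      exact mul_mem (H.coeff_mem _) (add_mem (natCast_mem _ i) (one_mem _))
    rw [← val_lt_one_iff_of_two H.lies H.value hlies hval hmem]
    exact H.simple

/-- **(B) The value of `u` separates the points over `Q'`**: a second place of `E''` over `Q'`
at which `u` has the same value is equal to `Q''`. -/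
theorem eq_of_value {Q''' : Place k E''}
    (hlies : ∀ g : E', algebraMap E' E'' g ∈ Q'''.toValuationSubring ↔
      g ∈ Q'.toValuationSubring)
    (hval : IsValueAt Q''' u c) : Q''' = Q'' := by
  have H' : EtPoint Q' Q''' u Ψ c := H.of_value hlies hval
  obtain ⟨ϖ, hϖ⟩ := IsDiscreteValuationRing.exists_irreducible Q'.toValuationSubring
  -- the two orders agree on `O_{Q'}[u]`
  have key : ∀ a ∈ adj Q' u, a ≠ 0 → Q'''.ord a = Q''.ord a := by
    intro a ha ha0
    have hnn : 0 ≤ Q''.ord a := (Place.mem_iff_ord_nonneg Q'').1 (H.mem_of_mem_adj ha)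
    obtain ⟨n, hn⟩ := Int.eq_ofNat_of_zero_le hnn
    obtain ⟨m, β, hβ, a', ha', hβ1, ha'1, e⟩ := H.exists_factor hϖ n a ha ha0 hn
    have hβ1' : Q'''.adicValuation β = 1 :=
      val_eq_one_of_mem_of_not_lt Q''' (H'.mem_of_mem_adj hβ) (by
        rw [← val_lt_one_iff_of_two H.lies H.value hlies hval hβ, hβ1]
        exact lt_irrefl _)
    have ha'1' : Q'''.adicValuation a' = 1 :=
      val_eq_one_of_mem_of_not_lt Q''' (H'.mem_of_mem_adj ha') (by
        rw [← val_lt_one_iff_of_two H.lies H.value hlies hval ha', ha'1]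
        exact lt_irrefl _)
    rw [H.ord_eq_of_factor hϖ ha0 hβ1 ha'1 e, H'.ord_eq_of_factor hϖ ha0 hβ1' ha'1' e]
  -- hence on `E''`
  have key' : ∀ y : E'', Q'''.ord y = Q''.ord y := by
    intro y
    rcases eq_or_ne y 0 with rfl | hy0
    · rw [Place.ord_zero, Place.ord_zero]
    obtain ⟨s, hs0, hsy⟩ := H.exists_quot y
    have hs0' : iota (E'' := E'') Q' s ≠ 0 := by
      rw [Ne, ← map_zero (iota (E'' := E'') Q')]
      exact fun h => hs0 (iota_injective Q' h)
    have h1 := key _ hsy (mul_ne_zero hs0' hy0)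
    have h2 := key _ (iota_mem_adj Q' u s) hs0'
    rw [Q'''.ord_mul hs0' hy0, Q''.ord_mul hs0' hy0, h2] at h1
    exact add_left_cancel h1
  apply Place.ext
  ext y
  rw [Place.mem_iff_ord_nonneg, Place.mem_iff_ord_nonneg, key' y]

/-- two distinct points over `Q'` (the second one a standard étale point or not) have distinct
values of `u` -/
theorem value_ne {Q''' : Place k E''}
    (hlies : ∀ g : E', algebraMap E' E'' g ∈ Q'''.toValuationSubring ↔
      g ∈ Q'.toValuationSubring)
    (hne : Q''' ≠ Q'') {c' : k} (hval : IsValueAt Q''' u c') : c' ≠ c := by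
  rintro rfl
  exact hne (H.eq_of_value hlies hval)

end EtPoint

/-! ### Variants of the hypotheses -/

section Variants

variable {Q' : Place k E'} {Q'' : Place k E''} {u : E''} {Ψ : E'[X]} {c : k}

/-- **`simple` from the standard étale relation** `Ψ'(u) v = 1`, `v ∈ O_{Q'}[u]` — no
unramifiedness is needed. -/
theorem simple_of_mul_eq_one
    (hlies : ∀ g : E', algebraMap E' E'' g ∈ Q''.toValuationSubring ↔ g ∈ Q'.toValuationSubring)
    (hval : IsValueAt Q'' u c) {v : E''}
    (hv : ∃ p : E'[X], (∀ i, p.coeff i ∈ Q'.toValuationSubring) ∧ aeval u p = v)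
    (h : aeval u (derivative Ψ) * v = 1) :
    ¬ Q''.adicValuation (aeval u (derivative Ψ)) < 1 := by
  intro hlt
  obtain ⟨p, hp, rfl⟩ := hv
  have h1 : Q''.adicValuation (aeval u p) ≤ 1 :=
    val_le_one_of_mem_adj hlies hval (aeval_mem_adj Q' u hp)
  have h2 := val_mul_lt_one Q'' hlt h1
  rw [h, map_one] at h2
  exact lt_irrefl _ h2

/-- the generator is regular at every place over `Q'` as soon as `Ψ` is monic -/
theorem mem_of_monic
    (hlies : ∀ g : E', algebraMap E' E'' g ∈ Q''.toValuationSubring ↔ g ∈ Q'.toValuationSubring)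
    (hm : Ψ.Monic) (hc : ∀ i, Ψ.coeff i ∈ Q'.toValuationSubring) (hroot : aeval u Ψ = 0) :
    u ∈ Q''.toValuationSubring := by
  have hl : Ψ ∈ Polynomial.lifts Q'.toValuationSubring.subtype := by
    rw [Polynomial.lifts_iff_coeff_lifts]
    intro n
    exact ⟨⟨Ψ.coeff n, hc n⟩, rfl⟩
  obtain ⟨Ψ₀, hΨ₀, -, hΨ₀m⟩ := Polynomial.lifts_and_degree_eq_and_monic hl hm
  have hint : IsIntegral Q''.toValuationSubring u := by
    refine ⟨Ψ₀.map ((iota Q').codRestrict Q''.toValuationSubring.toSubring (iota_mem hlies)),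
      hΨ₀m.map _, ?_⟩
    rw [eval₂_map]
    have e : (algebraMap Q''.toValuationSubring E'').comp
        ((iota Q').codRestrict Q''.toValuationSubring.toSubring (iota_mem hlies)) = iota Q' := by
      ext a
      rfl
    rw [e]
    have : Ψ₀.eval₂ (iota Q') u = aeval u (Ψ₀.map Q'.toValuationSubring.subtype) := by
      rw [aeval_def, eval₂_map]
      rfl
    rw [this, hΨ₀, hroot]
  obtain ⟨z, hz⟩ := (IsIntegrallyClosed.isIntegral_iff (R := Q''.toValuationSubring)
    (K := E'')).mp hint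
  rw [← hz]
  exact z.2

/-- **The hypotheses at a place of degree one** (`Ψ` monic): the value `c` is produced. -/
theorem exists_etPoint_of_deg_one (hdeg : Q''.deg = 1)
    (hlies : ∀ g : E', algebraMap E' E'' g ∈ Q''.toValuationSubring ↔ g ∈ Q'.toValuationSubring)
    (hm : Ψ.Monic) (hc : ∀ i, Ψ.coeff i ∈ Q'.toValuationSubring) (hroot : aeval u Ψ = 0)
    (hgen : ∀ y : E'', ∃ p : E'[X], aeval u p = y)
    (hsimple : ¬ Q''.adicValuation (aeval u (derivative Ψ)) < 1) :
    ∃ c : k, EtPoint Q' Q'' u Ψ c := by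
  obtain ⟨c, hval⟩ := exists_isValueAt Q'' hdeg (mem_of_monic hlies hm hc hroot)
  exact ⟨c, ⟨hlies, hc, hroot, hgen, hval, hsimple⟩⟩

/-- (A) at a place of degree one -/
theorem ord_map_of_deg_one (hdeg : Q''.deg = 1)
    (hlies : ∀ g : E', algebraMap E' E'' g ∈ Q''.toValuationSubring ↔ g ∈ Q'.toValuationSubring)
    (hm : Ψ.Monic) (hc : ∀ i, Ψ.coeff i ∈ Q'.toValuationSubring) (hroot : aeval u Ψ = 0)
    (hgen : ∀ y : E'', ∃ p : E'[X], aeval u p = y)
    (hsimple : ¬ Q''.adicValuation (aeval u (derivative Ψ)) < 1) (f : E') :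
    Q''.ord (algebraMap E' E'' f) = Q'.ord f := by
  obtain ⟨c, H⟩ := exists_etPoint_of_deg_one hdeg hlies hm hc hroot hgen hsimple
  exact H.ord_map f

end Variants

/-! ### The restriction form -/

section Restrict

variable [Algebra.IsIntegral E' E''] {Q' : Place k E'} {Q'' : Place k E''} {u : E''} {Ψ : E'[X]}
  {c : k}

/-- the hypothesis `lies` for the restriction -/
theorem lies_restrict (g : E') :
    algebraMap E' E'' g ∈ Q''.toValuationSubring ↔ g ∈ (Q''.restrict E').toValuationSubring :=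
  Iff.rfl

/-- the hypothesis `lies` from `Q''.restrict E' = Q'` -/
theorem lies_of_restrict_eq (h : Q''.restrict E' = Q') (g : E') :
    algebraMap E' E'' g ∈ Q''.toValuationSubring ↔ g ∈ Q'.toValuationSubring := by
  rw [← h]
  exact Iff.rfl

/-- a standard étale point from `Q''.restrict E' = Q'` -/
theorem EtPoint.of_restrict_eq (h : Q''.restrict E' = Q')
    (hc : ∀ i, Ψ.coeff i ∈ Q'.toValuationSubring) (hroot : aeval u Ψ = 0)
    (hgen : ∀ y : E'', ∃ p : E'[X], aeval u p = y) (hval : IsValueAt Q'' u c)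
    (hsimple : ¬ Q''.adicValuation (aeval u (derivative Ψ)) < 1) : EtPoint Q' Q'' u Ψ c :=
  ⟨lies_of_restrict_eq h, hc, hroot, hgen, hval, hsimple⟩

theorem EtPoint.restrict_eq (H : EtPoint Q' Q'' u Ψ c) : Q''.restrict E' = Q' := by
  apply Place.ext
  ext g
  exact H.lies g

/-- (A) in the restriction form: the ramification index is `1` -/
theorem EtPoint.ramificationIndex_eq_one (H : EtPoint Q' Q'' u Ψ c) :
    Q''.ramificationIndex E' = 1 := by
  obtain ⟨t, ht⟩ := Fermat.Agent.Red.NormalForm.exists_ord_eq_one Q'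
  have h1 := Q''.ord_restrict (F := E') t
  rw [H.restrict_eq, H.ord_map t, ht, mul_one] at h1
  exact_mod_cast h1.symm

/-- (B) in the restriction form -/
theorem EtPoint.eq_of_restrict_eq (H : EtPoint Q' Q'' u Ψ c) {Q''' : Place k E''}
    (h : Q'''.restrict E' = Q') (hval : IsValueAt Q''' u c) : Q''' = Q'' :=
  H.eq_of_value (lies_of_restrict_eq h) hval

end Restrict

end Fermat.Agent.BR3.EllPurity.EtDVR
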