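import Mathlib
import Fermat.Agent.BR3.EllPurity.EtDVR

/-!
# Program C, team (ELL-PUR), piece (ELL-PUR-AD): separation of the values of the roots of a
polynomial with a unit derivative

`E` a function field over `k`, `v` a place of `E`, `Ψ ∈ E[X]` with coefficients regular at `v`.

* `val_eval_sub_lt_one` : congruent arguments give congruent values;
* **`not_val_eval_lt_one_of_mul`** : if `Ψ = m * g` (coefficients regular at `v`), `a` regular at
  `v` is a root of `g` and `Ψ'(a)` is a unit at `v`, then `m(a)` is a unit at `v`;
* **`not_val_sub_lt_one_of_roots`** : two distinct roots `a ≠ b` of `Ψ` regular at `v`, with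
  `Ψ'(a)` a unit at `v`, have `a - b` a unit at `v`; `value_ne_of_roots` : their values at `v`
  are different;
* `forall_exists_aeval_eq_of_card_roots` : an element `ρ` of a finite extension `L / κ` whose
  minimal polynomial has `[L : κ]` distinct roots (anywhere) generates `L` over `κ`;
* `not_isRoot_of_card` : a polynomial of degree `≤ n` having `n` distinct roots in a set `s` has
  no root outside `s`.
-/

set_option autoImplicit false
set_option linter.unusedSectionVars false

namespace Fermat.Agent.BR3.EllPurity.SepVal

open AlgebraicCurve Polynomial Fermat.Agent.Red Fermat.Agent.X0 Fermat.Agent.BR3.CoverSmooth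
  Fermat.Agent.BR3.EllPurity.EtDVR

section Place

variable {k E : Type*} [Field k] [Field E] [Algebra k E] (v : Place k E)

/-- the lift to `O_v[X]` of a polynomial with coefficients regular at `v` -/
theorem exists_lift {p : E[X]} (hp : ∀ n, p.coeff n ∈ v.toValuationSubring) :
    ∃ P : (v.toValuationSubring)[X], P.map v.toValuationSubring.subtype = p := by
  have hl : p ∈ Polynomial.lifts v.toValuationSubring.subtype := by
    rw [Polynomial.lifts_iff_coeff_lifts]
    intro n
    exact ⟨⟨p.coeff n, hp n⟩, rfl⟩
  exact (Polynomial.mem_lifts p).1 hl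

theorem coe_eval (P : (v.toValuationSubring)[X]) (a : v.toValuationSubring) :
    ((P.eval a : v.toValuationSubring) : E) =
      (P.map v.toValuationSubring.subtype).eval (a : E) :=
  (Polynomial.eval_map_apply v.toValuationSubring.subtype a).symm

/-- the value of a polynomial with regular coefficients at a regular element is regular -/
theorem eval_mem {p : E[X]} (hp : ∀ n, p.coeff n ∈ v.toValuationSubring) {a : E}
    (ha : a ∈ v.toValuationSubring) : p.eval a ∈ v.toValuationSubring := by
  obtain ⟨P, rfl⟩ := exists_lift v hp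
  have := coe_eval v P ⟨a, ha⟩
  rw [← this]
  exact (P.eval ⟨a, ha⟩).2

/-- **congruent arguments give congruent values** -/
theorem val_eval_sub_lt_one {p : E[X]} (hp : ∀ n, p.coeff n ∈ v.toValuationSubring) {a b : E}
    (ha : a ∈ v.toValuationSubring) (hb : b ∈ v.toValuationSubring)
    (hab : v.adicValuation (a - b) < 1) : v.adicValuation (p.eval a - p.eval b) < 1 := by
  obtain ⟨P, rfl⟩ := exists_lift v hp
  obtain ⟨s, hs⟩ := Polynomial.sub_dvd_eval_sub (⟨a, ha⟩ : v.toValuationSubring) ⟨b, hb⟩ P
  have e : (P.map v.toValuationSubring.subtype).eval a -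
      (P.map v.toValuationSubring.subtype).eval b = (a - b) * (s : E) := by
    have h1 := congrArg (fun x : v.toValuationSubring => (x : E)) hs
    simp only [AddSubgroupClass.coe_sub, MulMemClass.coe_mul] at h1
    rw [coe_eval, coe_eval] at h1
    exact h1
  rw [e]
  exact val_mul_lt_one v hab (mem_iff_le_one.1 s.2)

/-- **A factor not vanishing at a root with unit derivative is a unit there.** -/
theorem not_val_eval_lt_one_of_mul {Ψ m g : E[X]} (hΨ : Ψ = m * g)
    (hg : ∀ n, g.coeff n ∈ v.toValuationSubring) {a : E}
    (ha : a ∈ v.toValuationSubring) (hroot : g.eval a = 0)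
    (hunit : ¬ v.adicValuation ((derivative Ψ).eval a) < 1) :
    ¬ v.adicValuation (m.eval a) < 1 := by
  intro hlt
  apply hunit
  have hd : (derivative Ψ).eval a = m.eval a * (derivative g).eval a := by
    rw [hΨ, derivative_mul, eval_add, eval_mul, eval_mul, hroot, mul_zero, zero_add]
  rw [hd]
  refine val_mul_lt_one v hlt (mem_iff_le_one.1 (eval_mem v ?_ ha))
  intro n
  rw [coeff_derivative]
  exact mul_mem (hg _) (add_mem (natCast_mem _ n) (one_mem _))

/-- **Two distinct roots, one of them with unit derivative, have distinct reductions.** -/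
theorem not_val_sub_lt_one_of_roots {Ψ : E[X]} (hΨ : ∀ n, Ψ.coeff n ∈ v.toValuationSubring)
    {a b : E} (ha : a ∈ v.toValuationSubring) (hb : b ∈ v.toValuationSubring)
    (hra : Ψ.eval a = 0) (hrb : Ψ.eval b = 0) (hab : a ≠ b)
    (hunit : ¬ v.adicValuation ((derivative Ψ).eval a) < 1) :
    ¬ v.adicValuation (a - b) < 1 := by
  obtain ⟨P, hP⟩ := exists_lift v hΨ
  -- `Ψ = (X - b) * g` with `g` regular
  have h := Polynomial.modByMonic_add_div P (X - C (⟨b, hb⟩ : v.toValuationSubring))
  rw [Polynomial.modByMonic_X_sub_C_eq_C_eval] at h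
  have hb0 : P.eval (⟨b, hb⟩ : v.toValuationSubring) = 0 := by
    apply Subtype.ext
    rw [coe_eval, hP, hrb]
    rfl
  rw [hb0, C_0, zero_add] at h
  set g : E[X] := (P /ₘ (X - C (⟨b, hb⟩ : v.toValuationSubring))).map
    v.toValuationSubring.subtype with hg
  have hΨg : Ψ = (X - C b) * g := by
    rw [← hP, ← h, Polynomial.map_mul, Polynomial.map_sub, map_X, map_C]
    rfl
  have hgc : ∀ n, g.coeff n ∈ v.toValuationSubring := by
    intro n
    rw [hg, coeff_map]
    exact ((P /ₘ (X - C (⟨b, hb⟩ : v.toValuationSubring))).coeff n).2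
  have hga : g.eval a = 0 := by
    have h1 := hra
    rw [hΨg, eval_mul, eval_sub, eval_X, eval_C] at h1
    exact (mul_eq_zero.1 h1).resolve_left (sub_ne_zero.2 hab)
  have h2 := not_val_eval_lt_one_of_mul v hΨg hgc ha hga hunit
  rw [eval_sub, eval_X, eval_C] at h2
  exact h2

/-- the values at `v` of two distinct roots, one of them with unit derivative, are different -/
theorem value_ne_of_roots {Ψ : E[X]} (hΨ : ∀ n, Ψ.coeff n ∈ v.toValuationSubring)
    {a b : E} (hra : Ψ.eval a = 0) (hrb : Ψ.eval b = 0) (hab : a ≠ b)
    (hunit : ¬ v.adicValuation ((derivative Ψ).eval a) < 1) {c c' : k}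
    (hc : IsValueAt v a c) (hc' : IsValueAt v b c') : c ≠ c' := by
  rintro rfl
  apply not_val_sub_lt_one_of_roots v hΨ hc.mem hc'.mem hra hrb hab hunit
  have e : a - b = (a - algebraMap k E c) - (b - algebraMap k E c) := by ring
  rw [e]
  exact (Valuation.map_sub _ _ _).trans_lt (max_lt hc hc')

end Place

/-! ### Counting roots -/

section Count

/-- a polynomial of degree at most `n` with `n` distinct roots in `s` has no other root -/
theorem mem_of_isRoot_of_card {R : Type*} [CommRing R] [IsDomain R] [DecidableEq R] {p : R[X]}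
    (hp : p ≠ 0) (s : Finset R) (hs : ∀ x ∈ s, p.IsRoot x) (hcard : p.natDegree ≤ s.card) {a : R}
    (ha : p.IsRoot a) : a ∈ s := by
  by_contra hna
  have h1 : (insert a s).val ⊆ p.roots := by
    intro x hx
    rw [Finset.mem_val, Finset.mem_insert] at hx
    rw [Polynomial.mem_roots hp]
    rcases hx with rfl | hx
    · exact ha
    · exact hs x hx
  have h2 := Polynomial.card_le_degree_of_subset_roots h1
  rw [Finset.card_insert_of_notMem hna] at h2
  omega

variable {κ L : Type*} [Field κ] [Field L] [Algebra κ L] [FiniteDimensional κ L]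

/-- **An element whose minimal polynomial has `[L : κ]` distinct roots generates `L / κ`.** -/
theorem forall_exists_aeval_eq_of_card_roots (ρ : L) {Ω : Type*} [Field Ω] [Algebra κ Ω]
    (s : Finset Ω) (hs : ∀ x ∈ s, aeval x (minpoly κ ρ) = 0)
    (hcard : Module.finrank κ L ≤ s.card) (y : L) : ∃ p : κ[X], aeval ρ p = y := by
  classical
  have hint : IsIntegral κ ρ := Algebra.IsIntegral.isIntegral ρ
  have hne : minpoly κ ρ ≠ 0 := minpoly.ne_zero hint
  -- `s` is a set of roots of the image of the minimal polynomial
  have h1 : s.val ⊆ ((minpoly κ ρ).map (algebraMap κ Ω)).roots := by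
    intro x hx
    rw [Polynomial.mem_roots (Polynomial.map_ne_zero hne), IsRoot.def, eval_map_algebraMap]
    exact hs x hx
  have h2 := Polynomial.card_le_degree_of_subset_roots h1
  rw [natDegree_map] at h2
  -- hence the degree of `ρ` is `[L : κ]`
  have h3 : Module.finrank κ (IntermediateField.adjoin κ {ρ}) = (minpoly κ ρ).natDegree :=
    IntermediateField.adjoin.finrank hint
  have h4 : IntermediateField.adjoin κ {ρ} = ⊤ := by
    refine IntermediateField.eq_of_le_of_finrank_le le_top ?_
    rw [IntermediateField.finrank_top']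
    omega
  have h6 : y ∈ (IntermediateField.adjoin κ {ρ}).toSubalgebra := by
    rw [h4]
    exact IntermediateField.mem_top
  rw [IntermediateField.adjoin_simple_toSubalgebra_of_isAlgebraic hint.isAlgebraic,
    Algebra.adjoin_singleton_eq_range_aeval] at h6
  obtain ⟨p, hp⟩ := h6
  exact ⟨p, hp⟩

end Count

end Fermat.Agent.BR3.EllPurity.SepVal
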