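import Fermat.Agent.BR3.EllPurity.ChartsGen
import Fermat.Agent.BR3.EllPurity.SepVal
import Fermat.Agent.BR3.FibreProdMidRes
import Fermat.Agent.BR3.CInfRes
import Fermat.Agent.BR3.RegBaseModular
import Fermat.Agent.BR3.KummerGenus.MidInst
import Fermat.Agent.BR3.CoverK.Dict

/-!
# Program C, team (ELL-PUR), piece (ELL-PUR-AD), modular part: the points of `S''` over a finite
non-crossing point `Q'` of `can` along `α₂`, from the output of the purity plug

`C` a smooth chart of `can = constRedW1` at `Q'` (e.g. `(regChartCan ..).chart`), `Ge : EtaleGen C.R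
u v Ψ` the output of the purity plug (`F₂ = α₂F₁[u]`, `Ψ'(u) v = 1`, `v ∈ C.R[u]`), and
`hsep : SepU B hB hqM hζ u` : the residues of `u` on `w₁` and on the `w₂ b` (`b < q - 1`) are
pairwise distinct Laurent series (`sepU_of_subring` : from the separation of the residue maps on a
subring of `C.R[u]`, e.g. the finite-level integral closure `sint`).

* generic: `isValueAt_map`, **`value_ne_of_not_root`** (two roots of `Ψ̄` which are not conjugate
  have different values at any two places over `Q'`, the first one being a simple root);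
* `u_mem_w1`, `u_mem_w2`, `resw1_aeval`, `resw2_aeval`;
* `aeval_resMid_eq_zero_of_eq` (transfer of equations over `F̃_M` inside a class),
  `resMid_u_injective`, **`gen_mid`** (GEN: the residue of `u` on `w₂ b` generates
  `F̃_M(θ j̃) / F̃_M`);
* **`etPoint_mid`**, `exists_value_mid`, **`ord_map_mid`**, **`ramificationIndex_mid`** (every place
  of `F̃_M(θ j̃)` over `Q'` is unramified), **`exists_coverSheet_mid`** (the `CoverK.CoverSheet` of
  the point `(w₂ b, Q'')`, generator `u`, polynomial `Ψ`, ring `C.R`);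
* `etPoint_inf`, `exists_value_inf`, **`exists_coverSheet_inf`** (the point of `cInf`, same
  generator);
* (VALUES) **`value_ne_mid_of_place_ne`**, **`value_ne_mid_of_ring_ne`**, **`value_ne_inf_mid`** :
  the values of the residues of `u` at the `q` points over `Q'` are pairwise distinct;
* `exists_coverSheet_mid_regChartCan`, `exists_coverSheet_inf_regChartCan` (ring of
  `RegAtlas.regChartCan`, `hlift` discharged), `u_mem_regChart` (`u` lies in the ring of every
  regular chart upstairs over the tube of `Q'`: with the values, the input of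
  `CoverK.Dict.disjoint_of_isIntegral`).
-/

set_option autoImplicit false
set_option linter.style.haveILetI false
set_option linter.unusedSectionVars false

noncomputable section

/- S36 build-time patch: file-local shortcut instances. They only shorten instance search;
each is the instance that the search finds anyway (reducible, same terms after unfolding). -/
local instance (priority := 100000) Fermat.Agent.BR3.FastInst.instAlgFullC_EllPurity_Charts
    {k : Type*} [Field k] (N : ℕ) :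
    Algebra k ↥(ModularCurve.modularFunctionFieldFullC k N) := inferInstance
local instance (priority := 100000) Fermat.Agent.BR3.FastInst.instFieldFullC_EllPurity_Charts
    {k : Type*} [Field k] (N : ℕ) :
    Field ↥(ModularCurve.modularFunctionFieldFullC k N) := inferInstance
local instance (priority := 100000) Fermat.Agent.BR3.FastInst.instAlgLaurent_EllPurity_Charts
    {k : Type*} [Field k] : Algebra k (LaurentSeries k) := inferInstance


set_option synthInstance.maxHeartbeats 400000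

namespace Fermat.Agent.BR3.EllPurity.Charts

open ModularCurve AlgebraicCurve HahnSeries Polynomial Fermat.Agent.X0 Fermat.Agent.Val
open Fermat.Agent.Hecke.AL Fermat.Agent.BR.TwoVal Fermat.Agent.BR.ResGen Fermat.Agent.Red
open Fermat.Agent.BR.TwoValInst Fermat.Agent.BR3.FibreProd
open Fermat.Agent.BR.ConstRedTwo Fermat.Agent.BR3.CoverK
open Fermat.Agent.BR3.CoverK.OfMinpoly Fermat.Agent.BR.Centre Fermat.Agent.BR.S0
open Fermat.Agent.BR3.CInfRes Fermat.Agent.BR3.EllPurityPoints Fermat.Agent.BR3.EllPurity.EtDVR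
open Fermat.Agent.BR3.EllPurity.ChartsGen Fermat.Agent.BR3.EllPurity.SepVal
open Fermat.Agent.BR3.KummerGenus.MidInst

/-! ### generic: the values at two points of two roots which are not conjugate -/

section GenericValues

open Fermat.Agent.BR3.CoverSmooth

variable {k E' E'' : Type*} [Field k] [Field E'] [Field E''] [Algebra k E'] [Algebra k E'']
  [Algebra E' E''] [IsScalarTower k E' E''] {Q' : Place k E'} {Q'' Q''' : Place k E''}

/-- the value of a function downstairs at a place upstairs -/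
theorem isValueAt_map
    (lies : ∀ g : E', algebraMap E' E'' g ∈ Q''.toValuationSubring ↔ g ∈ Q'.toValuationSubring)
    {f : E'} {c : k} (h : IsValueAt Q' f c) : IsValueAt Q'' (algebraMap E' E'' f) c := by
  have e : algebraMap E' E'' f - algebraMap k E'' c =
      algebraMap E' E'' (f - algebraMap k E' c) := by
    rw [map_sub, ← IsScalarTower.algebraMap_apply]
  show Q''.adicValuation (algebraMap E' E'' f - algebraMap k E'' c) < 1
  rw [e, lt_one_iff_of_mem_iff (algebraMap E' E'') lies]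
  exact h

/-- **Two roots of `Ψ` which are not conjugate over `E'` have different values** at any two places
over `Q'`, as soon as the first one is a simple root modulo its place. -/
theorem value_ne_of_not_root
    (lies : ∀ g : E', algebraMap E' E'' g ∈ Q''.toValuationSubring ↔ g ∈ Q'.toValuationSubring)
    (lies' : ∀ g : E', algebraMap E' E'' g ∈ Q'''.toValuationSubring ↔
      g ∈ Q'.toValuationSubring)
    {Ψ : E'[X]} (hm : Ψ.Monic) (hc : ∀ n, Ψ.coeff n ∈ Q'.toValuationSubring)
    {ρ ρ' : E''} (hρ : aeval ρ Ψ = 0) (hρ' : aeval ρ' Ψ = 0)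
    (hnot : aeval ρ (minpoly E' ρ') ≠ 0)
    (hsimple : ¬ Q''.adicValuation (aeval ρ (derivative Ψ)) < 1)
    {c c' : k} (hval : IsValueAt Q'' ρ c) (hval' : IsValueAt Q''' ρ' c') : c ≠ c' := by
  rintro rfl
  have hint' : IsIntegral E' ρ' := ⟨Ψ, hm, by rw [← aeval_def]; exact hρ'⟩
  obtain ⟨g', hg'⟩ := minpoly.dvd E' ρ' hρ'
  have hm'monic : (minpoly E' ρ').Monic := minpoly.monic hint'
  have hg'monic : g'.Monic := hm'monic.of_mul_monic_left (hg' ▸ hm)
  have hreg : ∀ n, 0 ≤ Q'.ord (Ψ.coeff n) := fun n => (Place.mem_iff_ord_nonneg Q').1 (hc n)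
  have hm'c : ∀ n, (minpoly E' ρ').coeff n ∈ Q'.toValuationSubring := fun n =>
    (Place.mem_iff_ord_nonneg Q').2 (coeff_regular_of_dvd Q' hm hm'monic ⟨g', hg'⟩ hreg n)
  have hg'c : ∀ n, g'.coeff n ∈ Q'.toValuationSubring := fun n =>
    (Place.mem_iff_ord_nonneg Q').2
      (coeff_regular_of_dvd Q' hm hg'monic ⟨minpoly E' ρ', by rw [hg', mul_comm]⟩ hreg n)
  -- the value of `m'` at the constant `c`
  set a₀ : E' := (minpoly E' ρ').eval (algebraMap k E' c) with ha₀
  have hmapc : ∀ p : E'[X], (p.map (algebraMap E' E'')).eval (algebraMap k E'' c) =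
      algebraMap E' E'' (p.eval (algebraMap k E' c)) := by
    intro p
    rw [IsScalarTower.algebraMap_apply k E' E'', Polynomial.eval_map_apply]
  -- `a₀` vanishes at `Q'''`, hence at `Q'`, hence at `Q''`
  have h3 : Q'''.adicValuation (algebraMap E' E'' a₀) < 1 := by
    have h := val_eval_sub_lt_one Q''' (p := (minpoly E' ρ').map (algebraMap E' E''))
      (fun n => by rw [coeff_map]; exact (lies' _).2 (hm'c n)) hval'.mem
      (isValueAt_algebraMap Q''' c).mem hval'
    rw [Polynomial.eval_map_algebraMap, minpoly.aeval, zero_sub, Valuation.map_neg, hmapc] at h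
    exact h
  have h4 : Q''.adicValuation (algebraMap E' E'' a₀) < 1 := by
    rw [lt_one_iff_of_mem_iff (algebraMap E' E'') lies,
      ← lt_one_iff_of_mem_iff (algebraMap E' E'') lies']
    exact h3
  -- hence `m'(ρ)` vanishes at `Q''`
  have h5 : Q''.adicValuation (((minpoly E' ρ').map (algebraMap E' E'')).eval ρ) < 1 := by
    have h := val_eval_sub_lt_one Q'' (p := (minpoly E' ρ').map (algebraMap E' E''))
      (fun n => by rw [coeff_map]; exact (lies _).2 (hm'c n)) hval.mem
      (isValueAt_algebraMap Q'' c).mem hval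
    rw [hmapc] at h
    have e : ((minpoly E' ρ').map (algebraMap E' E'')).eval ρ =
        (((minpoly E' ρ').map (algebraMap E' E'')).eval ρ - algebraMap E' E'' a₀) +
          algebraMap E' E'' a₀ := by ring
    rw [e]
    exact (Valuation.map_add _ _ _).trans_lt (max_lt h h4)
  -- but `ρ` is a root of `g'`
  have hroot : (g'.map (algebraMap E' E'')).eval ρ = 0 := by
    have h := hρ
    rw [hg', map_mul] at h
    rw [Polynomial.eval_map_algebraMap]
    exact (mul_eq_zero.mp h).resolve_left hnot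
  refine not_val_eval_lt_one_of_mul Q'' (Ψ := Ψ.map (algebraMap E' E''))
    (m := (minpoly E' ρ').map (algebraMap E' E'')) (g := g'.map (algebraMap E' E''))
    (by rw [hg', Polynomial.map_mul])
    (fun n => by rw [coeff_map]; exact (lies _).2 (hg'c n)) hval.mem hroot ?_ h5
  rw [Polynomial.derivative_map, Polynomial.eval_map_algebraMap]
  exact hsimple

end GenericValues

variable {M q : ℕ} [NeZero M] [hq : Fact q.Prime]
variable (B : ValuationSubring (AlgebraicClosure ℚ)) (hB : B.LiesOverPrime q) (hqM : ¬ q ∣ M)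
variable {ζ : Kbˣ} (hζ : IsPrimitiveRoot ζ q)

local notation "kB" => IsLocalRing.ResidueField B
local notation "FtM" => modularFunctionFieldFullC (IsLocalRing.ResidueField B) M

/-- shortcut instance (found slowly by unification otherwise) -/
local instance instAlgebraResidueFullCCh :
    Algebra (IsLocalRing.ResidueField B)
      (modularFunctionFieldFullC (IsLocalRing.ResidueField B) M) :=
  SubalgebraClass.toAlgebra (modularFunctionFieldFullC (IsLocalRing.ResidueField B) M)

/-- shortcut instance (found slowly by unification otherwise) -/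
local instance instAlgebraResidueFMidCh : Algebra (IsLocalRing.ResidueField B) (FMid M B) :=
  (FMid M B).algebra'

/-- the algebra `F₂ / α₂ F₁` -/
local instance instAlgebraAlongCh : Algebra (Fb (M * q)) (Fb (M * q * q)) :=
  algebraAlong (alpha2 M q)

local instance instTowerAlongCh : IsScalarTower Kb (Fb (M * q)) (Fb (M * q * q)) :=
  isScalarTower_along (alpha2 M q)

section Basic

variable {b : ℕ} (hb : b < q - 1)

theorem comap_mid : (w2 B hB hqM hζ hb).comap (algebraMap (Fb (M * q)) (Fb (M * q * q))) =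
    (constRedW1 B hB hqM).O := comap_alpha2_w2 B hB hqM hζ hb

theorem res_map_mid (y : Fb (M * q)) (hy : y ∈ (constRedW1 B hB hqM).O)
    (hy' : algebraMap (Fb (M * q)) (Fb (M * q * q)) y ∈ w2 B hB hqM hζ hb) :
    resMid B hB hqM hζ hb ⟨algebraMap (Fb (M * q)) (Fb (M * q * q)) y, hy'⟩ =
      algebraMap FtM (FMid M B) ((constRedW1 B hB hqM).res ⟨y, hy⟩) :=
  resMid_alpha2 B hB hqM hζ hb y hy

theorem comap_inf : (w1 M B hB).comap (algebraMap (Fb (M * q)) (Fb (M * q * q))) =
    (constRedW1 B hB hqM).O := comap_alpha2_w1 B hB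

theorem res_map_inf (y : Fb (M * q)) (hy : y ∈ (constRedW1 B hB hqM).O)
    (hy' : algebraMap (Fb (M * q)) (Fb (M * q * q)) y ∈ w1 M B hB) :
    resInf B hB hqM ⟨algebraMap (Fb (M * q)) (Fb (M * q * q)) y, hy'⟩ =
      algebraMap FtM FtM ((constRedW1 B hB hqM).res ⟨y, hy⟩) :=
  resInf_alpha2 B hB hqM y hy

end Basic


/-! ### separation of the `q` valuations over `can` by the generator -/

section Sep

/-- **the residues of `u` separate the `q` valuations over `can`** (`w₁` and the `w₂ b`) -/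
structure SepU (u : Fb (M * q * q)) : Prop where
  mid_ne : ∀ (b b' : Fin (q - 1)) (h : u ∈ w2 B hB hqM hζ b.2) (h' : u ∈ w2 B hB hqM hζ b'.2),
    b ≠ b' → resw2 B hB hqM hζ b.2 ⟨u, h⟩ ≠ resw2 B hB hqM hζ b'.2 ⟨u, h'⟩
  inf_ne : ∀ (b : Fin (q - 1)) (h1 : u ∈ w1 M B hB) (h : u ∈ w2 B hB hqM hζ b.2),
    resw1 M B hB ⟨u, h1⟩ ≠ resw2 B hB hqM hζ b.2 ⟨u, h⟩

variable {Q' : Place (IsLocalRing.ResidueField B)
    (modularFunctionFieldFullC (IsLocalRing.ResidueField B) M)}
  {T' : Set (Place (AlgebraicClosure ℚ) (Fb (M * q)))}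
  (C : SmoothChart B (constRedW1 B hB hqM).O (constRedW1 B hB hqM).res Q' T')
  {u v : Fb (M * q * q)} {Ψ : (Fb (M * q))[X]} (Ge : EtaleGen C.R u v Ψ)

include Ge in
theorem u_mem_w2 {b : ℕ} (hb : b < q - 1) : u ∈ w2 B hB hqM hζ hb :=
  etaleGen_u_mem C (comap_mid B hB hqM hζ hb) Ge

include Ge in
theorem u_mem_w1 : u ∈ w1 M B hB :=
  etaleGen_u_mem C (comap_inf B hB hqM) Ge

include Ge in
/-- the residue on a middle valuation of a polynomial in `u` over the chart ring -/
theorem resw2_aeval {b : ℕ} (hb : b < q - 1) {p : (Fb (M * q))[X]} (hp : ∀ n, p.coeff n ∈ C.R)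
    (h : aeval u p ∈ w2 B hB hqM hζ hb) :
    resw2 B hB hqM hζ hb ⟨aeval u p, h⟩ =
      ((aeval (resMid B hB hqM hζ hb ⟨u, u_mem_w2 B hB hqM hζ C Ge hb⟩) (redPoly C hp) :
        FMid M B) : LaurentSeries kB) := by
  rw [← aeval_redPoly (res'' := resMid B hB hqM hζ hb) C (comap_mid B hB hqM hζ hb)
    (res_map_mid B hB hqM hζ hb) (u_mem_w2 B hB hqM hζ C Ge hb) hp h, coe_resMid]

include Ge in
/-- the residue on `w₁` of a polynomial in `u` over the chart ring -/
theorem resw1_aeval {p : (Fb (M * q))[X]} (hp : ∀ n, p.coeff n ∈ C.R)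
    (h : aeval u p ∈ w1 M B hB) :
    resw1 M B hB ⟨aeval u p, h⟩ =
      ((aeval (resInf B hB hqM ⟨u, u_mem_w1 B hB hqM C Ge⟩) (redPoly C hp) : FtM) :
        LaurentSeries kB) := by
  rw [← aeval_redPoly (res'' := resInf B hB hqM) C (comap_inf B hB hqM)
    (res_map_inf B hB hqM) (u_mem_w1 B hB hqM C Ge) hp h, coe_resInf]

include Ge in
/-- **(SEP)** separation of the residue maps on a subring of `C.R[u]` gives the separation by
`u` -/
theorem sepU_of_subring (S : Subring (Fb (M * q * q)))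
    (hS : ∀ y ∈ S, ∃ p : (Fb (M * q))[X], (∀ i, p.coeff i ∈ C.R) ∧ aeval u p = y)
    (hsep2 : ∀ b b' : Fin (q - 1), b ≠ b' → ∃ (z : Fb (M * q * q)) (_ : z ∈ S)
      (h1 : z ∈ w2 B hB hqM hζ b.2) (h2 : z ∈ w2 B hB hqM hζ b'.2),
      resw2 B hB hqM hζ b.2 ⟨z, h1⟩ ≠ resw2 B hB hqM hζ b'.2 ⟨z, h2⟩)
    (hsep1 : ∀ b : Fin (q - 1), ∃ (z : Fb (M * q * q)) (_ : z ∈ S)
      (h1 : z ∈ w1 M B hB) (h2 : z ∈ w2 B hB hqM hζ b.2),
      resw1 M B hB ⟨z, h1⟩ ≠ resw2 B hB hqM hζ b.2 ⟨z, h2⟩) :
    SepU B hB hqM hζ u := by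
  constructor
  · intro b b' h h' hbb' heq
    obtain ⟨z, hz, h1, h2, hne⟩ := hsep2 b b' hbb'
    obtain ⟨p, hp, rfl⟩ := hS z hz
    apply hne
    rw [resw2_aeval B hB hqM hζ C Ge b.2 hp h1, resw2_aeval B hB hqM hζ C Ge b'.2 hp h2]
    have e : resMid B hB hqM hζ b.2 ⟨u, u_mem_w2 B hB hqM hζ C Ge b.2⟩ =
        resMid B hB hqM hζ b'.2 ⟨u, u_mem_w2 B hB hqM hζ C Ge b'.2⟩ := by
      apply Subtype.ext
      rw [coe_resMid, coe_resMid]
      exact heq
    rw [e]
  · intro b h1 h heq
    obtain ⟨z, hz, hz1, hz2, hne⟩ := hsep1 b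
    obtain ⟨p, hp, rfl⟩ := hS z hz
    apply hne
    rw [resw2_aeval B hB hqM hζ C Ge b.2 hp hz2, resw1_aeval B hB hqM C Ge hp hz1]
    have e : algebraMap FtM (FMid M B) (resInf B hB hqM ⟨u, u_mem_w1 B hB hqM C Ge⟩) =
        resMid B hB hqM hζ b.2 ⟨u, u_mem_w2 B hB hqM hζ C Ge b.2⟩ := by
      apply Subtype.ext
      rw [coe_resMid]
      exact heq
    rw [← e, Polynomial.aeval_algebraMap_apply]
    rfl

end Sep


/-! ### the residue of the generator on a middle component generates `F̃_M(θ j̃) / F̃_M` -/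

section Gen

/-- **transfer of residue equations** between two indices with the same valuation ring, over
`F̃_M` and with values in `F̃_M(θ j̃)` -/
theorem aeval_resMid_eq_zero_of_eq {b b' : ℕ} (hb : b < q - 1) (hb' : b' < q - 1)
    (heq : w2 B hB hqM hζ hb' = w2 B hB hqM hζ hb)
    (P : (modularFunctionFieldFullC (IsLocalRing.ResidueField B) M)[X]) {x : Fb (M * q * q)}
    (hx : x ∈ w2 B hB hqM hζ hb) (hx' : x ∈ w2 B hB hqM hζ hb')
    (h0 : aeval (resMid B hB hqM hζ hb ⟨x, hx⟩) P = 0) :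
    aeval (resMid B hB hqM hζ hb' ⟨x, hx'⟩) P = 0 := by
  have hR' : ∀ y ∈ (constRedW1 B hB hqM).O.toSubring, y ∈ (constRedW1 B hB hqM).O :=
    fun y hy => hy
  have hsurj : Function.Surjective (redR (constRedW1 B hB hqM).res hR') := by
    intro f
    obtain ⟨a, ha⟩ := (constRedW1 B hB hqM).res_surjective f
    exact ⟨⟨a, a.2⟩, ha⟩
  obtain ⟨Ph, rfl⟩ := Polynomial.map_surjective _ hsurj P
  have hO : ∀ {b'' : ℕ} (hb'' : b'' < q - 1) (y : Fb (M * q)), y ∈ (constRedW1 B hB hqM).O →
      algebraMap (Fb (M * q)) (Fb (M * q * q)) y ∈ w2 B hB hqM hζ hb'' := fun hb'' y hy =>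
    map_mem_of_mem (comap_mid B hB hqM hζ hb'') hy
  have hm := aeval_map_mem (hO hb) hR' hx Ph
  have hm' := aeval_map_mem (hO hb') hR' hx' Ph
  have e := res_aeval_map (res'' := resMid B hB hqM hζ hb) (comap_mid B hB hqM hζ hb)
    (res_map_mid B hB hqM hζ hb) hR' hx Ph hm
  have e' := res_aeval_map (res'' := resMid B hB hqM hζ hb') (comap_mid B hB hqM hζ hb')
    (res_map_mid B hB hqM hζ hb') hR' hx' Ph hm'
  rw [← e']
  rw [← e] at h0
  have h1 := (resMid_eq_zero_iff_mem_nonunits B hB hqM hζ hb _).1 h0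
  rw [resMid_eq_zero_iff_mem_nonunits]
  show aeval x (Ph.map (constRedW1 B hB hqM).O.toSubring.subtype) ∈
    (w2 B hB hqM hζ hb').nonunits
  rw [heq]
  exact h1

variable {Q' : Place (IsLocalRing.ResidueField B)
    (modularFunctionFieldFullC (IsLocalRing.ResidueField B) M)}
  {T' : Set (Place (AlgebraicClosure ℚ) (Fb (M * q)))}
  (C : SmoothChart B (constRedW1 B hB hqM).O (constRedW1 B hB hqM).res Q' T')
  {u v : Fb (M * q * q)} {Ψ : (Fb (M * q))[X]} (Ge : EtaleGen C.R u v Ψ)
  (hsep : SepU B hB hqM hζ u)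

include hsep in
/-- the residues of `u` on the middle valuations are pairwise distinct in `F̃_M(θ j̃)` -/
theorem resMid_u_injective :
    Function.Injective fun b' : Fin (q - 1) =>
      resMid B hB hqM hζ b'.2 ⟨u, u_mem_w2 B hB hqM hζ C Ge b'.2⟩ := by
  intro b₁ b₂ h
  by_contra hne
  apply hsep.mid_ne b₁ b₂ (u_mem_w2 B hB hqM hζ C Ge b₁.2) (u_mem_w2 B hB hqM hζ C Ge b₂.2) hne
  have := congrArg (fun z : FMid M B => (z : LaurentSeries kB)) h
  simpa only [coe_resMid] using this

include hsep in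
/-- **(GEN)** the residue of `u` on a middle component generates `F̃_M(θ j̃)` over `F̃_M` -/
theorem gen_mid {b : ℕ} (hb : b < q - 1) (y : FMid M B) :
    ∃ p : (modularFunctionFieldFullC (IsLocalRing.ResidueField B) M)[X],
      aeval (resMid B hB hqM hζ hb ⟨u, u_mem_w2 B hB hqM hζ C Ge hb⟩) p = y := by
  classical
  haveI := finiteDimensional_FMid B hB hqM
  refine forall_exists_aeval_eq_of_card_roots
    (resMid B hB hqM hζ hb ⟨u, u_mem_w2 B hB hqM hζ C Ge hb⟩) (Ω := FMid M B)
    ((Finset.univ.filter fun b' : Fin (q - 1) =>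
      w2 B hB hqM hζ b'.2 = w2 B hB hqM hζ hb).image fun b' : Fin (q - 1) =>
        resMid B hB hqM hζ b'.2 ⟨u, u_mem_w2 B hB hqM hζ C Ge b'.2⟩) ?_ ?_ y
  · intro x hx
    obtain ⟨b', hb', rfl⟩ := Finset.mem_image.mp hx
    rw [Finset.mem_filter] at hb'
    exact aeval_resMid_eq_zero_of_eq B hB hqM hζ hb b'.2 hb'.2 _ _ _ (minpoly.aeval _ _)
  · rw [Finset.card_image_of_injective _ (resMid_u_injective B hB hqM hζ C Ge hsep),
      card_class_eq B hB hqM hζ hb, finrank_FMid B hB hqM]

end Gen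

/-! ### the points of the middle components and of `cInf` over `Q'` -/

section Points

include hB hqM in
/-- `F̃_M(θ j̃) / F̃_M` is integral -/
theorem isIntegral_FMidCh :
    Algebra.IsIntegral (modularFunctionFieldFullC (IsLocalRing.ResidueField B) M) (FMid M B) :=
  haveI := finiteDimensional_FMid B hB hqM
  Algebra.IsIntegral.of_finite _ _

variable {Q' : Place (IsLocalRing.ResidueField B)
    (modularFunctionFieldFullC (IsLocalRing.ResidueField B) M)}
  {T' : Set (Place (AlgebraicClosure ℚ) (Fb (M * q)))}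
  (C : SmoothChart B (constRedW1 B hB hqM).O (constRedW1 B hB hqM).res Q' T')
  {u v : Fb (M * q * q)} {Ψ : (Fb (M * q))[X]} (Ge : EtaleGen C.R u v Ψ)
  (hsep : SepU B hB hqM hζ u)

/-- the reduction of `Ψ` is monic -/
theorem redPoly_monic : (redPoly C Ge.coeff_mem).Monic :=
  ((Polynomial.monic_toSubring _ _ _).mpr Ge.monic).map _

/-! #### the middle components -/

include hsep in
/-- **(1) the standard étale point `(w₂ b, Q'')`** over `Q'` -/
theorem etPoint_mid {b : ℕ} (hb : b < q - 1) (Q'' : Place kB (FMid M B))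
    (hQ'' : haveI := isIntegral_FMidCh B hB hqM; Q''.restrict FtM = Q') {c : kB}
    (hval : IsValueAt Q'' (resMid B hB hqM hζ hb ⟨u, u_mem_w2 B hB hqM hζ C Ge hb⟩) c) :
    EtPoint Q' Q'' (resMid B hB hqM hζ hb ⟨u, u_mem_w2 B hB hqM hζ C Ge hb⟩)
      (redPoly C Ge.coeff_mem) c :=
  haveI := isIntegral_FMidCh B hB hqM
  etaleGen_etPoint C (constRedW1 B hB hqM).res_algebraMap (comap_mid B hB hqM hζ hb)
    (res_map_mid B hB hqM hζ hb) (lies_of_restrict_eq hQ'') Ge
    (gen_mid B hB hqM hζ C Ge hsep hb) hval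

/-- the residue of `u` on a middle component has a value at every place over `Q'` -/
theorem exists_value_mid {b : ℕ} (hb : b < q - 1) (Q'' : Place kB (FMid M B))
    (hQ'' : haveI := isIntegral_FMidCh B hB hqM; Q''.restrict FtM = Q') :
    ∃ c : B, IsValueAt Q'' (resMid B hB hqM hζ hb ⟨u, u_mem_w2 B hB hqM hζ C Ge hb⟩)
      (IsLocalRing.residue B c) := by
  haveI := isIntegral_FMidCh B hB hqM
  have humem : resMid B hB hqM hζ hb ⟨u, u_mem_w2 B hB hqM hζ C Ge hb⟩ ∈
      Q''.toValuationSubring :=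
    mem_of_monic (Ψ := redPoly C Ge.coeff_mem) (lies_of_restrict_eq hQ'')
      (redPoly_monic B hB hqM C Ge)
      (coeff_redPoly_mem C (constRedW1 B hB hqM).res_algebraMap Ge.coeff_mem)
      (etaleGen_root_red C (comap_mid B hB hqM hζ hb) (res_map_mid B hB hqM hζ hb) Ge)
  obtain ⟨c₀, hc₀⟩ := exists_isValueAt Q'' ((riemannPkg_FMid B hB hqM).deg_one Q'') humem
  obtain ⟨c, rfl⟩ := IsLocalRing.residue_surjective c₀
  exact ⟨c, hc₀⟩

include Ge hsep in
/-- **(2) `ord_map`**: every place of `F̃_M(θ j̃)` over `Q'` is unramified -/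
theorem ord_map_mid (Q'' : Place kB (FMid M B))
    (hQ'' : haveI := isIntegral_FMidCh B hB hqM; Q''.restrict FtM = Q') (f : FtM) :
    Q''.ord (algebraMap FtM (FMid M B) f) = Q'.ord f := by
  have hq2 : 0 < q - 1 := Nat.sub_pos_of_lt hq.out.one_lt
  obtain ⟨c, hc⟩ := exists_value_mid B hB hqM hζ C Ge hq2 Q'' hQ''
  exact (etPoint_mid B hB hqM hζ C Ge hsep hq2 Q'' hQ'' hc).ord_map f

include Ge hsep in
/-- **(2) `hunr`**: the ramification index of every place of `F̃_M(θ j̃)` over `Q'` is `1` -/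
theorem ramificationIndex_mid (Q'' : Place kB (FMid M B))
    (hQ'' : haveI := isIntegral_FMidCh B hB hqM; Q''.restrict FtM = Q') :
    haveI := isIntegral_FMidCh B hB hqM
    Q''.ramificationIndex FtM = 1 := by
  haveI := isIntegral_FMidCh B hB hqM
  have hq2 : 0 < q - 1 := Nat.sub_pos_of_lt hq.out.one_lt
  obtain ⟨c, hc⟩ := exists_value_mid B hB hqM hζ C Ge hq2 Q'' hQ''
  exact (etPoint_mid B hB hqM hζ C Ge hsep hq2 Q'' hQ'' hc).ramificationIndex_eq_one

include hsep in
/-- **(1) the cover sheet of the point `(w₂ b, Q'')`** over `Q'`, generator the étale generator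
`u` of the purity plug, polynomial `Ψ`, coefficient ring the ring of the chart -/
theorem exists_coverSheet_mid
    (hlift : ∀ f : FtM, 0 ≤ Q'.ord f → ∃ y ∈ C.R, ∃ hy : y ∈ (constRedW1 B hB hqM).O,
      (constRedW1 B hB hqM).res ⟨y, hy⟩ = f)
    {b : ℕ} (hb : b < q - 1) (Q'' : Place kB (FMid M B))
    (hQ'' : haveI := isIntegral_FMidCh B hB hqM; Q''.restrict FtM = Q') :
    ∃ (c : B) (ψ ψc : (Fb (M * q))[X]),
      CoverSheet B (IsLocalRing.residue B) (constRedW1 B hB hqM).O (constRedW1 B hB hqM).res Q'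
        (constRedMid B hB hqM hζ hb).O (constRedMid B hB hqM hζ hb).res Q'' C.R u Ψ ψ ψc c ∧
      IsValueAt Q'' (resMid B hB hqM hζ hb ⟨u, u_mem_w2 B hB hqM hζ C Ge hb⟩)
        (IsLocalRing.residue B c) ∧
      ψ.natDegree = (minpoly FtM
        (resMid B hB hqM hζ hb ⟨u, u_mem_w2 B hB hqM hζ C Ge hb⟩)).natDegree :=
  haveI := isIntegral_FMidCh B hB hqM
  etaleGen_exists_coverSheet (res'' := resMid B hB hqM hζ hb) C
    (constRedW1 B hB hqM).res_algebraMap (comap_mid B hB hqM hζ hb)
    (res_map_mid B hB hqM hζ hb) (resMid_eq_zero_iff_mem_nonunits B hB hqM hζ hb)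
    (lies_of_restrict_eq hQ'') Ge ((riemannPkg_FMid B hB hqM).deg_one Q'')
    IsLocalRing.residue_surjective (gen_mid B hB hqM hζ C Ge hsep hb) hlift

/-! #### the point of `cInf` -/

/-- **(1) the standard étale point of `cInf`** over `Q'` -/
theorem etPoint_inf {c : kB}
    (hval : IsValueAt Q' (resInf B hB hqM ⟨u, u_mem_w1 B hB hqM C Ge⟩) c) :
    EtPoint Q' Q' (resInf B hB hqM ⟨u, u_mem_w1 B hB hqM C Ge⟩) (redPoly C Ge.coeff_mem) c :=
  etaleGen_etPoint (res'' := resInf B hB hqM) C (constRedW1 B hB hqM).res_algebraMap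
    (comap_inf B hB hqM) (res_map_inf B hB hqM) (fun _ => Iff.rfl) Ge
    (fun y => ⟨Polynomial.C y, by rw [aeval_C]; rfl⟩) hval

/-- the residue of `u` on `cInf` has a value at `Q'` -/
theorem exists_value_inf :
    ∃ c : B, IsValueAt Q' (resInf B hB hqM ⟨u, u_mem_w1 B hB hqM C Ge⟩)
      (IsLocalRing.residue B c) := by
  have humem : resInf B hB hqM ⟨u, u_mem_w1 B hB hqM C Ge⟩ ∈ Q'.toValuationSubring :=
    mem_of_monic (Q'' := Q') (Ψ := redPoly C Ge.coeff_mem) (fun _ => Iff.rfl)
      (redPoly_monic B hB hqM C Ge)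
      (coeff_redPoly_mem C (constRedW1 B hB hqM).res_algebraMap Ge.coeff_mem)
      (etaleGen_root_red (res'' := resInf B hB hqM) C (comap_inf B hB hqM)
        (res_map_inf B hB hqM) Ge)
  obtain ⟨c₀, hc₀⟩ := exists_isValueAt Q' ((riemannPkg_FtM B hB hqM).deg_one Q') humem
  obtain ⟨c, rfl⟩ := IsLocalRing.residue_surjective c₀
  exact ⟨c, hc₀⟩

/-- **(1) the cover sheet of the point of `cInf`** over `Q'`, generator the étale generator `u` of
the purity plug -/
theorem exists_coverSheet_inf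
    (hlift : ∀ f : FtM, 0 ≤ Q'.ord f → ∃ y ∈ C.R, ∃ hy : y ∈ (constRedW1 B hB hqM).O,
      (constRedW1 B hB hqM).res ⟨y, hy⟩ = f) :
    ∃ (c : B) (ψ ψc : (Fb (M * q))[X]),
      CoverSheet B (IsLocalRing.residue B) (constRedW1 B hB hqM).O (constRedW1 B hB hqM).res Q'
        (constRedCInf B hB hqM).O (constRedCInf B hB hqM).res Q' C.R u Ψ ψ ψc c ∧
      IsValueAt Q' (resInf B hB hqM ⟨u, u_mem_w1 B hB hqM C Ge⟩) (IsLocalRing.residue B c) ∧
      ψ.natDegree = (minpoly FtM (resInf B hB hqM ⟨u, u_mem_w1 B hB hqM C Ge⟩)).natDegree :=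
  etaleGen_exists_coverSheet (res'' := resInf B hB hqM) (Q'' := Q') C
    (constRedW1 B hB hqM).res_algebraMap (comap_inf B hB hqM)
    (res_map_inf B hB hqM) (resInf_eq_zero_iff_mem_nonunits B hB hqM)
    (fun _ => Iff.rfl) Ge ((riemannPkg_FtM B hB hqM).deg_one Q')
    IsLocalRing.residue_surjective (fun y => ⟨Polynomial.C y, by rw [aeval_C]; rfl⟩) hlift

/-! #### (3) the values of `u` at the `q` points over `Q'` are pairwise distinct -/

include hsep in
/-- two distinct places of the same middle component -/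
theorem value_ne_mid_of_place_ne {b : ℕ} (hb : b < q - 1) {Q'' Q''' : Place kB (FMid M B)}
    (hQ'' : haveI := isIntegral_FMidCh B hB hqM; Q''.restrict FtM = Q')
    (hQ''' : haveI := isIntegral_FMidCh B hB hqM; Q'''.restrict FtM = Q')
    (hne : Q'' ≠ Q''') {c c' : kB}
    (hval : IsValueAt Q'' (resMid B hB hqM hζ hb ⟨u, u_mem_w2 B hB hqM hζ C Ge hb⟩) c)
    (hval' : IsValueAt Q''' (resMid B hB hqM hζ hb ⟨u, u_mem_w2 B hB hqM hζ C Ge hb⟩) c') :
    c ≠ c' := by
  haveI := isIntegral_FMidCh B hB hqM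
  rintro rfl
  exact hne ((etPoint_mid B hB hqM hζ C Ge hsep hb Q''' hQ''' hval').eq_of_restrict_eq
    hQ'' hval)

set_option maxHeartbeats 1600000 in
include hsep in
/-- the residue of `u` on `w₂ b` is not conjugate to its residue on a different valuation ring
`w₂ b'` -/
theorem aeval_minpoly_resMid_ne_zero {b b' : ℕ} (hb : b < q - 1) (hb' : b' < q - 1)
    (hw : w2 B hB hqM hζ hb ≠ w2 B hB hqM hζ hb') :
    aeval (resMid B hB hqM hζ hb ⟨u, u_mem_w2 B hB hqM hζ C Ge hb⟩)
      (minpoly FtM (resMid B hB hqM hζ hb' ⟨u, u_mem_w2 B hB hqM hζ C Ge hb'⟩)) ≠ 0 := by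
  classical
  haveI := finiteDimensional_FMid B hB hqM
  intro h0
  have hint : IsIntegral FtM (resMid B hB hqM hζ hb' ⟨u, u_mem_w2 B hB hqM hζ C Ge hb'⟩) :=
    Algebra.IsIntegral.isIntegral _
  have hne : (minpoly FtM (resMid B hB hqM hζ hb' ⟨u, u_mem_w2 B hB hqM hζ C Ge hb'⟩)).map
      (algebraMap FtM (FMid M B)) ≠ 0 := Polynomial.map_ne_zero (minpoly.ne_zero hint)
  have hmem := mem_of_isRoot_of_card hne
    ((Finset.univ.filter fun b'' : Fin (q - 1) =>
      w2 B hB hqM hζ b''.2 = w2 B hB hqM hζ hb').image fun b'' : Fin (q - 1) =>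
        resMid B hB hqM hζ b''.2 ⟨u, u_mem_w2 B hB hqM hζ C Ge b''.2⟩)
    (by
      intro x hx
      obtain ⟨b'', hb'', rfl⟩ := Finset.mem_image.mp hx
      rw [Finset.mem_filter] at hb''
      rw [IsRoot.def, Polynomial.eval_map_algebraMap]
      exact aeval_resMid_eq_zero_of_eq B hB hqM hζ hb' b''.2 hb''.2 _ _ _ (minpoly.aeval _ _))
    (by
      rw [Finset.card_image_of_injective _ (resMid_u_injective B hB hqM hζ C Ge hsep),
        card_class_eq B hB hqM hζ hb', natDegree_map, ← finrank_FMid B hB hqM]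
      exact minpoly.natDegree_le _)
    (a := resMid B hB hqM hζ hb ⟨u, u_mem_w2 B hB hqM hζ C Ge hb⟩)
    (by rw [IsRoot.def, Polynomial.eval_map_algebraMap]; exact h0)
  obtain ⟨b'', hb'', he⟩ := Finset.mem_image.mp hmem
  rw [Finset.mem_filter] at hb''
  have e : b'' = ⟨b, hb⟩ := resMid_u_injective B hB hqM hζ C Ge hsep he
  apply hw
  rw [← hb''.2, e]

include hsep in
/-- two points of two different middle components -/
theorem value_ne_mid_of_ring_ne {b b' : ℕ} (hb : b < q - 1) (hb' : b' < q - 1)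
    (hw : w2 B hB hqM hζ hb ≠ w2 B hB hqM hζ hb') {Q'' Q''' : Place kB (FMid M B)}
    (hQ'' : haveI := isIntegral_FMidCh B hB hqM; Q''.restrict FtM = Q')
    (hQ''' : haveI := isIntegral_FMidCh B hB hqM; Q'''.restrict FtM = Q') {c c' : kB}
    (hval : IsValueAt Q'' (resMid B hB hqM hζ hb ⟨u, u_mem_w2 B hB hqM hζ C Ge hb⟩) c)
    (hval' : IsValueAt Q''' (resMid B hB hqM hζ hb' ⟨u, u_mem_w2 B hB hqM hζ C Ge hb'⟩) c') :
    c ≠ c' := by
  haveI := isIntegral_FMidCh B hB hqM
  have H := etPoint_mid B hB hqM hζ C Ge hsep hb Q'' hQ'' hval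
  exact value_ne_of_not_root (lies_of_restrict_eq hQ'') (lies_of_restrict_eq hQ''')
    (redPoly_monic B hB hqM C Ge) H.coeff_mem H.root
    (etaleGen_root_red C (comap_mid B hB hqM hζ hb') (res_map_mid B hB hqM hζ hb') Ge)
    (aeval_minpoly_resMid_ne_zero B hB hqM hζ C Ge hsep hb hb' hw) H.simple hval hval'

include hsep in
/-- the point of `cInf` and a point of a middle component -/
theorem value_ne_inf_mid {b : ℕ} (hb : b < q - 1) {Q'' : Place kB (FMid M B)}
    (hQ'' : haveI := isIntegral_FMidCh B hB hqM; Q''.restrict FtM = Q') {c c' : kB}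
    (hval : IsValueAt Q' (resInf B hB hqM ⟨u, u_mem_w1 B hB hqM C Ge⟩) c)
    (hval' : IsValueAt Q'' (resMid B hB hqM hζ hb ⟨u, u_mem_w2 B hB hqM hζ C Ge hb⟩) c') :
    c ≠ c' := by
  haveI := isIntegral_FMidCh B hB hqM
  have H := etPoint_mid B hB hqM hζ C Ge hsep hb Q'' hQ'' hval'
  have Hi := etPoint_inf B hB hqM C Ge hval
  have hlies := lies_of_restrict_eq hQ''
  refine (value_ne_of_roots Q'' (Ψ := (redPoly C Ge.coeff_mem).map (algebraMap FtM (FMid M B)))
    (fun n => by rw [coeff_map]; exact (hlies _).2 (H.coeff_mem n))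
    (a := resMid B hB hqM hζ hb ⟨u, u_mem_w2 B hB hqM hζ C Ge hb⟩)
    (b := algebraMap FtM (FMid M B) (resInf B hB hqM ⟨u, u_mem_w1 B hB hqM C Ge⟩))
    (by rw [Polynomial.eval_map_algebraMap]; exact H.root)
    (by
      rw [Polynomial.eval_map_algebraMap, Polynomial.aeval_algebraMap_apply, Hi.root, map_zero])
    ?_ ?_ hval' (isValueAt_map hlies hval)).symm
  · intro he
    apply hsep.inf_ne ⟨b, hb⟩ (u_mem_w1 B hB hqM C Ge) (u_mem_w2 B hB hqM hζ C Ge hb)
    have := congrArg (fun z : FMid M B => (z : LaurentSeries kB)) he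
    simp only [coe_resMid] at this
    rw [this]
    rfl
  · rw [Polynomial.derivative_map, Polynomial.eval_map_algebraMap]
    exact H.simple

end Points

/-! ### the regular chart `regChartCan` of `can` at a non-crossing point -/

section RegChartCan

open Fermat.Agent.BR.S0.RedModular Fermat.Agent.BR.S0.PointDict Fermat.Agent.BR.S0.RedHyp
  Fermat.Agent.BR3.RegAtlas

variable (H : AtlasHyp (chartDataModular B hB hqM) (jx M q))
  (Q' : Place (IsLocalRing.ResidueField B)
    (modularFunctionFieldFullC (IsLocalRing.ResidueField B) M))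
  (hQ' : ∀ e, Q' ≠ z₁ (chartDataModular B hB hqM) e)
  {u v : Fb (M * q * q)} {Ψ : (Fb (M * q))[X]}
  (Ge : EtaleGen (regChartCan B hB hqM H Q' hQ').chart.R u v Ψ)
  (hsep : SepU B hB hqM hζ u)

include hsep in
/-- **(1) the cover sheets of the middle components over a non-crossing point `Q'` of `can`**,
over the ring of `regChartCan`, from the output of the purity plug and the separation -/
theorem exists_coverSheet_mid_regChartCan {b : ℕ} (hb : b < q - 1) (Q'' : Place kB (FMid M B))
    (hQ'' : haveI := isIntegral_FMidCh B hB hqM; Q''.restrict FtM = Q') :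
    ∃ (c : B) (ψ ψc : (Fb (M * q))[X]),
      CoverSheet B (IsLocalRing.residue B) (constRedW1 B hB hqM).O (constRedW1 B hB hqM).res Q'
        (constRedMid B hB hqM hζ hb).O (constRedMid B hB hqM hζ hb).res Q''
        (regChartCan B hB hqM H Q' hQ').chart.R u Ψ ψ ψc c ∧
      IsValueAt Q'' (resMid B hB hqM hζ hb
          ⟨u, u_mem_w2 B hB hqM hζ (regChartCan B hB hqM H Q' hQ').chart Ge hb⟩)
        (IsLocalRing.residue B c) ∧
      ψ.natDegree = (minpoly FtM (resMid B hB hqM hζ hb
          ⟨u, u_mem_w2 B hB hqM hζ (regChartCan B hB hqM H Q' hQ').chart Ge hb⟩)).natDegree :=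
  exists_coverSheet_mid B hB hqM hζ (regChartCan B hB hqM H Q' hQ').chart Ge hsep
    (Fermat.Agent.BR3.RegBase.hlift_regChartCan B hB hqM H Q' hQ') hb Q'' hQ''

/-- **(1) the cover sheet of `cInf` over a non-crossing point `Q'` of `can`**, over the ring of
`regChartCan`, with the generator of the purity plug -/
theorem exists_coverSheet_inf_regChartCan :
    ∃ (c : B) (ψ ψc : (Fb (M * q))[X]),
      CoverSheet B (IsLocalRing.residue B) (constRedW1 B hB hqM).O (constRedW1 B hB hqM).res Q'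
        (constRedCInf B hB hqM).O (constRedCInf B hB hqM).res Q'
        (regChartCan B hB hqM H Q' hQ').chart.R u Ψ ψ ψc c ∧
      IsValueAt Q' (resInf B hB hqM
          ⟨u, u_mem_w1 B hB hqM (regChartCan B hB hqM H Q' hQ').chart Ge⟩)
        (IsLocalRing.residue B c) ∧
      ψ.natDegree = (minpoly FtM (resInf B hB hqM
          ⟨u, u_mem_w1 B hB hqM (regChartCan B hB hqM H Q' hQ').chart Ge⟩)).natDegree :=
  exists_coverSheet_inf B hB hqM (regChartCan B hB hqM H Q' hQ').chart Ge
    (Fermat.Agent.BR3.RegBase.hlift_regChartCan B hB hqM H Q' hQ')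

include Ge in
/-- **(3) `u` is regular on every regular chart upstairs over the tube of `Q'`**: it lies in the
ring of every regular chart of a component containing `u` whose tube lies over the tube of `Q'`. -/
theorem u_mem_regChart {Ft₂ : Type*} [Field Ft₂] [Algebra kB Ft₂]
    {O₂ : ValuationSubring (Fb (M * q * q))} {res₂ : O₂ →+* Ft₂} {Q₂ : Place kB Ft₂}
    {T₂ : Set (Place Kb (Fb (M * q * q)))} (C₂ : RegChart B O₂ res₂ Q₂ T₂)
    (hsub : haveI : Module.Finite (Fb (M * q)) (Fb (M * q * q)) :=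
        Fermat.Agent.Hecke.finiteAlong_heckeAlphaBar (M * q) q
      ∀ P'' ∈ T₂, P''.restrict (Fb (M * q)) ∈ {P | H.r P = ⟨0, Q'⟩})
    (huO : u ∈ O₂) : u ∈ C₂.chart.R :=
  haveI : Module.Finite (Fb (M * q)) (Fb (M * q * q)) :=
    Fermat.Agent.Hecke.finiteAlong_heckeAlphaBar (M * q) q
  Fermat.Agent.BR3.CoverK.Dict.mem_of_isIntegral (regChartCan B hB hqM H Q' hQ') C₂ hsub
    Ge.monic Ge.coeff_mem Ge.root huO

end RegChartCan

end Fermat.Agent.BR3.EllPurity.Charts
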