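import Fermat.Agent.BR3.EllPurity.Vert

/-!
# Program C, node (ELL-PUR-V), concrete form: the residue maps `res_{w₁}`, `res_{w₂ b}` on the
finite-level integral closure `sint` and their pairwise separation

* `VertAbs.sint_le_of_chars`, `VertAbs.sep_of_chars` : generic (same hypotheses as
  `VertAbs.vertHyp_of_chars`): `sint ⊆ W i` and pairwise separation BY ELEMENTS OF `sint`;
* `sint_le_WAll`, `sint_le_w1`, `sint_le_w2` : at EVERY level `S`, the integral closure `sint` of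
  `α₂ (M_S.loc)` lies in `w₁` and in every `w₂ b`;
* `ellV_sep_cofinal hζ` : **for every sufficiently large level `S`**: `EllV … S`, and the `q` maps
  `sint → k((s))`, `z ↦ res_{w₁} z`, `z ↦ res_{w₂ b} z` (`b < q - 1`) are pairwise separated by
  elements of `sint` (index form with `WAll`/`rhoAll`, and unpacked form with `resw1`/`resw2`).
-/

set_option autoImplicit false
set_option linter.unusedSectionVars false
set_option linter.style.haveILetI false

noncomputable section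

/- S36 build-time patch: file-local shortcut instances. They only shorten instance search;
each is the instance that the search finds anyway (reducible, same terms after unfolding). -/
local instance (priority := 100000) Fermat.Agent.BR3.FastInst.instAlgFullC_EllPurity_VertSep
    {k : Type*} [Field k] (N : ℕ) :
    Algebra k ↥(ModularCurve.modularFunctionFieldFullC k N) := inferInstance
local instance (priority := 100000) Fermat.Agent.BR3.FastInst.instFieldFullC_EllPurity_VertSep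
    {k : Type*} [Field k] (N : ℕ) :
    Field ↥(ModularCurve.modularFunctionFieldFullC k N) := inferInstance
local instance (priority := 100000) Fermat.Agent.BR3.FastInst.instAlgLaurent_EllPurity_VertSep
    {k : Type*} [Field k] : Algebra k (LaurentSeries k) := inferInstance


namespace Fermat.Agent.BR3.EllPurity

namespace VertAbs

open Polynomial AlgebraicCurve Fermat.Agent.Val Fermat.Agent.BR.TwoVal Fermat.Agent.BR3.MultiVal
  Fermat.Agent.BR.S0 Fermat.Agent.BR3.PurityPlug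

section Model

variable {K F k : Type*} [Field K] [Field F] [Algebra K F] [Field k]
  {Ft : Type*} [Field Ft] [Algebra k Ft]
  {A : ValuationSubring K} {π : A →+* k} {O : ValuationSubring F} {res : O →+* Ft}
  {Q : Place k Ft} {T : Set (Place K F)} {t : F} {C : Subring F} {ϖ : K}
  (M : SmoothModel A π O res Q T t C ϖ) {F'' : Type*} [Field F''] (α : F →+* F'')
  (L'' : Subfield F'')

/-- the finite-level integral closure lies in every valuation ring of the cover containing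
`α (O)` -/
theorem sint_le_of_chars (hloc : ∀ z ∈ M.loc, z ∈ O) (W : ValuationSubring F'')
    (hWα : ∀ x ∈ O, α x ∈ W) : ∀ y ∈ sint M α L'', y ∈ W := by
  intro y hy
  refine mem_of_isIntegral_subring W (M.loc.map α) ?_ hy.2
  intro r hr
  obtain ⟨x, hx, rfl⟩ := Subring.mem_map.mp hr
  exact hWα x (hloc x hx)

/-- **Separation by elements of the finite-level integral closure** (concrete form of
`vertHyp_of_chars`). -/
theorem sep_of_chars (hL : ∀ r ∈ M.loc, α r ∈ L'') (hloc : ∀ z ∈ M.loc, z ∈ O)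
    (hϖ : algebraMap K F ϖ ∈ O.nonunits)
    {Ω : Type*} [Field Ω] (ρ₀ : O →+* Ω)
    (hρ₀ : ∀ x : O, ρ₀ x = 0 ↔ (x : F) ∈ O.nonunits)
    {I : Type*} (W : I → ValuationSubring F'') (hWα : ∀ i, ∀ x ∈ O, α x ∈ W i)
    (ρ : ∀ i, W i →+* Ω)
    (hρα : ∀ i (x : F) (hx : x ∈ O), ρ i ⟨α x, hWα i x hx⟩ = ρ₀ ⟨x, hx⟩)
    (i j : I)
    (hsep : ∃ (y : F'') (p : F[X]), y ∈ L'' ∧ p.Monic ∧ eval₂ α y p = 0 ∧
      (∀ k, p.coeff k ∈ O ∧ ∃ b c : M.loc, c ≠ 0 ∧ p.coeff k * (c : F) = (b : F)) ∧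
      ∃ (hi : y ∈ W i) (hj : y ∈ W j), ρ i ⟨y, hi⟩ ≠ ρ j ⟨y, hj⟩) :
    ∃ (z : F'') (_ : z ∈ sint M α L'') (hi : z ∈ W i) (hj : z ∈ W j),
      ρ i ⟨z, hi⟩ ≠ ρ j ⟨z, hj⟩ := by
  classical
  have hN : IsNoetherianRing M.loc := Fermat.Agent.BR3.CoverSmooth.loc_isNoetherianRing M
  obtain ⟨y, p, hyL, hp, hpy, hcoef, hi, hj, hyne⟩ := hsep
  have hden : ∀ k, ∃ d : M.loc, (d : F) ∉ O.nonunits ∧ p.coeff k * (d : F) ∈ M.loc := by
    intro k
    obtain ⟨hk, b', c', hc', hbc⟩ := hcoef k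
    exact exists_denominator O M.loc hloc (unifLoc M) hϖ (fun z hz => M.loc_vert z hz) hk hc'
      hbc
  choose d hdn hdR using hden
  set D : M.loc := ∏ k ∈ Finset.range p.natDegree, d k with hD
  have hDn : (D : F) ∉ O.nonunits := by
    rw [hD]
    refine Finset.prod_induction (fun k => d k) (fun z : M.loc => (z : F) ∉ O.nonunits) ?_ ?_
      (fun k _ => hdn k)
    · intro x y hx hy
      rw [Subring.coe_mul]
      exact mul_notMem_nonunits O (hloc y y.2) hx hy
    · rw [Subring.coe_one]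
      exact one_notMem_nonunits O
  have hDk : ∀ k < p.natDegree, p.coeff k * (D : F) ∈ M.loc := by
    intro k hk
    have hk' : k ∈ Finset.range p.natDegree := Finset.mem_range.mpr hk
    rw [hD, ← Finset.mul_prod_erase _ _ hk', Subring.coe_mul, ← mul_assoc]
    exact M.loc.mul_mem (hdR k) (Subtype.property _)
  have hint : IsIntegral ↥(M.loc.map α) (α (D : F) * y) :=
    isIntegral_map_mul α M.loc hp hpy D.2 hDk
  have hzs : α (D : F) * y ∈ sint M α L'' :=
    ⟨L''.mul_mem (hL D D.2) hyL, hint⟩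
  have hDO : (D : F) ∈ O := hloc D D.2
  have hzi : α (D : F) * y ∈ W i := (W i).mul_mem _ _ (hWα i D hDO) hi
  have hzj : α (D : F) * y ∈ W j := (W j).mul_mem _ _ (hWα j D hDO) hj
  have key : ∀ (l : I) (hyl : y ∈ W l) (hzl : α (D : F) * y ∈ W l),
      ρ l ⟨α (D : F) * y, hzl⟩ = ρ₀ ⟨(D : F), hDO⟩ * ρ l ⟨y, hyl⟩ := by
    intro l hyl hzl
    have e1 : (⟨α (D : F) * y, hzl⟩ : W l) = ⟨α (D : F), hWα l D hDO⟩ * ⟨y, hyl⟩ :=
      Subtype.ext rfl
    rw [e1, map_mul, hρα]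
  refine ⟨α (D : F) * y, hzs, hzi, hzj, ?_⟩
  rw [key i hi hzi, key j hj hzj]
  have hD0 : ρ₀ ⟨(D : F), hDO⟩ ≠ 0 := fun h0 => hDn ((hρ₀ _).mp h0)
  exact fun h1 => hyne (mul_left_cancel₀ hD0 h1)

end Model

end VertAbs

open ModularCurve AlgebraicCurve IsLocalRing Polynomial
open Fermat.Agent.X0 Fermat.Agent.Val Fermat.Agent.Red Fermat.Agent.BR.Centre
open Fermat.Agent.Hecke.AL
open Fermat.Agent.BR.TwoVal Fermat.Agent.BR.TwoValInst Fermat.Agent.BR.ConstRedTwo
open Fermat.Agent.BR.S0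
open Fermat.Agent.BR.S0.RedModular Fermat.Agent.BR.S0.RedHyp Fermat.Agent.BR.S0.PointDict
open Fermat.Agent.BR.Inst.SmoothModularAll Fermat.Agent.BR3.CoverK
open Fermat.Agent.BR.Inst.CkPointModular Fermat.Agent.BR.S0.GeomModular
open Fermat.Agent.BR.Inst.Inf.SmoothInstInf Fermat.Agent.BR.Inst.LevelsInst
open Fermat.Agent.BR.Inst.SpecIso Fermat.Agent.BR.Inst.SpecIsoInf
open Fermat.Agent.BR.Inst.Levels Fermat.Agent.BR.Inst.ChartInLevels
open Fermat.Agent.BR.S0.SmoothLevelsGlue Fermat.Agent.BR.S0.SmoothAssembly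
open Fermat.Agent.BR3.RegAtlas Fermat.Agent.BR3.RegBase Fermat.Agent.BR3.FibreProd
open Fermat.Agent.BR3.PurityPlug Fermat.Agent.BR3.MultiVal Fermat.Agent.Igusa Fermat.Agent.BR.ResGen
open Fermat.Agent.BR3.IgSq

set_option synthInstance.maxHeartbeats 400000

variable {M q : ℕ} [NeZero M] [hqF : Fact q.Prime]
variable (B : ValuationSubring Kb) (hB : B.LiesOverPrime q) (hqM : ¬ q ∣ M)

local notation "kB" => IsLocalRing.ResidueField B
local notation "FtM" => modularFunctionFieldFullC (IsLocalRing.ResidueField B) M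

/-- the ring homomorphism `α₂` of the frame -/
local notation "α₂r" =>
  ((alpha2 M q : Fb (M * q) →ₐ[Kb] Fb (M * q * q)) : Fb (M * q) →+* Fb (M * q * q))

section Sep

variable {ζ : Kbˣ} (hζ : IsPrimitiveRoot ζ q)

/-- the local ring of the model lies in the valuation ring of `can` -/
theorem ellModel_loc_le_O (H : AtlasHyp (chartDataModular B hB hqM) (jx M q))
    (Q' : Place kB FtM) (hQ' : ∀ e, Q' ≠ z₁ (chartDataModular B hB hqM) e)
    (hfin : Q'.adicValuation (jFullC kB M) ≤ 1) (S : Finset Kb) :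
    ∀ z ∈ (ellModel B hB hqM H Q' hQ' hfin S).loc, z ∈ (compW B hB hqM 0).O :=
  (ellModel B hB hqM H Q' hQ' hfin S).loc_le
    (fun y hy => (constRed_res_eq_zero_iff (compW B hB hqM 0) y).mpr hy)

/-- **at every level, `sint` lies in all the valuation rings of `F₂` over `can`** -/
theorem sint_le_WAll (H : AtlasHyp (chartDataModular B hB hqM) (jx M q))
    (Q' : Place kB FtM) (hQ' : ∀ e, Q' ≠ z₁ (chartDataModular B hB hqM) e)
    (hfin : Q'.adicValuation (jFullC kB M) ≤ 1)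
    (S : Finset Kb) (i : Option (Fin (q - 1))) :
    ∀ y ∈ sint (ellModel B hB hqM H Q' hQ' hfin S) α₂r (ellGenField M q S),
      y ∈ WAll B hB hqM hζ i :=
  VertAbs.sint_le_of_chars _ _ _ (ellModel_loc_le_O B hB hqM H Q' hQ' hfin S) _
    (alpha2_ringHom_mem_WAll B hB hqM hζ i)

theorem sint_le_w1 (H : AtlasHyp (chartDataModular B hB hqM) (jx M q))
    (Q' : Place kB FtM) (hQ' : ∀ e, Q' ≠ z₁ (chartDataModular B hB hqM) e)
    (hfin : Q'.adicValuation (jFullC kB M) ≤ 1) (S : Finset Kb) :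
    ∀ y ∈ sint (ellModel B hB hqM H Q' hQ' hfin S) α₂r (ellGenField M q S), y ∈ w1 M B hB := by
  obtain ⟨ζ₀, hζ₀⟩ := (⟨hqF.out.ne_zero⟩ : NeZero q) |> fun _ =>
    HasEnoughRootsOfUnity.exists_primitiveRoot Kb q
  have hζ' : IsPrimitiveRoot (hζ₀.isUnit hqF.out.ne_zero).unit q := by
    rw [← IsPrimitiveRoot.coe_units_iff]
    exact hζ₀
  exact sint_le_WAll B hB hqM hζ' H Q' hQ' hfin S none

theorem sint_le_w2 (H : AtlasHyp (chartDataModular B hB hqM) (jx M q))
    (Q' : Place kB FtM) (hQ' : ∀ e, Q' ≠ z₁ (chartDataModular B hB hqM) e)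
    (hfin : Q'.adicValuation (jFullC kB M) ≤ 1)
    (S : Finset Kb) (b : Fin (q - 1)) :
    ∀ y ∈ sint (ellModel B hB hqM H Q' hQ' hfin S) α₂r (ellGenField M q S),
      y ∈ w2 B hB hqM hζ b.2 :=
  sint_le_WAll B hB hqM hζ H Q' hQ' hfin S (some b)

/-- **(ELL-PUR-V), concrete form.** For every sufficiently large level `S`: (V) holds and the `q`
residue maps on `sint` are pairwise separated by elements of `sint`. -/
theorem ellV_sep_index (H : AtlasHyp (chartDataModular B hB hqM) (jx M q))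
    (Q' : Place kB FtM) (hQ' : ∀ e, Q' ≠ z₁ (chartDataModular B hB hqM) e)
    (hfin : Q'.adicValuation (jFullC kB M) ≤ 1) :
    ∃ S₀ : Finset Kb, ∀ S : Finset Kb, S₀ ⊆ S → EllV B hB hqM H Q' hQ' hfin S ∧
      ∀ i j : Option (Fin (q - 1)), i ≠ j →
        ∃ (z : Fb (M * q * q))
          (_ : z ∈ sint (ellModel B hB hqM H Q' hQ' hfin S) α₂r (ellGenField M q S))
          (hi : z ∈ WAll B hB hqM hζ i) (hj : z ∈ WAll B hB hqM hζ j),
          rhoAll B hB hqM hζ i ⟨z, hi⟩ ≠ rhoAll B hB hqM hζ j ⟨z, hj⟩ := by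
  classical
  obtain ⟨S₁, hS₁⟩ := ellV_cofinal B hB hqM H Q' hQ' hfin
  choose y p S₀ hp hpy hpO hne hlev using
    fun ij : {ij : Option (Fin (q - 1)) × Option (Fin (q - 1)) // ij.1 ≠ ij.2} =>
      exists_sep_level B hB hqM hζ ij.1.1 ij.1.2 ij.2
  refine ⟨S₁ ∪ Finset.univ.biUnion S₀, fun S hS => ⟨hS₁ S (Finset.union_subset_left hS), ?_⟩⟩
  have hϖ : algebraMap Kb (Fb (M * q)) (unif B hqF.out hB S) ∈ (compW B hB hqM 0).O.nonunits :=
    (Fermat.Agent.BR.Separate.algebraMap_mem_nonunits_O1_iff (M := M) B hB _).mpr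
      ((ValuationSubring.mem_nonunits_iff B).mpr (unif_lt_one B hqF.out hB S))
  intro i j hij
  have hS' : S₀ ⟨(i, j), hij⟩ ⊆ S :=
    (Finset.subset_biUnion_of_mem S₀ (Finset.mem_univ _)).trans (Finset.union_subset_right hS)
  obtain ⟨hyL, hpF⟩ := hlev ⟨(i, j), hij⟩ S hS'
  refine VertAbs.sep_of_chars (ellModel B hB hqM H Q' hQ' hfin S) _ _
    (alpha2_loc_mem_ellGenField B hB hqM H Q' hQ' hfin S)
    (ellModel_loc_le_O B hB hqM H Q' hQ' hfin S) hϖ (res1 M B hB)
    (fun x => (mem_nonunits_O1_iff (M := M) B hB x.2).symm)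
    (WAll B hB hqM hζ) (alpha2_ringHom_mem_WAll B hB hqM hζ) (rhoAll B hB hqM hζ)
    (fun i x hx => rhoAll_alpha2 B hB hqM hζ i x hx) i j ?_
  refine ⟨y ⟨(i, j), hij⟩, p ⟨(i, j), hij⟩, hyL, hp _, hpy _, fun k => ⟨hpO _ k, ?_⟩,
    hne ⟨(i, j), hij⟩⟩
  obtain ⟨a, b, hb0, hab⟩ := (baseFamily_fin (M * q) B hqF.out hB).frac S _ (hpF k)
  refine ⟨⟨a, (ellModel B hB hqM H Q' hQ' hfin S).le_loc a.2⟩,
    ⟨b, (ellModel B hB hqM H Q' hQ' hfin S).le_loc b.2⟩, ?_, hab⟩
  intro h0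
  apply hb0
  apply Subtype.ext
  exact congrArg (fun z : (ellModel B hB hqM H Q' hQ' hfin S).loc => (z : Fb (M * q))) h0

/-- **(ELL-PUR-V), concrete unpacked form** (`ellV_sep`): for every sufficiently large level `S`,
(V) holds, the residue maps `res_{w₂ b}`, `res_{w₂ b'}` (`b ≠ b'`) are separated by an element of
`sint`, and so are `res_{w₁}` and `res_{w₂ b}`. -/
theorem ellV_sep_cofinal (H : AtlasHyp (chartDataModular B hB hqM) (jx M q))
    (Q' : Place kB FtM) (hQ' : ∀ e, Q' ≠ z₁ (chartDataModular B hB hqM) e)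
    (hfin : Q'.adicValuation (jFullC kB M) ≤ 1) :
    ∃ S₀ : Finset Kb, ∀ S : Finset Kb, S₀ ⊆ S → EllV B hB hqM H Q' hQ' hfin S ∧
      (∀ b b' : Fin (q - 1), b ≠ b' →
        ∃ (z : Fb (M * q * q))
          (_ : z ∈ sint (ellModel B hB hqM H Q' hQ' hfin S) α₂r (ellGenField M q S))
          (h1 : z ∈ w2 B hB hqM hζ b.2) (h2 : z ∈ w2 B hB hqM hζ b'.2),
          resw2 B hB hqM hζ b.2 ⟨z, h1⟩ ≠ resw2 B hB hqM hζ b'.2 ⟨z, h2⟩) ∧
      (∀ b : Fin (q - 1),
        ∃ (z : Fb (M * q * q))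
          (_ : z ∈ sint (ellModel B hB hqM H Q' hQ' hfin S) α₂r (ellGenField M q S))
          (h1 : z ∈ w1 M B hB) (h2 : z ∈ w2 B hB hqM hζ b.2),
          resw1 M B hB ⟨z, h1⟩ ≠ resw2 B hB hqM hζ b.2 ⟨z, h2⟩) := by
  obtain ⟨S₀, hS₀⟩ := ellV_sep_index B hB hqM hζ H Q' hQ' hfin
  refine ⟨S₀, fun S hS => ⟨(hS₀ S hS).1, fun b b' hbb => ?_, fun b => ?_⟩⟩
  · exact (hS₀ S hS).2 (some b) (some b') (fun h => hbb (Option.some.inj h))
  · exact (hS₀ S hS).2 none (some b) (Option.some_ne_none b).symm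

end Sep

end Fermat.Agent.BR3.EllPurity
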