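import Fermat.Agent.BR3.EllPurity.Plug
import Fermat.Agent.BR3.EllPurity.VertSep

/-!
# Program C, node (ELL-PUR): the étale generator of the purity plug separates the `q` generic
points of the fibre

`ell_etale_sep` : at every finite non-crossing point `Q'` of `can` (when `X₀(M)` has no elliptic
points), hypothesis-free combination of the plug `ell_purity_of_vert` and of the vertical characters
`ellV_sep_index` at ONE level `S`:
`∃ u v Ψ, EtaleGen (regChartCan ..).chart.R u v Ψ ∧ deg Ψ = q ∧ SepU B hB hqM hζ u`,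
where `SepU … u` says that `u` lies in the `q` valuation rings `w₁`, `w₂ b` (`b < q - 1`) of `F₂`
over `can` and that its `q` residues `res_{w₁} u`, `res_{w₂ b} u ∈ k((s))` are pairwise distinct.

* `rho_ne_of_aeval` (generic) : if `z = p(u)`, `p ∈ R'[X]`, has different residues under two
  characters which agree on `R'`, then so does `u`;
* `SepU`, `SepU.mem_w1`, `SepU.mem_w2`, `SepU.resw1_ne_resw2`, `SepU.resw2_ne_resw2`;
* `etaleGen_mem_WAll` : the generator lies in every valuation ring over `can`.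
-/

set_option autoImplicit false
set_option linter.unusedSectionVars false
set_option linter.style.haveILetI false

noncomputable section

/- S36 build-time patch: file-local shortcut instances. They only shorten instance search;
each is the instance that the search finds anyway (reducible, same terms after unfolding). -/
local instance (priority := 100000) Fermat.Agent.BR3.FastInst.instAlgFullC_EllPurity_SepU
    {k : Type*} [Field k] (N : ℕ) :
    Algebra k ↥(ModularCurve.modularFunctionFieldFullC k N) := inferInstance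
local instance (priority := 100000) Fermat.Agent.BR3.FastInst.instFieldFullC_EllPurity_SepU
    {k : Type*} [Field k] (N : ℕ) :
    Field ↥(ModularCurve.modularFunctionFieldFullC k N) := inferInstance
local instance (priority := 100000) Fermat.Agent.BR3.FastInst.instAlgLaurent_EllPurity_SepU
    {k : Type*} [Field k] : Algebra k (LaurentSeries k) := inferInstance


namespace Fermat.Agent.BR3.EllPurity

open ModularCurve AlgebraicCurve IsLocalRing Polynomial
open Fermat.Agent.X0 Fermat.Agent.Val Fermat.Agent.Red Fermat.Agent.BR.Centre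
open Fermat.Agent.Hecke.AL
open Fermat.Agent.BR.TwoVal Fermat.Agent.BR.TwoValInst Fermat.Agent.BR.ConstRedTwo
open Fermat.Agent.BR.S0
open Fermat.Agent.BR.S0.RedModular Fermat.Agent.BR.S0.RedHyp Fermat.Agent.BR.S0.PointDict
open Fermat.Agent.BR.Inst.SmoothModularAll Fermat.Agent.BR3.CoverK
open Fermat.Agent.BR.Inst.Levels Fermat.Agent.BR.Inst.ChartInLevels
open Fermat.Agent.BR3.RegAtlas Fermat.Agent.BR3.RegBase Fermat.Agent.BR3.FibreProd
open Fermat.Agent.BR3.PurityPlug Fermat.Agent.BR3.EllPurityPoints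
open Fermat.Agent.BR3.MultiVal Fermat.Agent.Igusa Fermat.Agent.BR.ResGen Fermat.Agent.BR3.IgSq

set_option synthInstance.maxHeartbeats 400000

/-! ### generic: a polynomial in `u` separating two characters -/

section Generic

variable {F F'' Ω : Type*} [Field F] [Field F''] [Algebra F F''] [CommRing Ω]

/-- the value of a character of a valuation ring `W ⊇ α(R')` at `p(u)`, `p ∈ R'[X]`, `u ∈ W` -/
theorem rho_aeval_map (R' : Subring F) (W : ValuationSubring F'') (ρ : W →+* Ω)
    (hR : ∀ x ∈ R', algebraMap F F'' x ∈ W) {u : F''} (hu : u ∈ W) (P : R'[X])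
    (hz : aeval u (P.map R'.subtype) ∈ W) :
    ρ ⟨aeval u (P.map R'.subtype), hz⟩ =
      P.eval₂ (ρ.comp (((algebraMap F F'').comp R'.subtype).codRestrict W
        (fun x => hR x x.2))) (ρ ⟨u, hu⟩) := by
  rw [← Polynomial.hom_eval₂]
  congr 1
  apply Subtype.ext
  show aeval u (P.map R'.subtype) = W.subtype (P.eval₂ _ ⟨u, hu⟩)
  rw [Polynomial.hom_eval₂, aeval_def, Polynomial.eval₂_map]
  rfl

/-- **if `z = p(u)`, `p ∈ R'[X]`, has different residues under two characters which agree on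
`R'`, then so does `u`** -/
theorem rho_ne_of_aeval (R' : Subring F) (Wi Wj : ValuationSubring F'') (ρi : Wi →+* Ω)
    (ρj : Wj →+* Ω) (hRi : ∀ x ∈ R', algebraMap F F'' x ∈ Wi)
    (hRj : ∀ x ∈ R', algebraMap F F'' x ∈ Wj)
    (hcompat : ∀ x (hx : x ∈ R'),
      ρi ⟨algebraMap F F'' x, hRi x hx⟩ = ρj ⟨algebraMap F F'' x, hRj x hx⟩)
    {u : F''} (hui : u ∈ Wi) (huj : u ∈ Wj) {p : F[X]} (hp : ∀ n, p.coeff n ∈ R')
    (hzi : aeval u p ∈ Wi) (hzj : aeval u p ∈ Wj)
    (hne : ρi ⟨aeval u p, hzi⟩ ≠ ρj ⟨aeval u p, hzj⟩) :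
    ρi ⟨u, hui⟩ ≠ ρj ⟨u, huj⟩ := by
  intro heq
  apply hne
  have hl : p ∈ Polynomial.lifts R'.subtype := by
    rw [Polynomial.lifts_iff_coeff_lifts]
    intro n
    exact ⟨⟨p.coeff n, hp n⟩, rfl⟩
  obtain ⟨P, rfl⟩ := (Polynomial.mem_lifts p).1 hl
  rw [rho_aeval_map R' Wi ρi hRi hui P hzi, rho_aeval_map R' Wj ρj hRj huj P hzj, heq]
  congr 1
  ext x
  exact hcompat x x.2

end Generic

variable {M q : ℕ} [NeZero M] [hqF : Fact q.Prime]
variable (B : ValuationSubring Kb) (hB : B.LiesOverPrime q) (hqM : ¬ q ∣ M)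

local notation "kB" => IsLocalRing.ResidueField B
local notation "FtM" => modularFunctionFieldFullC (IsLocalRing.ResidueField B) M

variable {ζ : Kbˣ} (hζ : IsPrimitiveRoot ζ q)

/-! ### the separation property of the generator -/

/-- **`u` separates the `q` generic points of the fibre over `can`**: `u` lies in the valuation
rings `w₁`, `w₂ b` (`b < q - 1`) and its `q` residues in `k((s))` are pairwise distinct. -/
def SepU (u : Fb (M * q * q)) : Prop :=
  ∃ hu : ∀ i : Option (Fin (q - 1)), u ∈ WAll B hB hqM hζ i,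
    ∀ i j : Option (Fin (q - 1)), i ≠ j →
      rhoAll B hB hqM hζ i ⟨u, hu i⟩ ≠ rhoAll B hB hqM hζ j ⟨u, hu j⟩

namespace SepU

variable {B hB hqM hζ} {u : Fb (M * q * q)} (h : SepU B hB hqM hζ u)

include h

theorem mem_WAll (i : Option (Fin (q - 1))) : u ∈ WAll B hB hqM hζ i := h.choose i

theorem rhoAll_ne {i j : Option (Fin (q - 1))} (hij : i ≠ j) :
    rhoAll B hB hqM hζ i ⟨u, h.mem_WAll i⟩ ≠ rhoAll B hB hqM hζ j ⟨u, h.mem_WAll j⟩ :=
  h.choose_spec i j hij

theorem mem_w1 : u ∈ w1 M B hB := h.mem_WAll none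

theorem mem_w2 (b : Fin (q - 1)) : u ∈ w2 B hB hqM hζ b.2 := h.mem_WAll (some b)

theorem resw1_ne_resw2 (b : Fin (q - 1)) :
    resw1 M B hB ⟨u, h.mem_w1⟩ ≠ resw2 B hB hqM hζ b.2 ⟨u, h.mem_w2 b⟩ :=
  h.rhoAll_ne (i := none) (j := some b) (Option.some_ne_none b).symm

theorem resw2_ne_resw2 {b b' : Fin (q - 1)} (hbb : b ≠ b') :
    resw2 B hB hqM hζ b.2 ⟨u, h.mem_w2 b⟩ ≠ resw2 B hB hqM hζ b'.2 ⟨u, h.mem_w2 b'⟩ :=
  h.rhoAll_ne (i := some b) (j := some b') (fun e => hbb (Option.some.inj e))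

end SepU

/-- the étale generator over the ring of a chart of `can` lies in every valuation ring of `F₂`
over `can` -/
theorem etaleGen_mem_WAll {T' : Set (Place Kb (Fb (M * q)))} {Q' : Place kB FtM}
    (C : SmoothChart B (compW B hB hqM 0).O (compW B hB hqM 0).res Q' T')
    {u v : Fb (M * q * q)} {Ψ : (Fb (M * q))[X]}
    (G : letI := algebraAlong (alpha2 M q); EtaleGen C.R u v Ψ)
    (i : Option (Fin (q - 1))) : u ∈ WAll B hB hqM hζ i := by
  letI := algebraAlong (alpha2 M q)
  exact mem_of_aeval_eq_zero (WAll B hB hqM hζ i) G.monic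
    (fun n => alpha2_ringHom_mem_WAll B hB hqM hζ i _ (C.le _ (G.coeff_mem n))) G.root

set_option maxHeartbeats 1600000 in
/-- **(ELL-PUR) the étale generator of the purity plug, with the separation of the `q` generic
points of the fibre**, hypothesis-free at every finite non-crossing point of `can`. -/
theorem ell_etale_sep (h2 : nuTwo M = 0) (h3 : nuThree M = 0)
    (H : AtlasHyp (chartDataModular B hB hqM) (jx M q))
    (Q' : Place kB FtM) (hQ' : ∀ e, Q' ≠ z₁ (chartDataModular B hB hqM) e)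
    (hfin : Q'.adicValuation (jFullC kB M) ≤ 1) :
    letI := algebraAlong (alpha2 M q)
    ∃ (u v : Fb (M * q * q)) (Ψ : (Fb (M * q))[X]),
      EtaleGen (regChartCan B hB hqM H Q' hQ').chart.R u v Ψ ∧ Ψ.natDegree = q ∧
        SepU B hB hqM hζ u := by
  letI := algebraAlong (alpha2 M q)
  obtain ⟨S₀, hS₀⟩ := ellV_sep_index B hB hqM hζ H Q' hQ' hfin
  obtain ⟨hV, hsep⟩ := hS₀ S₀ (Finset.Subset.refl _)
  obtain ⟨u, v, Ψ, G, hdeg, hsint⟩ := ell_purity_of_vert B hB hqM h2 h3 H Q' hQ' hfin S₀ hV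
  have hu : ∀ i : Option (Fin (q - 1)), u ∈ WAll B hB hqM hζ i :=
    etaleGen_mem_WAll B hB hqM hζ (regChartCan B hB hqM H Q' hQ').chart G
  refine ⟨u, v, Ψ, G, hdeg, hu, fun i j hij => ?_⟩
  obtain ⟨z, hz, hi, hj, hne⟩ := hsep i j hij
  obtain ⟨p, hp, rfl⟩ := hsint z hz
  have hR : ∀ (l : Option (Fin (q - 1))) (x : Fb (M * q)),
      x ∈ (regChartCan B hB hqM H Q' hQ').chart.R →
      algebraMap (Fb (M * q)) (Fb (M * q * q)) x ∈ WAll B hB hqM hζ l := fun l x hx =>
    alpha2_ringHom_mem_WAll B hB hqM hζ l x ((regChartCan B hB hqM H Q' hQ').chart.le x hx)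
  refine rho_ne_of_aeval (regChartCan B hB hqM H Q' hQ').chart.R _ _ (rhoAll B hB hqM hζ i)
    (rhoAll B hB hqM hζ j) (hR i) (hR j) (fun x hx => ?_) (hu i) (hu j) hp hi hj hne
  have hxO : x ∈ O1 M B hB := (regChartCan B hB hqM H Q' hQ').chart.le x hx
  exact (rhoAll_alpha2 B hB hqM hζ i x hxO).trans (rhoAll_alpha2 B hB hqM hζ j x hxO).symm

end Fermat.Agent.BR3.EllPurity
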