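import Fermat.Agent.BR3.EllPurity.Charts
import Fermat.Agent.BR3.EllPurity.SepU

/-!
# Program C, team (ELL-PUR), piece (ELL-PUR-AD), final: the fibre of `S''` over EVERY finite
non-crossing point of `can`, hypothesis-free

Input: `EllPurity.ell_etale_sep` (helper4: the étale generator `u` of the purity plug over the ring
of `regChartCan` at a finite non-crossing point `Q'`, with the separation `SepU`), valid when
`X₀(M)` has no elliptic points (`nuTwo M = 0`, `nuThree M = 0`).  Output (through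
`EllPurity/Charts.lean`):

* `sepU_of_ell` : helper4's `EllPurity.SepU` gives `Charts.SepU`; `exists_etaleGen_sepU`;
* (the cover sheets of the middle components, `MidChartEll.FinSheets` / `EllSheets` / `EllOrd`, are
  in helper6's `BR3/MidChartAllFinal.lean`; the version with the values is
  `Charts.exists_coverSheet_mid_regChartCan`);
* **`ord_map_fin`**, **`ramificationIndex_fin`** : `F̃_M(θ j̃) / F̃_M` is unramified over every finite
  non-crossing point;
* `exists_coverSheet_inf_fin` : the cover sheet of `cInf` with the same generator;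
* **`disjoint_mid_of_place_ne`**, **`disjoint_mid_of_ring_ne`**, **`disjoint_inf_mid`** : the tubes
  of ANY regular charts at two different points of `S''` over `Q'`, lying over the tube of `Q'`,
  are disjoint (`dMM`, `dIM`).
-/

set_option autoImplicit false
set_option linter.style.haveILetI false
set_option linter.unusedSectionVars false

noncomputable section

set_option synthInstance.maxHeartbeats 400000

namespace Fermat.Agent.BR3.EllPurity.ChartsEll

open ModularCurve AlgebraicCurve HahnSeries Polynomial Fermat.Agent.X0 Fermat.Agent.Val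
open Fermat.Agent.Hecke.AL Fermat.Agent.BR.TwoVal Fermat.Agent.BR.ResGen Fermat.Agent.Red
open Fermat.Agent.BR.TwoValInst Fermat.Agent.BR3.FibreProd
open Fermat.Agent.BR.ConstRedTwo Fermat.Agent.BR3.CoverK
open Fermat.Agent.BR3.CoverK.OfMinpoly Fermat.Agent.BR.Centre Fermat.Agent.BR.S0
open Fermat.Agent.BR3.CInfRes Fermat.Agent.BR3.EllPurityPoints Fermat.Agent.BR3.EllPurity.EtDVR
open Fermat.Agent.BR3.EllPurity.ChartsGen Fermat.Agent.BR3.EllPurity.SepVal
open Fermat.Agent.BR3.KummerGenus.MidInst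
open Fermat.Agent.BR.S0.RedModular Fermat.Agent.BR.S0.PointDict Fermat.Agent.BR.S0.RedHyp
open Fermat.Agent.BR3.RegAtlas
open Fermat.Agent.BR3.EllPurity.Charts

variable {M q : ℕ} [NeZero M] [hq : Fact q.Prime]
variable (B : ValuationSubring (AlgebraicClosure ℚ)) (hB : B.LiesOverPrime q) (hqM : ¬ q ∣ M)
variable {ζ : Kbˣ} (hζ : IsPrimitiveRoot ζ q)

local notation "kB" => IsLocalRing.ResidueField B
local notation "FtM" => modularFunctionFieldFullC (IsLocalRing.ResidueField B) M

/-- shortcut instance (found slowly by unification otherwise) -/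
local instance instAlgebraResidueFullCChE :
    Algebra (IsLocalRing.ResidueField B)
      (modularFunctionFieldFullC (IsLocalRing.ResidueField B) M) :=
  SubalgebraClass.toAlgebra (modularFunctionFieldFullC (IsLocalRing.ResidueField B) M)

/-- shortcut instance (found slowly by unification otherwise) -/
local instance instAlgebraResidueFMidChE : Algebra (IsLocalRing.ResidueField B) (FMid M B) :=
  (FMid M B).algebra'

/-- the algebra `F₂ / α₂ F₁` -/
local instance instAlgebraAlongChE : Algebra (Fb (M * q)) (Fb (M * q * q)) :=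
  algebraAlong (alpha2 M q)

local instance instTowerAlongChE : IsScalarTower Kb (Fb (M * q)) (Fb (M * q * q)) :=
  isScalarTower_along (alpha2 M q)

local instance instFiniteAlongChE : Module.Finite (Fb (M * q)) (Fb (M * q * q)) :=
  Fermat.Agent.Hecke.finiteAlong_heckeAlphaBar (M * q) q

/-! ### the input -/

/-- helper4's separation property gives the separation property of `EllPurity/Charts.lean` -/
theorem sepU_of_ell {u : Fb (M * q * q)} (h : Fermat.Agent.BR3.EllPurity.SepU B hB hqM hζ u) :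
    Fermat.Agent.BR3.EllPurity.Charts.SepU B hB hqM hζ u where
  mid_ne := fun _ _ _ _ hbb => h.resw2_ne_resw2 hbb
  inf_ne := fun b _ _ => h.resw1_ne_resw2 b

/-- **the étale generator of the purity plug at a finite non-crossing point of `can`, with the
separation in the shape of `EllPurity/Charts.lean`** -/
theorem exists_etaleGen_sepU (h2 : nuTwo M = 0) (h3 : nuThree M = 0)
    (H : AtlasHyp (chartDataModular B hB hqM) (jx M q))
    (Q' : Place kB FtM) (hQ' : ∀ e, Q' ≠ z₁ (chartDataModular B hB hqM) e)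
    (hfin : Q'.adicValuation (jFullC kB M) ≤ 1) :
    ∃ (u v : Fb (M * q * q)) (Ψ : (Fb (M * q))[X]),
      EtaleGen (regChartCan B hB hqM H Q' hQ').chart.R u v Ψ ∧ Ψ.natDegree = q ∧
        Fermat.Agent.BR3.EllPurity.Charts.SepU B hB hqM hζ u := by
  obtain ⟨u, v, Ψ, Ge, hdeg, hsep⟩ := ell_etale_sep B hB hqM hζ h2 h3 H Q' hQ' hfin
  exact ⟨u, v, Ψ, Ge, hdeg, sepU_of_ell B hB hqM hζ hsep⟩

/-! ### the cover sheet of `cInf` -/

section Sheets

open Fermat.Agent.BR3.CoverSmooth

/-- **the cover sheet of `cInf` at a finite non-crossing point of `can`**, with the generator of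
the purity plug -/
theorem exists_coverSheet_inf_fin (h2 : nuTwo M = 0) (h3 : nuThree M = 0)
    (H : AtlasHyp (chartDataModular B hB hqM) (jx M q))
    (Q' : Place kB FtM) (hQ' : ∀ e, Q' ≠ z₁ (chartDataModular B hB hqM) e)
    (hfin : Q'.adicValuation (jFullC kB M) ≤ 1) :
    ∃ (θ : Fb (M * q * q)) (Ψ ψ ψc : (Fb (M * q))[X]) (c : B),
      CoverSheet B (IsLocalRing.residue B) (constRedW1 B hB hqM).O (constRedW1 B hB hqM).res Q'
        (constRedCInf B hB hqM).O (constRedCInf B hB hqM).res Q'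
        (regChartCan B hB hqM H Q' hQ').chart.R θ Ψ ψ ψc c := by
  obtain ⟨ζ₀, hζ₀⟩ := HasEnoughRootsOfUnity.exists_primitiveRoot Kb q
  have hζ' : IsPrimitiveRoot (hζ₀.isUnit (NeZero.ne q)).unit q := by
    rw [← IsPrimitiveRoot.coe_units_iff]
    exact hζ₀
  obtain ⟨u, v, Ψ, Ge, -, -⟩ := exists_etaleGen_sepU B hB hqM hζ' h2 h3 H Q' hQ' hfin
  obtain ⟨c, ψ, ψc, hS, -, -⟩ := exists_coverSheet_inf_regChartCan B hB hqM H Q' hQ' Ge
  exact ⟨u, Ψ, ψ, ψc, c, hS⟩

end Sheets

/-! ### unramifiedness -/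

section Unram

include hζ in
/-- **`ord_map`**: every place of `F̃_M(θ j̃)` over a finite non-crossing point of `can` is
unramified -/
theorem ord_map_fin (h2 : nuTwo M = 0) (h3 : nuThree M = 0)
    (H : AtlasHyp (chartDataModular B hB hqM) (jx M q))
    (Q' : Place kB FtM) (hQ' : ∀ e, Q' ≠ z₁ (chartDataModular B hB hqM) e)
    (hfin : Q'.adicValuation (jFullC kB M) ≤ 1) (Q'' : Place kB (FMid M B))
    (hQ'' : haveI := isIntegral_FMidCh B hB hqM; Q''.restrict FtM = Q') (f : FtM) :
    Q''.ord (algebraMap FtM (FMid M B) f) = Q'.ord f := by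
  obtain ⟨u, v, Ψ, Ge, -, hsep⟩ := exists_etaleGen_sepU B hB hqM hζ h2 h3 H Q' hQ' hfin
  exact ord_map_mid B hB hqM hζ (regChartCan B hB hqM H Q' hQ').chart Ge hsep Q'' hQ'' f

include hζ in
/-- **`hunr`**: the ramification index of every place of `F̃_M(θ j̃)` over a finite non-crossing
point of `can` is `1` -/
theorem ramificationIndex_fin (h2 : nuTwo M = 0) (h3 : nuThree M = 0)
    (H : AtlasHyp (chartDataModular B hB hqM) (jx M q))
    (Q' : Place kB FtM) (hQ' : ∀ e, Q' ≠ z₁ (chartDataModular B hB hqM) e)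
    (hfin : Q'.adicValuation (jFullC kB M) ≤ 1) (Q'' : Place kB (FMid M B))
    (hQ'' : haveI := isIntegral_FMidCh B hB hqM; Q''.restrict FtM = Q') :
    haveI := isIntegral_FMidCh B hB hqM
    Q''.ramificationIndex FtM = 1 := by
  obtain ⟨u, v, Ψ, Ge, -, hsep⟩ := exists_etaleGen_sepU B hB hqM hζ h2 h3 H Q' hQ' hfin
  exact ramificationIndex_mid B hB hqM hζ (regChartCan B hB hqM H Q' hQ').chart Ge hsep Q'' hQ''

end Unram

/-! ### disjointness of the tubes of the points over a finite non-crossing point of `can` -/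

section Disjoint

open Fermat.Agent.BR3.CoverK.Dict

variable (h2 : nuTwo M = 0) (h3 : nuThree M = 0)
  (H : AtlasHyp (chartDataModular B hB hqM) (jx M q))
  (Q' : Place (IsLocalRing.ResidueField B)
    (modularFunctionFieldFullC (IsLocalRing.ResidueField B) M))
  (hQ' : ∀ e, Q' ≠ z₁ (chartDataModular B hB hqM) e)
  (hfin : Q'.adicValuation (jFullC (IsLocalRing.ResidueField B) M) ≤ 1)

include h2 h3 hQ' hfin in
/-- **(`dMM`, same component)** two different places of the same middle component over `Q'` have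
disjoint tubes, for ANY regular charts whose tubes lie over the tube of `Q'` -/
theorem disjoint_mid_of_place_ne {b : ℕ} (hb : b < q - 1) {Q'' Q''' : Place kB (FMid M B)}
    (hQ'' : haveI := isIntegral_FMidCh B hB hqM; Q''.restrict FtM = Q')
    (hQ''' : haveI := isIntegral_FMidCh B hB hqM; Q'''.restrict FtM = Q')
    (hne : Q'' ≠ Q''') {T₁ T₂ : Set (Place Kb (Fb (M * q * q)))}
    (C₁ : RegChart B (constRedMid B hB hqM hζ hb).O (constRedMid B hB hqM hζ hb).res Q'' T₁)
    (C₂ : RegChart B (constRedMid B hB hqM hζ hb).O (constRedMid B hB hqM hζ hb).res Q''' T₂)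
    (hsub₁ : ∀ P ∈ T₁, P.restrict (Fb (M * q)) ∈ {P | H.r P = ⟨0, Q'⟩})
    (hsub₂ : ∀ P ∈ T₂, P.restrict (Fb (M * q)) ∈ {P | H.r P = ⟨0, Q'⟩}) :
    Disjoint T₁ T₂ := by
  obtain ⟨u, v, Ψ, Ge, -, hsep⟩ := exists_etaleGen_sepU B hB hqM hζ h2 h3 H Q' hQ' hfin
  obtain ⟨c₁, hc₁⟩ :=
    exists_value_mid B hB hqM hζ (regChartCan B hB hqM H Q' hQ').chart Ge hb Q'' hQ''
  obtain ⟨c₂, hc₂⟩ :=
    exists_value_mid B hB hqM hζ (regChartCan B hB hqM H Q' hQ').chart Ge hb Q''' hQ'''
  exact disjoint_of_isIntegral (regChartCan B hB hqM H Q' hQ') C₁ C₂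
    (constHyp_of_constRed (constRedMid B hB hqM hζ hb))
    (constHyp_of_constRed (constRedMid B hB hqM hζ hb)) hsub₁ hsub₂ Ge.monic Ge.coeff_mem Ge.root
    (u_mem_w2 B hB hqM hζ (regChartCan B hB hqM H Q' hQ').chart Ge hb)
    (u_mem_w2 B hB hqM hζ (regChartCan B hB hqM H Q' hQ').chart Ge hb) hc₁ hc₂
    (value_ne_mid_of_place_ne B hB hqM hζ (regChartCan B hB hqM H Q' hQ').chart Ge hsep hb
      hQ'' hQ''' hne hc₁ hc₂)

include h2 h3 hQ' hfin in
/-- **(`dMM`, different components)** two points of two different middle components over `Q'` have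
disjoint tubes, for ANY regular charts whose tubes lie over the tube of `Q'` -/
theorem disjoint_mid_of_ring_ne {b b' : ℕ} (hb : b < q - 1) (hb' : b' < q - 1)
    (hw : w2 B hB hqM hζ hb ≠ w2 B hB hqM hζ hb') {Q'' Q''' : Place kB (FMid M B)}
    (hQ'' : haveI := isIntegral_FMidCh B hB hqM; Q''.restrict FtM = Q')
    (hQ''' : haveI := isIntegral_FMidCh B hB hqM; Q'''.restrict FtM = Q')
    {T₁ T₂ : Set (Place Kb (Fb (M * q * q)))}
    (C₁ : RegChart B (constRedMid B hB hqM hζ hb).O (constRedMid B hB hqM hζ hb).res Q'' T₁)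
    (C₂ : RegChart B (constRedMid B hB hqM hζ hb').O (constRedMid B hB hqM hζ hb').res Q''' T₂)
    (hsub₁ : ∀ P ∈ T₁, P.restrict (Fb (M * q)) ∈ {P | H.r P = ⟨0, Q'⟩})
    (hsub₂ : ∀ P ∈ T₂, P.restrict (Fb (M * q)) ∈ {P | H.r P = ⟨0, Q'⟩}) :
    Disjoint T₁ T₂ := by
  obtain ⟨u, v, Ψ, Ge, -, hsep⟩ := exists_etaleGen_sepU B hB hqM hζ h2 h3 H Q' hQ' hfin
  obtain ⟨c₁, hc₁⟩ :=
    exists_value_mid B hB hqM hζ (regChartCan B hB hqM H Q' hQ').chart Ge hb Q'' hQ''
  obtain ⟨c₂, hc₂⟩ :=
    exists_value_mid B hB hqM hζ (regChartCan B hB hqM H Q' hQ').chart Ge hb' Q''' hQ'''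
  exact disjoint_of_isIntegral (regChartCan B hB hqM H Q' hQ') C₁ C₂
    (constHyp_of_constRed (constRedMid B hB hqM hζ hb))
    (constHyp_of_constRed (constRedMid B hB hqM hζ hb')) hsub₁ hsub₂ Ge.monic Ge.coeff_mem
    Ge.root (u_mem_w2 B hB hqM hζ (regChartCan B hB hqM H Q' hQ').chart Ge hb)
    (u_mem_w2 B hB hqM hζ (regChartCan B hB hqM H Q' hQ').chart Ge hb') hc₁ hc₂
    (value_ne_mid_of_ring_ne B hB hqM hζ (regChartCan B hB hqM H Q' hQ').chart Ge hsep hb hb' hw
      hQ'' hQ''' hc₁ hc₂)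

include h2 h3 hQ' hfin in
/-- **(`dIM`)** the point of `cInf` and a point of a middle component over `Q'` have disjoint
tubes, for ANY regular charts whose tubes lie over the tube of `Q'` -/
theorem disjoint_inf_mid {b : ℕ} (hb : b < q - 1) {Q'' : Place kB (FMid M B)}
    (hQ'' : haveI := isIntegral_FMidCh B hB hqM; Q''.restrict FtM = Q')
    {T₁ T₂ : Set (Place Kb (Fb (M * q * q)))}
    (C₁ : RegChart B (constRedCInf B hB hqM).O (constRedCInf B hB hqM).res Q' T₁)
    (C₂ : RegChart B (constRedMid B hB hqM hζ hb).O (constRedMid B hB hqM hζ hb).res Q'' T₂)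
    (hsub₁ : ∀ P ∈ T₁, P.restrict (Fb (M * q)) ∈ {P | H.r P = ⟨0, Q'⟩})
    (hsub₂ : ∀ P ∈ T₂, P.restrict (Fb (M * q)) ∈ {P | H.r P = ⟨0, Q'⟩}) :
    Disjoint T₁ T₂ := by
  obtain ⟨u, v, Ψ, Ge, -, hsep⟩ := exists_etaleGen_sepU B hB hqM hζ h2 h3 H Q' hQ' hfin
  obtain ⟨c₁, hc₁⟩ := exists_value_inf B hB hqM (regChartCan B hB hqM H Q' hQ').chart Ge
  obtain ⟨c₂, hc₂⟩ :=
    exists_value_mid B hB hqM hζ (regChartCan B hB hqM H Q' hQ').chart Ge hb Q'' hQ''
  exact disjoint_of_isIntegral (regChartCan B hB hqM H Q' hQ') C₁ C₂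
    (constHyp_of_constRed (constRedCInf B hB hqM))
    (constHyp_of_constRed (constRedMid B hB hqM hζ hb)) hsub₁ hsub₂ Ge.monic Ge.coeff_mem Ge.root
    (u_mem_w1 B hB hqM (regChartCan B hB hqM H Q' hQ').chart Ge)
    (u_mem_w2 B hB hqM hζ (regChartCan B hB hqM H Q' hQ').chart Ge hb) hc₁ hc₂
    (value_ne_inf_mid B hB hqM hζ (regChartCan B hB hqM H Q' hQ').chart Ge hsep hb hQ'' hc₁ hc₂)

end Disjoint

end Fermat.Agent.BR3.EllPurity.ChartsEll
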