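import Mathlib
import Fermat.Agent.BR3.EllPurityPoints
import Fermat.Agent.BR3.EllPurity.EtDVR
import Fermat.Agent.BR3.CoverK.Chart

/-!
# Program C, team (ELL-PUR), piece (ELL-PUR-AD), generic part: from the étale generator of the
purity plug to the cover sheets and the regular charts of the points of the fibre

`C` a smooth chart of the component `(O', res')` downstairs at the point `Q'`,
`G : EllPurityPoints.EtaleGen C.R u v Ψ` the output of the purity plug (`Ψ'(u) v = 1`,
`v ∈ C.R[u]`), `(O'', res'')` a component upstairs over `(O', res')` and `Q''` a place of its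
residue field over `Q'` (`lies`), of degree one.

* `redPoly C hΨ : Ft'[X]` : the reduction of a polynomial with coefficients in `C.R`;
  `coeff_redPoly_mem` (regular at `Q'`), `aeval_redPoly` (reduction commutes with evaluation at
  `u`), `derivative_redPoly`;
* `etaleGen_u_mem` : `u ∈ O''` — NO unramifiedness needed;
* **`etaleGen_etPoint`** : as soon as the residue `ū` of `u` generates `Ft'' / Ft'` (`hgen`), the
  data `(Q', Q'', ū, Ψ̄, c)` is a standard étale point (`EtDVR.EtPoint`), `c` the value of `ū`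
  at `Q''`; hence `etaleGen_ord_map` (`Q''` is unramified over `Q'`);
* **`etaleGen_exists_coverSheet`** : the cover sheet at `(O'', res'', Q'')` WITHOUT the hypothesis
  `ord_map` (replaced by `lies` + `hgen`);
* `etaleGen_exists_regChart` : the regular chart on `coverTube A T' u c` over the component of a
  constant reduction.
-/

set_option autoImplicit false
set_option linter.unusedSectionVars false

namespace Fermat.Agent.BR3.EllPurity.ChartsGen

open AlgebraicCurve Polynomial Fermat.Agent.Red Fermat.Agent.X0 Fermat.Agent.BR.Centre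
  Fermat.Agent.BR.S0 Fermat.Agent.BR3.CoverK Fermat.Agent.BR3.CoverK.OfMinpoly
  Fermat.Agent.BR3.EllPurityPoints Fermat.Agent.BR3.EllPurity.EtDVR
  Fermat.Agent.BR3.CoverK.OfLift

variable {K k : Type*} [Field K] [Field k]
  {F' : Type*} [Field F'] [Algebra K F'] {Ft' : Type*} [Field Ft'] [Algebra k Ft']
  {F'' : Type*} [Field F''] [Algebra K F''] [Algebra F' F''] [IsScalarTower K F' F'']
  {Ft'' : Type*} [Field Ft''] [Algebra k Ft''] [Algebra Ft' Ft''] [IsScalarTower k Ft' Ft'']
  {A : ValuationSubring K} {π : A →+* k}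
  {O' : ValuationSubring F'} {res' : O' →+* Ft'} {Q' : Place k Ft'} {T' : Set (Place K F')}
  {O'' : ValuationSubring F''} {res'' : O'' →+* Ft''} {Q'' : Place k Ft''}

/-! ### the reduction of the polynomials over the chart ring -/

section RedPoly

variable (C : SmoothChart A O' res' Q' T')

/-- the lift to `C.R[X]` of a polynomial with coefficients in the chart ring -/
noncomputable def liftR {p : F'[X]} (hp : ∀ n, p.coeff n ∈ C.R) : C.R[X] :=
  p.toSubring C.R (fun c hc => by
    obtain ⟨n, -, rfl⟩ := Polynomial.mem_coeffs_iff.mp hc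
    exact hp n)

theorem liftR_map {p : F'[X]} (hp : ∀ n, p.coeff n ∈ C.R) :
    (liftR C hp).map C.R.subtype = p :=
  Polynomial.map_toSubring p C.R _

/-- **the reduction of a polynomial with coefficients in the chart ring** -/
noncomputable def redPoly {p : F'[X]} (hp : ∀ n, p.coeff n ∈ C.R) : Ft'[X] :=
  (liftR C hp).map (redR res' C.le)

theorem coeff_redPoly {p : F'[X]} (hp : ∀ n, p.coeff n ∈ C.R) (n : ℕ) :
    (redPoly C hp).coeff n = res' ⟨p.coeff n, C.le _ (hp n)⟩ := by
  rw [redPoly, coeff_map, redR_apply]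
  congr 1
  apply Subtype.ext
  exact Polynomial.coeff_toSubring p C.R _

theorem coeff_redPoly_mem
    (hres : ∀ (a : K) (ha : a ∈ A) (h : algebraMap K F' a ∈ O'),
      res' ⟨algebraMap K F' a, h⟩ = algebraMap k Ft' (π ⟨a, ha⟩))
    {p : F'[X]} (hp : ∀ n, p.coeff n ∈ C.R) (n : ℕ) :
    (redPoly C hp).coeff n ∈ Q'.toValuationSubring := by
  rw [coeff_redPoly, Place.mem_iff_ord_nonneg]
  exact ord_res_nonneg C hres (hp n)

theorem coeff_derivative_mem {p : F'[X]} (hp : ∀ n, p.coeff n ∈ C.R) (n : ℕ) :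
    (derivative p).coeff n ∈ C.R := by
  rw [coeff_derivative]
  exact C.R.mul_mem (hp _) (C.R.add_mem (natCast_mem _ n) C.R.one_mem)

theorem derivative_redPoly {p : F'[X]} (hp : ∀ n, p.coeff n ∈ C.R) :
    derivative (redPoly C hp) = redPoly C (coeff_derivative_mem C hp) := by
  ext n
  rw [coeff_derivative, coeff_redPoly, coeff_redPoly]
  have e : (⟨(derivative p).coeff n, C.le _ (coeff_derivative_mem C hp n)⟩ : O') =
      ⟨p.coeff (n + 1), C.le _ (hp (n + 1))⟩ * ((n : O') + 1) := by
    apply Subtype.ext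
    show (derivative p).coeff n = p.coeff (n + 1) * (((n : O') : F') + ((1 : O') : F'))
    rw [coeff_derivative]
    push_cast
    rfl
  rw [e, map_mul, map_add, map_natCast, map_one]

/-- **reduction commutes with evaluation at an integral element** -/
theorem aeval_redPoly
    (comap_eq : O''.comap (algebraMap F' F'') = O')
    (res_map : ∀ (y : F') (hy : y ∈ O') (hy' : algebraMap F' F'' y ∈ O''),
      res'' ⟨algebraMap F' F'' y, hy'⟩ = algebraMap Ft' Ft'' (res' ⟨y, hy⟩))
    {θ : F''} (θ_mem : θ ∈ O'') {p : F'[X]} (hp : ∀ n, p.coeff n ∈ C.R)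
    (h : aeval θ p ∈ O'') :
    res'' ⟨aeval θ p, h⟩ = aeval (res'' ⟨θ, θ_mem⟩) (redPoly C hp) := by
  have h' : aeval θ ((liftR C hp).map C.R.subtype) ∈ O'' := by
    rw [liftR_map]
    exact h
  have e := res_aeval_map (res'' := res'') comap_eq res_map C.le θ_mem (liftR C hp) h'
  rw [redPoly, ← e]
  congr 1
  apply Subtype.ext
  show aeval θ p = aeval θ ((liftR C hp).map C.R.subtype)
  rw [liftR_map]

end RedPoly

/-! ### the étale generator at a point of the fibre -/

section Point

variable (C : SmoothChart A O' res' Q' T')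
  (hres : ∀ (a : K) (ha : a ∈ A) (h : algebraMap K F' a ∈ O'),
    res' ⟨algebraMap K F' a, h⟩ = algebraMap k Ft' (π ⟨a, ha⟩))
  (comap_eq : O''.comap (algebraMap F' F'') = O')
  (res_map : ∀ (y : F') (hy : y ∈ O') (hy' : algebraMap F' F'' y ∈ O''),
    res'' ⟨algebraMap F' F'' y, hy'⟩ = algebraMap Ft' Ft'' (res' ⟨y, hy⟩))
  (res_eq_zero_iff : ∀ x : O'', res'' x = 0 ↔ (x : F'') ∈ O''.nonunits)
  (lies : ∀ g : Ft', algebraMap Ft' Ft'' g ∈ Q''.toValuationSubring ↔ g ∈ Q'.toValuationSubring)
  {u v : F''} {Ψ : F'[X]} (G : EtaleGen C.R u v Ψ)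

include comap_eq in
theorem map_mem_of_mem {y : F'} (hy : y ∈ O') : algebraMap F' F'' y ∈ O'' := by
  have : y ∈ O''.comap (algebraMap F' F'') := by rw [comap_eq]; exact hy
  exact this

include comap_eq G in
/-- **the generator is integral on every component upstairs** (no unramifiedness needed) -/
theorem etaleGen_u_mem : u ∈ O'' :=
  mem_of_aeval_eq_zero O'' G.monic
    (fun n => map_mem_of_mem comap_eq (C.le _ (G.coeff_mem n))) G.root

include comap_eq G in
theorem etaleGen_aeval_mem {p : F'[X]} (hp : ∀ n, p.coeff n ∈ C.R) : aeval u p ∈ O'' :=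
  aeval_mem_of_coeff_mem (fun _ hx => map_mem_of_mem comap_eq hx) (etaleGen_u_mem C comap_eq G)
    fun n => C.le _ (hp n)

include comap_eq res_map G in
/-- the residue of the generator is a root of the reduced polynomial -/
theorem etaleGen_root_red :
    aeval (res'' ⟨u, etaleGen_u_mem C comap_eq G⟩) (redPoly C G.coeff_mem) = 0 := by
  have h : aeval u Ψ ∈ O'' := etaleGen_aeval_mem C comap_eq G G.coeff_mem
  rw [← aeval_redPoly C comap_eq res_map (etaleGen_u_mem C comap_eq G) G.coeff_mem h]
  have e : (⟨aeval u Ψ, h⟩ : O'') = 0 := Subtype.ext G.root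
  rw [e, map_zero]

include hres comap_eq res_map lies G in
/-- **`simple` at every place over `Q'`**: the derivative of the reduced polynomial at the residue
of the generator is a unit (from `Ψ'(u) v = 1`, `v ∈ C.R[u]`; no unramifiedness needed). -/
theorem etaleGen_simple_red {c : k} (hval : IsValueAt Q'' (res'' ⟨u, etaleGen_u_mem C comap_eq G⟩) c) :
    ¬ Q''.adicValuation
      (aeval (res'' ⟨u, etaleGen_u_mem C comap_eq G⟩) (derivative (redPoly C G.coeff_mem))) < 1 := by
  obtain ⟨p, hp, hpv⟩ := G.v_poly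
  have hd := coeff_derivative_mem C G.coeff_mem
  have h1 : aeval u (derivative Ψ) ∈ O'' := etaleGen_aeval_mem C comap_eq G hd
  have h2 : aeval u p ∈ O'' := etaleGen_aeval_mem C comap_eq G hp
  refine simple_of_mul_eq_one (v := aeval (res'' ⟨u, etaleGen_u_mem C comap_eq G⟩) (redPoly C hp))
    lies hval ⟨redPoly C hp, coeff_redPoly_mem C hres hp, rfl⟩ ?_
  rw [derivative_redPoly, ← aeval_redPoly C comap_eq res_map (etaleGen_u_mem C comap_eq G) hd h1,
    ← aeval_redPoly C comap_eq res_map (etaleGen_u_mem C comap_eq G) hp h2, ← map_mul]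
  have e : (⟨aeval u (derivative Ψ), h1⟩ * ⟨aeval u p, h2⟩ : O'') = 1 := by
    apply Subtype.ext
    show aeval u (derivative Ψ) * aeval u p = 1
    rw [hpv]
    exact G.deriv_mul
  rw [e, map_one]

include hres comap_eq res_map lies G in
/-- **(1) The standard étale point**: if the residue of `u` generates `Ft'' / Ft'` and has the
value `c` at `Q''`. -/
theorem etaleGen_etPoint
    (hgen : ∀ y : Ft'', ∃ p : Ft'[X], aeval (res'' ⟨u, etaleGen_u_mem C comap_eq G⟩) p = y) {c : k}
    (hval : IsValueAt Q'' (res'' ⟨u, etaleGen_u_mem C comap_eq G⟩) c) :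
    EtPoint Q' Q'' (res'' ⟨u, etaleGen_u_mem C comap_eq G⟩) (redPoly C G.coeff_mem) c where
  lies := lies
  coeff_mem := coeff_redPoly_mem C hres G.coeff_mem
  root := etaleGen_root_red C comap_eq res_map G
  gen := hgen
  value := hval
  simple := etaleGen_simple_red C hres comap_eq res_map lies G hval

include hres comap_eq res_map lies G in
/-- **`ord_map` from `lies` and `hgen`** -/
theorem etaleGen_ord_map
    (hgen : ∀ y : Ft'', ∃ p : Ft'[X], aeval (res'' ⟨u, etaleGen_u_mem C comap_eq G⟩) p = y) {c : k}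
    (hval : IsValueAt Q'' (res'' ⟨u, etaleGen_u_mem C comap_eq G⟩) c) (f : Ft') :
    Q''.ord (algebraMap Ft' Ft'' f) = Q'.ord f :=
  (etaleGen_etPoint C hres comap_eq res_map lies G hgen hval).ord_map f

include hres comap_eq res_map res_eq_zero_iff lies G in
/-- **(1)→(2) The cover sheet of a point of the fibre from the output of the purity plug**, the
hypothesis `ord_map` replaced by `lies` and `hgen`. -/
theorem etaleGen_exists_coverSheet (hdeg : Q''.deg = 1) (hπ : Function.Surjective π)
    (hgen : ∀ y : Ft'', ∃ p : Ft'[X], aeval (res'' ⟨u, etaleGen_u_mem C comap_eq G⟩) p = y)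
    (hlift : ∀ f : Ft', 0 ≤ Q'.ord f → ∃ y ∈ C.R, ∃ hy : y ∈ O', res' ⟨y, hy⟩ = f) :
    ∃ (c : A) (ψ ψc : F'[X]),
      CoverSheet A π O' res' Q' O'' res'' Q'' C.R u Ψ ψ ψc c ∧
      IsValueAt Q'' (res'' ⟨u, etaleGen_u_mem C comap_eq G⟩) (π c) ∧
      ψ.natDegree = (minpoly Ft' (res'' ⟨u, etaleGen_u_mem C comap_eq G⟩)).natDegree := by
  have humem : res'' ⟨u, etaleGen_u_mem C comap_eq G⟩ ∈ Q''.toValuationSubring :=
    mem_of_monic (Ψ := redPoly C G.coeff_mem) lies
      ((Polynomial.monic_toSubring _ _ _).mpr G.monic |>.map _)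
      (coeff_redPoly_mem C hres G.coeff_mem) (etaleGen_root_red C comap_eq res_map G)
  obtain ⟨c₀, hc₀⟩ := exists_isValueAt Q'' hdeg humem
  obtain ⟨c, rfl⟩ := hπ c₀
  have hord := etaleGen_ord_map C hres comap_eq res_map lies G hgen hc₀
  obtain ⟨ψ, ψc, H, hψ⟩ := exists_coverSheet_of_minpoly_chart (u := c) C hres comap_eq res_map
    res_eq_zero_iff hord (etaleGen_u_mem C comap_eq G) G.monic G.irreducible G.coeff_mem G.root G.gen hc₀
    (by
      intro h
      have h3 := etaleGen_simple_red C hres comap_eq res_map lies G hc₀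
      rw [derivative_redPoly, ← aeval_redPoly C comap_eq res_map (etaleGen_u_mem C comap_eq G)
        (coeff_derivative_mem C G.coeff_mem) h] at h3
      exact h3) hlift
  exact ⟨c, ψ, ψc, H, hc₀, hψ⟩

end Point

/-! ### the regular chart over the component of a constant reduction -/

section Chart

open Fermat.Agent.Val Fermat.Agent.BR3.CoverDiv

variable [Algebra.IsIntegral F' F''] [IsAlgClosed K] [FiniteDimensional F' F'']
  [Algebra.IsSeparable F' F'']
  (S : ConstRed (F := F') (Ft := Ft') A π) {Q' : Place k Ft'} (C : RegChart A S.O S.res Q' T')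
  (comap_eq : O''.comap (algebraMap F' F'') = S.O)
  (res_map : ∀ (y : F') (hy : y ∈ S.O) (hy' : algebraMap F' F'' y ∈ O''),
    res'' ⟨algebraMap F' F'' y, hy'⟩ = algebraMap Ft' Ft'' (S.res ⟨y, hy⟩))
  (res_eq_zero_iff : ∀ x : O'', res'' x = 0 ↔ (x : F'') ∈ O''.nonunits)
  (lies : ∀ g : Ft', algebraMap Ft' Ft'' g ∈ Q''.toValuationSubring ↔ g ∈ Q'.toValuationSubring)
  {u v : F''} {Ψ : F'[X]} (G : EtaleGen C.chart.R u v Ψ)

include comap_eq res_map res_eq_zero_iff lies G in
/-- **(2) The regular chart of a point of the fibre from the output of the purity plug**: on the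
sheet `u ≡ c`, `π c` the value of the residue of `u` at the point; its parameter is the parameter
of the chart downstairs and `u` lies in its ring. -/
theorem etaleGen_exists_regChart (hdeg : Q''.deg = 1) (hπ : Function.Surjective π)
    (hgen : ∀ y : Ft'', ∃ p : Ft'[X],
      aeval (res'' ⟨u, etaleGen_u_mem C.chart comap_eq G⟩) p = y)
    (hlift : ∀ f : Ft', 0 ≤ Q'.ord f → ∃ y ∈ C.chart.R, ∃ hy : y ∈ S.O, S.res ⟨y, hy⟩ = f)
    (harch : ∀ a c : K, A.valuation a < 1 → c ≠ 0 →
      ∃ N : ℕ, A.valuation a ^ N ≤ A.valuation c) :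
    ∃ c : A, IsValueAt Q'' (res'' ⟨u, etaleGen_u_mem C.chart comap_eq G⟩) (π c) ∧
      ∃ C'' : RegChart A O'' res'' Q'' (coverTube A T' u c),
        C''.chart.t = algebraMap F' F'' C.chart.t ∧ u ∈ C''.chart.R ∧
          C''.chart.R = coverRing C.chart.R u O'' res'' Q'' := by
  obtain ⟨c, ψ, ψc, H, hc, -⟩ := etaleGen_exists_coverSheet C.chart
    (constHyp_of_constRed S).res_const comap_eq res_map res_eq_zero_iff lies G hdeg hπ hgen hlift
  refine ⟨c, hc, coverRegChartOfConstRed S C H harch, rfl, ?_, rfl⟩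
  rw [coverRegChartOfConstRed_R]
  exact polyRing_le_coverRing _ _ (self_mem_polyRing _ _)

end Chart

end Fermat.Agent.BR3.EllPurity.ChartsGen
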