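import Fermat.Agent.BR3.RegBaseModular
import Fermat.Agent.BR3.PurityGlue
import Fermat.Agent.BR3.FibreProdCofactor

/-!
# Program C, node (ELL-PUR), frame: the purity plug for `F₂ / α₂ F₁` at a finite point of `can`

`Q'` a finite non-crossing point of the component `can` of the model `S'` of `X₀(qM)` at `q`
(in particular an ELLIPTIC ORDINARY point, gap #1231), `S : Finset Kb` a level of the tower.

* `ellT`, `ellModel` : the smooth model `M_S` of level `S` at `Q'` (the same models as in
  `smooth_zero_atlas`), `ellModel_loc_le_regChartCan` : `M_S.loc ≤ (regChartCan ..).chart.R`;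
* `ellGenField S` : the finite-level field `α₂(F_S)(j(s^{q²})) ⊆ F₂ = Fb (M * q * q)`;
* `ellSint … S` : the integral closure of `α₂(M_S.loc)` in `ellGenField S`, as a subring of `F₂`;
* `EllV`, `EllH` : the two hypotheses (V) (vertical characters) and (H) (valuative condition at
  the horizontal height one primes) of `PurityPlug.purity_plug`, stated on these concrete subrings.
-/

set_option autoImplicit false
set_option linter.unusedSectionVars false
set_option linter.style.haveILetI false

noncomputable section

/- S36 build-time patch: file-local shortcut instances. They only shorten instance search;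
each is the instance that the search finds anyway (reducible, same terms after unfolding). -/
local instance (priority := 100000) Fermat.Agent.BR3.FastInst.instAlgFullC_EllPurity_Frame
    {k : Type*} [Field k] (N : ℕ) :
    Algebra k ↥(ModularCurve.modularFunctionFieldFullC k N) := inferInstance
local instance (priority := 100000) Fermat.Agent.BR3.FastInst.instFieldFullC_EllPurity_Frame
    {k : Type*} [Field k] (N : ℕ) :
    Field ↥(ModularCurve.modularFunctionFieldFullC k N) := inferInstance
local instance (priority := 100000) Fermat.Agent.BR3.FastInst.instAlgLaurent_EllPurity_Frame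
    {k : Type*} [Field k] : Algebra k (LaurentSeries k) := inferInstance


namespace Fermat.Agent.BR3.EllPurity

open ModularCurve AlgebraicCurve IsLocalRing Polynomial
open Fermat.Agent.X0 Fermat.Agent.Val Fermat.Agent.Red Fermat.Agent.BR.Centre
open Fermat.Agent.Hecke.AL
open Fermat.Agent.BR.TwoVal Fermat.Agent.BR.TwoValInst Fermat.Agent.BR.ConstRedTwo
open Fermat.Agent.BR.S0
open Fermat.Agent.BR.S0.RedModular Fermat.Agent.BR.S0.RedHyp Fermat.Agent.BR.S0.PointDict
open Fermat.Agent.BR.Inst.SmoothModularAll Fermat.Agent.BR3.CoverK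
open Fermat.Agent.BR.Inst.CkPointModular Fermat.Agent.BR.S0.GeomModular
open Fermat.Agent.BR.Inst.Inf.SmoothInstInf Fermat.Agent.BR.Inst.LevelsInst
open Fermat.Agent.BR.Inst.SpecIso Fermat.Agent.BR.Inst.SpecIsoInf
open Fermat.Agent.BR.Inst.Levels Fermat.Agent.BR.Inst.ChartInLevels
open Fermat.Agent.BR.S0.SmoothLevelsGlue Fermat.Agent.BR.S0.SmoothAssembly
open Fermat.Agent.BR3.RegAtlas Fermat.Agent.BR3.RegBase Fermat.Agent.BR3.FibreProd
open Fermat.Agent.BR3.PurityPlug

set_option synthInstance.maxHeartbeats 400000

variable {M q : ℕ} [NeZero M] [hqF : Fact q.Prime]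
variable (B : ValuationSubring Kb) (hB : B.LiesOverPrime q) (hqM : ¬ q ∣ M)

local notation "kB" => IsLocalRing.ResidueField B
local notation "FtM" => modularFunctionFieldFullC (IsLocalRing.ResidueField B) M

/-- the levels of the tower of the finite chart -/
local notation "CSfin" => CS (M * q) q
  (fun T => Fermat.Agent.BR.Inst.NormalModel.modelBase (M * q) (WS B q T))


/-! ### generic frame: the finite-level integral closure inside the cover, (V) and (H) -/

section Generic

variable {K F k : Type*} [Field K] [Field F] [Algebra K F] [Field k]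
  {Ft : Type*} [Field Ft] [Algebra k Ft]
  {A : ValuationSubring K} {π : A →+* k} {O : ValuationSubring F} {res : O →+* Ft}
  {Q : Place k Ft} {T : Set (Place K F)} {t : F} {C : Subring F} {ϖ : K}
  (M : SmoothModel A π O res Q T t C ϖ) {F'' : Type*} [Field F''] (α : F →+* F'')
  (L'' : Subfield F'')

/-- **The integral closure of `α (M.loc)` in the finite-level field `L'' ⊆ F''`**, as a subring of
`F''`. -/
def sint : Subring F'' :=
  L''.toSubring ⊓ (integralClosure ↥(M.loc.map α) F'').toSubring

theorem mem_sint_iff {y : F''} :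
    y ∈ sint M α L'' ↔ y ∈ L'' ∧ IsIntegral ↥(M.loc.map α) y := Iff.rfl

theorem map_mem_sint (hL : ∀ r ∈ M.loc, α r ∈ L'') (r : M.loc) : α (r : F) ∈ sint M α L'' := by
  refine ⟨hL r r.2, ?_⟩
  exact isIntegral_algebraMap (R := ↥(M.loc.map α)) (x := ⟨α r, Subring.mem_map.mpr ⟨r, r.2, rfl⟩⟩)

universe w

/-- **(V)**: `n` pairwise distinct characters of the finite-level integral closure over one
character of `M.loc` killing the uniformiser (the `n` geometric points of the normalisation over the
generic point of the vertical component). -/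
def VertHyp (n : ℕ) (hL : ∀ r ∈ M.loc, α r ∈ L'') : Prop :=
  ∃ (Ω : Type w) (_ : Field Ω) (φ : M.loc →+* Ω) (χ : Fin n → sint M α L'' →+* Ω),
    φ (unifLoc M) = 0 ∧ Function.Injective χ ∧
      ∀ i (r : M.loc), χ i ⟨α (r : F), map_mem_sint M α L'' hL r⟩ = φ r

/-- **(H)**: at every valuation subring of `F''` containing the finite-level integral closure and
centred at a horizontal height one prime `p` of `M.loc`, the maximal ideal is generated by an
element of `p`. -/
def HorizHyp : Prop :=
  ∀ p : Ideal M.loc, p.IsPrime → p.height = 1 → unifLoc M ∉ p →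
    ∀ W : ValuationSubring F'', (∀ y ∈ sint M α L'', y ∈ W) →
      (∀ r : M.loc, α (r : F) ∈ W.nonunits ↔ r ∈ p) →
      ∃ π' ∈ p, ∀ y ∈ W.nonunits, ∃ w ∈ W, y = α ((π' : M.loc) : F) * w

end Generic

/-! ### the modular instance -/

variable (M q) in
/-- **the finite-level field of the cover**: `α₂(F_S)(j(s^{q²})) ⊆ F₂`. -/
def ellGenField (S : Finset Kb) : Subfield (Fb (M * q * q)) :=
  Subfield.closure ((alpha2 M q) '' (FS (M * q) q S : Set (Fb (M * q))) ∪ {jqq M q})

theorem alpha2_mem_ellGenField {S : Finset Kb} {x : Fb (M * q)} (hx : x ∈ FS (M * q) q S) :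
    alpha2 M q x ∈ ellGenField M q S :=
  Subfield.subset_closure (Or.inl ⟨x, hx, rfl⟩)

theorem jqq_mem_ellGenField (S : Finset Kb) : jqq M q ∈ ellGenField M q S :=
  Subfield.subset_closure (Or.inr rfl)

/-! ### the smooth model of level `S` at a finite non-crossing point of `can` -/

/-- the Dedekind chart `C_k` is regular at a finite point -/
theorem hQD_fin (Q' : Place kB FtM) (hfin : Q'.adicValuation (jFullC kB M) ≤ 1)
    (d : ↥(Ck M B)) : Q'.adicValuation (algebraMap ↥(Ck M B) FtM d) ≤ 1 :=
  adicValuation_le_one_Ck B Q' hfin d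

/-- **the parameter of the models at a finite point**: a function of the level `∅` whose residue
on `can` has a simple zero at `Q'` (the same choice as in `smooth_zero_atlas`). -/
def ellT (Q' : Place kB FtM) (hfin : Q'.adicValuation (jFullC kB M) ≤ 1) : Fb (M * q) :=
  have := isDedekindDomain_Ck B hB hqM
  have := isFractionRing_Ck B hB hqM
  (exists_param_zero (levelHyp_fin (levelHyp_tower B hB hqM ∅))
    (hQD_fin B Q' hfin)).choose

theorem ellT_mem (Q' : Place kB FtM) (hfin : Q'.adicValuation (jFullC kB M) ≤ 1)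
    (S : Finset Kb) : ellT B hB hqM Q' hfin ∈ CSfin S := by
  have := isDedekindDomain_Ck B hB hqM
  have := isFractionRing_Ck B hB hqM
  exact CS_mono (baseFamily_fin (M * q) B hqF.out hB) (Finset.empty_subset S)
    (exists_param_zero (levelHyp_fin (levelHyp_tower B hB hqM ∅))
      (hQD_fin B Q' hfin)).choose_spec.1

theorem ellT_ord (Q' : Place kB FtM) (hfin : Q'.adicValuation (jFullC kB M) ≤ 1)
    (h : ellT B hB hqM Q' hfin ∈ (compW B hB hqM 0).O) :
    Q'.ord ((compW B hB hqM 0).res ⟨ellT B hB hqM Q' hfin, h⟩) = 1 := by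
  have := isDedekindDomain_Ck B hB hqM
  have := isFractionRing_Ck B hB hqM
  exact (exists_param_zero (levelHyp_fin (levelHyp_tower B hB hqM ∅))
    (hQD_fin B Q' hfin)).choose_spec.2 h

set_option maxHeartbeats 1600000 in
/-- **The smooth model of level `S` at a finite non-crossing point of `can`.** -/
theorem ellModel (H : AtlasHyp (chartDataModular B hB hqM) (jx M q))
    (Q' : Place kB FtM) (hQ' : ∀ e, Q' ≠ z₁ (chartDataModular B hB hqM) e)
    (hfin : Q'.adicValuation (jFullC kB M) ≤ 1) (S : Finset Kb) :
    SmoothModel B (IsLocalRing.residue B) (compW B hB hqM 0).O (compW B hB hqM 0).res Q'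
      {P | H.r P = ⟨0, Q'⟩} (ellT B hB hqM Q' hfin) (CSfin S) (unif B hqF.out hB S) := by
  have := isDedekindDomain_Ck B hB hqM
  have := isFractionRing_Ck B hB hqM
  have h := (res_zero_jx_mem_iff B hB hqM Q' (chartFin_le B hB hqM 0 H.x_mem)).mpr hfin
  exact (levelHyp_fin (levelHyp_tower B hB hqM S)).smoothModel_zero_fin H
    (not_isField_Ck B hB hqM) (fun v => (compW B hB hqM v).res_algebraMap)
    (fun y hy => (constRed_res_eq_zero_iff (compW B hB hqM 0) y).mpr hy)
    (chartFin_le_CS B hB S) (integralAt_CS_of_chartFin B S) hQ'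
    (exists_isValueAt Q' (place_deg_eq_one_Ft B hB hqM Q') h).choose_spec
    (hQD_fin B Q' hfin) (place_deg_eq_one_Ft B hB hqM Q') (ellT_mem B hB hqM Q' hfin S)
    (ellT_ord B hB hqM Q' hfin _)

/-! ### the local ring of the model inside the finite-level field and inside the chart ring -/

/-- the local ring of the model of level `S` lies in the finite-level field `F_S` -/
theorem ellModel_loc_le_FS (H : AtlasHyp (chartDataModular B hB hqM) (jx M q))
    (Q' : Place kB FtM) (hQ' : ∀ e, Q' ≠ z₁ (chartDataModular B hB hqM) e)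
    (hfin : Q'.adicValuation (jFullC kB M) ≤ 1) (S : Finset Kb) :
    (ellModel B hB hqM H Q' hQ' hfin S).loc ≤ (FS (M * q) q S).toSubring := by
  intro x hx
  obtain ⟨a, b, hb, hab⟩ := (ellModel B hB hqM H Q' hQ' hfin S).mem_loc_iff.mp hx
  have hb0 : (b : Fb (M * q)) ≠ 0 := by
    intro h0
    apply hb
    have : b = 0 := Subtype.ext h0
    rw [this]
    exact Ideal.zero_mem _
  have ha' : (a : Fb (M * q)) ∈ FS (M * q) q S := a.2.1
  have hb' : (b : Fb (M * q)) ∈ FS (M * q) q S := b.2.1
  have hx' : x = (a : Fb (M * q)) * (b : Fb (M * q))⁻¹ := by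
    rw [← hab, mul_assoc, mul_inv_cancel₀ hb0, mul_one]
  show x ∈ FS (M * q) q S
  rw [hx']
  exact mul_mem ha' (inv_mem hb')

/-- the images under `α₂` of the functions of the local ring of the model lie in the finite-level
field of the cover -/
theorem alpha2_loc_mem_ellGenField (H : AtlasHyp (chartDataModular B hB hqM) (jx M q))
    (Q' : Place kB FtM) (hQ' : ∀ e, Q' ≠ z₁ (chartDataModular B hB hqM) e)
    (hfin : Q'.adicValuation (jFullC kB M) ≤ 1) (S : Finset Kb) :
    ∀ r ∈ (ellModel B hB hqM H Q' hQ' hfin S).loc,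
      ((alpha2 M q : Fb (M * q) →ₐ[Kb] Fb (M * q * q)) : Fb (M * q) →+* Fb (M * q * q)) r ∈
        ellGenField M q S :=
  fun r hr => alpha2_mem_ellGenField (ellModel_loc_le_FS B hB hqM H Q' hQ' hfin S hr)

set_option maxHeartbeats 3200000 in
/-- **the local ring of the model of level `S` lies in the ring of the regular chart** (the map
`f : M.loc → R` of the plug) -/
theorem ellModel_loc_le_regChartCan (H : AtlasHyp (chartDataModular B hB hqM) (jx M q))
    (Q' : Place kB FtM) (hQ' : ∀ e, Q' ≠ z₁ (chartDataModular B hB hqM) e)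
    (hfin : Q'.adicValuation (jFullC kB M) ≤ 1) (S : Finset Kb) :
    (ellModel B hB hqM H Q' hQ' hfin S).loc ≤ (regChartCan B hB hqM H Q' hQ').chart.R := by
  have h := (res_zero_jx_mem_iff B hB hqM Q' (chartFin_le B hB hqM 0 H.x_mem)).mpr hfin
  rw [regChartCan_eq, regChartZero_chart]
  unfold smooth_zero_atlas Fermat.Agent.BR.S0.SmoothLevelsGlue.smooth_zero_levels
  rw [dif_pos h]
  unfold Fermat.Agent.BR.S0.SmoothLevelsGlue.smoothChart_zero_fin_levels
    Fermat.Agent.BR.S0.SmoothAssembly.smoothChartOf_zero_fin
    Fermat.Agent.BR.S0.SmoothAssembly.smoothChart_zero_fin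
    Fermat.Agent.BR.S0.smoothChartOfModels
  exact le_iSup_of_le S le_rfl

/-! ### the two hypotheses (V) and (H) at the frame -/

/-- **(V) at the frame** (owner helper6): `q` pairwise distinct characters of the finite-level
integral closure `sint` over one character of `M_S.loc` killing the uniformiser. -/
def EllV (H : AtlasHyp (chartDataModular B hB hqM) (jx M q))
    (Q' : Place kB FtM) (hQ' : ∀ e, Q' ≠ z₁ (chartDataModular B hB hqM) e)
    (hfin : Q'.adicValuation (jFullC kB M) ≤ 1) (S : Finset Kb) : Prop :=
  VertHyp.{0} (ellModel B hB hqM H Q' hQ' hfin S)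
    ((alpha2 M q : Fb (M * q) →ₐ[Kb] Fb (M * q * q)) : Fb (M * q) →+* Fb (M * q * q))
    (ellGenField M q S) q (alpha2_loc_mem_ellGenField B hB hqM H Q' hQ' hfin S)

/-- **(H) at the frame** (owner helper15): the valuative condition at the horizontal height one
primes of `M_S.loc`. -/
def EllH (H : AtlasHyp (chartDataModular B hB hqM) (jx M q))
    (Q' : Place kB FtM) (hQ' : ∀ e, Q' ≠ z₁ (chartDataModular B hB hqM) e)
    (hfin : Q'.adicValuation (jFullC kB M) ≤ 1) (S : Finset Kb) : Prop :=
  HorizHyp (ellModel B hB hqM H Q' hQ' hfin S)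
    ((alpha2 M q : Fb (M * q) →ₐ[Kb] Fb (M * q * q)) : Fb (M * q) →+* Fb (M * q * q))
    (ellGenField M q S)

end Fermat.Agent.BR3.EllPurity
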