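import Fermat.Agent.BR3.EllPurity.Frame

/-!
# Program C, node (ELL-PUR), frame, complement: the parameter of the regular chart

`regChartCan_t` : at a finite non-crossing point `Q'` of `can` the parameter of the regular chart
`RegAtlas.regChartCan` is `EllPurity.ellT`, a function of the level `∅` of the tower (hence of every
level: `ellT_mem`).
-/

set_option autoImplicit false
set_option linter.unusedSectionVars false
set_option linter.style.haveILetI false

noncomputable section

namespace Fermat.Agent.BR3.EllPurity

open ModularCurve AlgebraicCurve IsLocalRing Polynomial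
open Fermat.Agent.X0 Fermat.Agent.Val Fermat.Agent.Red Fermat.Agent.BR.Centre
open Fermat.Agent.BR.TwoVal Fermat.Agent.BR.TwoValInst Fermat.Agent.BR.ConstRedTwo
open Fermat.Agent.BR.S0
open Fermat.Agent.BR.S0.RedModular Fermat.Agent.BR.S0.RedHyp Fermat.Agent.BR.S0.PointDict
open Fermat.Agent.BR.Inst.SmoothModularAll Fermat.Agent.BR3.CoverK
open Fermat.Agent.BR3.RegAtlas Fermat.Agent.BR3.RegBase

set_option synthInstance.maxHeartbeats 400000

variable {M q : ℕ} [NeZero M] [hqF : Fact q.Prime]
variable (B : ValuationSubring Kb) (hB : B.LiesOverPrime q) (hqM : ¬ q ∣ M)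

local notation "kB" => IsLocalRing.ResidueField B
local notation "FtM" => modularFunctionFieldFullC (IsLocalRing.ResidueField B) M

set_option maxHeartbeats 3200000 in
/-- **the parameter of the regular chart at a finite point of `can` is `ellT`** -/
theorem regChartCan_t (H : AtlasHyp (chartDataModular B hB hqM) (jx M q))
    (Q' : Place kB FtM) (hQ' : ∀ e, Q' ≠ z₁ (chartDataModular B hB hqM) e)
    (hfin : Q'.adicValuation (jFullC kB M) ≤ 1) :
    (regChartCan B hB hqM H Q' hQ').chart.t = ellT B hB hqM Q' hfin := by
  have h := (res_zero_jx_mem_iff B hB hqM Q' (chartFin_le B hB hqM 0 H.x_mem)).mpr hfin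
  rw [regChartCan_eq, regChartZero_chart]
  unfold smooth_zero_atlas Fermat.Agent.BR.S0.SmoothLevelsGlue.smooth_zero_levels
  rw [dif_pos h]
  unfold Fermat.Agent.BR.S0.SmoothLevelsGlue.smoothChart_zero_fin_levels
    Fermat.Agent.BR.S0.SmoothAssembly.smoothChartOf_zero_fin
    Fermat.Agent.BR.S0.SmoothAssembly.smoothChart_zero_fin
    Fermat.Agent.BR.S0.smoothChartOfModels
  rfl

end Fermat.Agent.BR3.EllPurity
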