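import Fermat.Agent.BR3.EllPurity.SepU
import Fermat.Agent.BR3.EllPurity.SepVal
import Fermat.Agent.BR3.FibreProdMidFull
import Fermat.Agent.BR3.FibreProdMidRes

/-!
# Program C, node (ELL-PUR), piece (ELL-GEN): the residue of a separating element generates the
residue field of the middle components

`u ∈ F₂ = F̄_{Mq²}` lying in every middle valuation ring `w₂ b'` (`b' < q - 1`) with pairwise
distinct residues `res_{w₂ b'} u ∈ k((s))` (the `SepU` output of the purity plug,
`EllPurity.ell_etale_sep`).  Then for every `b` the residue `ū_b = resMid b u` GENERATES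
`FMid M B = F̃_M(θ j̃)` over `F̃_M` — the `gen` field of `EtDVR.EtPoint` at the points of the middle
components.

* `exists_mem_w2_resw2_eval₂` : the residue at `w₂ b` of `P^{α₂}(u)`, `P ∈ O1[X]`, is
  `P̄(res_{w₂ b} u)` (for every `b`: the element `P^{α₂}(u)` does not depend on `b`);
* **`aeval_resw2_eq_zero_of_ring_eq`** : if `w₂ b' = w₂ b` (same valuation ring), every polynomial
  relation over `F̃_M` satisfied by `res_{w₂ b} u` is satisfied by `res_{w₂ b'} u` (the two
  residue maps differ by an automorphism of `FMid / F̃_M`);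
* **`gen_resMid`**, `gen_constRedMid` : the generation statement from explicit separation
  hypotheses; **`SepU.gen_resMid`**, **`SepU.gen_constRedMid`** : from `SepU`.

The count: the class `{b' | w₂ b' = w₂ b}` has `fMid = [FMid : F̃_M]` elements
(`FibreProd.card_class_eq`), so `ū_b` has `fMid` distinct conjugates in `k((s))`
(helper1's `SepVal.forall_exists_aeval_eq_of_card_roots`).
-/

set_option autoImplicit false
set_option linter.style.haveILetI false
set_option linter.unusedSectionVars false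

noncomputable section

/- S36 build-time patch: file-local shortcut instances. They only shorten instance search;
each is the instance that the search finds anyway (reducible, same terms after unfolding). -/
local instance (priority := 100000) Fermat.Agent.BR3.FastInst.instAlgFullC_EllPurity_GenMid
    {k : Type*} [Field k] (N : ℕ) :
    Algebra k ↥(ModularCurve.modularFunctionFieldFullC k N) := inferInstance
local instance (priority := 100000) Fermat.Agent.BR3.FastInst.instFieldFullC_EllPurity_GenMid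
    {k : Type*} [Field k] (N : ℕ) :
    Field ↥(ModularCurve.modularFunctionFieldFullC k N) := inferInstance
local instance (priority := 100000) Fermat.Agent.BR3.FastInst.instAlgLaurent_EllPurity_GenMid
    {k : Type*} [Field k] : Algebra k (LaurentSeries k) := inferInstance


set_option synthInstance.maxHeartbeats 400000

namespace Fermat.Agent.BR3.EllPurity

open ModularCurve AlgebraicCurve HahnSeries Polynomial Fermat.Agent.X0 Fermat.Agent.Val
open Fermat.Agent.Hecke.AL Fermat.Agent.BR.TwoVal Fermat.Agent.BR.ResGen Fermat.Agent.Red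
open Fermat.Agent.BR.TwoValInst Fermat.Agent.BR3.FibreProd Fermat.Agent.BR.ConstRedTwo

variable {M q : ℕ} [NeZero M] [hq : Fact q.Prime]
variable (B : ValuationSubring (AlgebraicClosure ℚ)) (hB : B.LiesOverPrime q) (hqM : ¬ q ∣ M)
variable {ζ : Kbˣ} (hζ : IsPrimitiveRoot ζ q) {b : ℕ} (hb : b < q - 1)

local notation "kB" => IsLocalRing.ResidueField B
local notation "FtM" => modularFunctionFieldFullC (IsLocalRing.ResidueField B) M

/-- the inclusion `O1 → F₂` along `α₂` -/
def alphaO1 : O1 M B hB →+* Fb (M * q * q) :=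
  ((alpha2 M q : Fb (M * q) →ₐ[Kb] Fb (M * q * q)) : Fb (M * q) →+* Fb (M * q * q)).comp
    (O1 M B hB).subtype

/-- the inclusion `O1 → w₂ b` along `α₂` -/
def alphaW2 : O1 M B hB →+* w2 B hB hqM hζ hb :=
  (alphaO1 B hB).codRestrict (w2 B hB hqM hζ hb).toSubring
    (fun x => (alpha2_mem_w2_iff B hB hqM hζ hb (x : Fb (M * q))).2 x.2)

theorem resw2_comp_alphaW2 :
    (resw2 B hB hqM hζ hb).comp (alphaW2 B hB hqM hζ hb) =
      (algebraMap FtM (LaurentSeries kB)).comp (constRedW1 B hB hqM).res := by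
  refine RingHom.ext fun x => ?_
  exact (resw2_alpha2 B hB hqM hζ hb (x : Fb (M * q)) x.2).trans
    (coe_constRedW1_res B hB hqM x).symm

/-- **the residue at `w₂ b` of `P^{α₂}(u)`, `P ∈ O1[X]`, is `P̄ (res_{w₂ b} u)`** -/
theorem exists_mem_w2_resw2_eval₂ {u : Fb (M * q * q)} (hu : u ∈ w2 B hB hqM hζ hb)
    (P : (O1 M B hB)[X]) :
    ∃ hz : P.eval₂ (alphaO1 B hB) u ∈ w2 B hB hqM hζ hb,
      resw2 B hB hqM hζ hb ⟨P.eval₂ (alphaO1 B hB) u, hz⟩ =
        aeval (resw2 B hB hqM hζ hb ⟨u, hu⟩) (P.map (constRedW1 B hB hqM).res) := by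
  have h1 : ((P.eval₂ (alphaW2 B hB hqM hζ hb) ⟨u, hu⟩ : w2 B hB hqM hζ hb) :
      Fb (M * q * q)) = P.eval₂ (alphaO1 B hB) u := by
    have := Polynomial.hom_eval₂ P (alphaW2 B hB hqM hζ hb)
      (w2 B hB hqM hζ hb).subtype ⟨u, hu⟩
    exact this
  have hz : P.eval₂ (alphaO1 B hB) u ∈ w2 B hB hqM hζ hb := by
    rw [← h1]
    exact Subtype.property _
  refine ⟨hz, ?_⟩
  have h2 : (⟨P.eval₂ (alphaO1 B hB) u, hz⟩ : w2 B hB hqM hζ hb) =
      P.eval₂ (alphaW2 B hB hqM hζ hb) ⟨u, hu⟩ := Subtype.ext h1.symm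
  rw [h2, Polynomial.hom_eval₂, resw2_comp_alphaW2, aeval_def, Polynomial.eval₂_map]
  rfl

include hB in
/-- **If `w₂ b' = w₂ b`, every polynomial relation over `F̃_M` satisfied by `res_{w₂ b} u` is
satisfied by `res_{w₂ b'} u`.** -/
theorem aeval_resw2_eq_zero_of_ring_eq {b' : ℕ} (hb' : b' < q - 1)
    (hW : w2 B hB hqM hζ hb' = w2 B hB hqM hζ hb) {u : Fb (M * q * q)}
    (hu : u ∈ w2 B hB hqM hζ hb) (hu' : u ∈ w2 B hB hqM hζ hb') (p : FtM[X])
    (hp : aeval (resw2 B hB hqM hζ hb ⟨u, hu⟩) p = 0) :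
    aeval (resw2 B hB hqM hζ hb' ⟨u, hu'⟩) p = 0 := by
  obtain ⟨P, rfl⟩ := Polynomial.map_surjective _ (constRedW1 B hB hqM).res_surjective p
  obtain ⟨hz, hres⟩ := exists_mem_w2_resw2_eval₂ B hB hqM hζ hb hu P
  obtain ⟨hz', hres'⟩ := exists_mem_w2_resw2_eval₂ B hB hqM hζ hb' hu' P
  rw [← hres', ← mem_nonunits_w2_iff B hB hqM hζ hb' hz', hW,
    mem_nonunits_w2_iff B hB hqM hζ hb hz, hres]
  exact hp

include hB in
/-- **(ELL-GEN)** an element of all the middle valuation rings whose residues are pairwise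
distinct: its residue at `w₂ b` generates `F̃_M(θ j̃)` over `F̃_M`. -/
theorem gen_resMid {u : Fb (M * q * q)} (hu : ∀ b' : Fin (q - 1), u ∈ w2 B hB hqM hζ b'.2)
    (hsep : ∀ b' b'' : Fin (q - 1), b' ≠ b'' →
      resw2 B hB hqM hζ b'.2 ⟨u, hu b'⟩ ≠ resw2 B hB hqM hζ b''.2 ⟨u, hu b''⟩)
    (hub : u ∈ w2 B hB hqM hζ hb) (y : FMid M B) :
    ∃ p : FtM[X], aeval (resMid B hB hqM hζ hb ⟨u, hub⟩) p = y := by
  classical
  haveI := finiteDimensional_FMid (M := M) B hB hqM
  set cls : Finset (Fin (q - 1)) :=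
    Finset.univ.filter fun b' : Fin (q - 1) => w2 B hB hqM hζ b'.2 = w2 B hB hqM hζ hb with hcls
  have hinj : Function.Injective fun b' : Fin (q - 1) => resw2 B hB hqM hζ b'.2 ⟨u, hu b'⟩ := by
    intro b' b'' h
    by_contra hne
    exact hsep b' b'' hne h
  refine SepVal.forall_exists_aeval_eq_of_card_roots (resMid B hB hqM hζ hb ⟨u, hub⟩)
    (Ω := LaurentSeries kB)
    (cls.image fun b' : Fin (q - 1) => resw2 B hB hqM hζ b'.2 ⟨u, hu b'⟩) ?_ ?_ y
  · intro x hx
    obtain ⟨b', hb'cls, rfl⟩ := Finset.mem_image.1 hx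
    have hW : w2 B hB hqM hζ b'.2 = w2 B hB hqM hζ hb := (Finset.mem_filter.1 hb'cls).2
    refine aeval_resw2_eq_zero_of_ring_eq B hB hqM hζ hb b'.2 hW hub (hu b') _ ?_
    have h0 : aeval (resMid B hB hqM hζ hb ⟨u, hub⟩)
        (minpoly FtM (resMid B hB hqM hζ hb ⟨u, hub⟩)) = 0 := minpoly.aeval _ _
    have h1 := congrArg (algebraMap (FMid M B) (LaurentSeries kB)) h0
    rw [← Polynomial.aeval_algebraMap_apply, map_zero] at h1
    exact h1
  · rw [Finset.card_image_of_injective _ hinj, hcls, card_class_eq B hB hqM hζ hb,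
      finrank_FMid B hB hqM]

include hB in
/-- the same for the residue map of the constant reduction `constRedMid` -/
theorem gen_constRedMid {u : Fb (M * q * q)} (hu : ∀ b' : Fin (q - 1), u ∈ w2 B hB hqM hζ b'.2)
    (hsep : ∀ b' b'' : Fin (q - 1), b' ≠ b'' →
      resw2 B hB hqM hζ b'.2 ⟨u, hu b'⟩ ≠ resw2 B hB hqM hζ b''.2 ⟨u, hu b''⟩)
    (hub : u ∈ (constRedMid B hB hqM hζ hb).O) (y : FMid M B) :
    ∃ p : FtM[X], aeval ((constRedMid B hB hqM hζ hb).res ⟨u, hub⟩) p = y :=
  gen_resMid B hB hqM hζ hb hu hsep hub y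

variable {B hB hqM hζ}

/-- **(ELL-GEN) from `SepU`**: the residue at `w₂ b` of the étale generator of the purity plug
generates `F̃_M(θ j̃)` over `F̃_M`. -/
theorem SepU.gen_resMid {u : Fb (M * q * q)} (h : SepU B hB hqM hζ u)
    (hub : u ∈ w2 B hB hqM hζ hb) (y : FMid M B) :
    ∃ p : FtM[X], aeval (resMid B hB hqM hζ hb ⟨u, hub⟩) p = y :=
  Fermat.Agent.BR3.EllPurity.gen_resMid B hB hqM hζ hb (fun b' => h.mem_w2 b')
    (fun _ _ hbb => h.resw2_ne_resw2 hbb) hub y

/-- the literal `hgen` of `ChartsGen.etaleGen_exists_coverSheet` at the middle component `w₂ b` -/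
theorem SepU.gen_constRedMid {u : Fb (M * q * q)} (h : SepU B hB hqM hζ u)
    (hub : u ∈ (constRedMid B hB hqM hζ hb).O) (y : FMid M B) :
    ∃ p : FtM[X], aeval ((constRedMid B hB hqM hζ hb).res ⟨u, hub⟩) p = y :=
  h.gen_resMid hb hub y

end Fermat.Agent.BR3.EllPurity
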