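import Fermat.Agent.BR3.EllPurity.FrameT
import Fermat.Agent.BR3.RegAtlasTube
import Fermat.Agent.BR3.EllPurityHoriz
import Fermat.Agent.BR3.EllPurityUnram

/-!
# Program C, node (ELL-PUR), piece (H) at the frame (helper15)

`ellH` : the hypothesis `EllH` (`BR3/EllPurity/Frame.lean`) — the valuative condition at the
horizontal height one primes of the local ring of the smooth model of level `S` at a finite
non-crossing point `Q'` of `can` — when `X₀(M)` has no elliptic points.

Inputs: `EllPurityHoriz.exists_generator_of_unramified` (abstract horizontal hypothesis from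
"unramified + simple zeros"), `EllPurityUnram.ramificationIndexAlong_alpha2_eq_one` (helper20: `α₂`
is unramified at the non-cuspidal places), the frame facts of the level `S` (`frameHyp_CS`), and
`SmoothChart.simple` of the regular chart, whose parameter is `ellT` (`regChartCan_t`).
-/

set_option autoImplicit false
set_option linter.unusedSectionVars false
set_option linter.style.haveILetI false

noncomputable section

namespace Fermat.Agent.BR3.EllPurity

open ModularCurve AlgebraicCurve IsLocalRing Polynomial
open Fermat.Agent.X0 Fermat.Agent.Val Fermat.Agent.Red Fermat.Agent.BR.Centre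
open Fermat.Agent.BR.TwoVal Fermat.Agent.BR.TwoValInst Fermat.Agent.BR.ConstRedTwo
open Fermat.Agent.BR.S0
open Fermat.Agent.BR.S0.RedModular Fermat.Agent.BR.S0.RedHyp Fermat.Agent.BR.S0.PointDict
open Fermat.Agent.BR.Inst.SmoothModularAll Fermat.Agent.BR3.CoverK
open Fermat.Agent.BR.Inst.Levels Fermat.Agent.BR.Inst.ChartInLevels
open Fermat.Agent.BR.S0.HorizModels Fermat.Agent.BR.UnramCycloTower
open Fermat.Agent.BR3.RegAtlas Fermat.Agent.BR3.RegBase Fermat.Agent.BR3.FibreProd
open Fermat.Agent.BR3.PurityPlug

set_option synthInstance.maxHeartbeats 400000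

/-! ### the frame facts of a level of the tower -/

section FrameLevel

variable {N : ℕ} [NeZero N] {A : ValuationSubring Kb} {q : ℕ}
  {base : Finset Kb → Subring (Fb N)}

/-- **The frame facts of the model of level `S`**: it lies in the function field of the level,
contains the constants `A ∩ K_S`, and the valuation of `A` is discrete on `K_S` with uniformizer
`unif A hq hA S`. -/
theorem frameHyp_CS (hb : BaseFamily N A q base) (hq : q.Prime) (hA : A.LiesOverPrime q)
    (S : Finset Kb) : FrameHyp A (coeffField q S) (CS N q base S) (unif A hq hA S) where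
  le_FK := fun _ hx => CS_le_FS S hx
  const_mem := fun _ hcK hcA => const_mem_CS hb ⟨hcA, hcK⟩
  unif_mem := unif_mem_KS A hq hA S
  dvr := fun _ hx hx0 => valuation_eq_zpow_unif A hq hA S hx hx0

end FrameLevel

variable {M q : ℕ} [NeZero M] [hqF : Fact q.Prime]
variable (B : ValuationSubring Kb) (hB : B.LiesOverPrime q) (hqM : ¬ q ∣ M)

local notation "kB" => IsLocalRing.ResidueField B
local notation "FtM" => modularFunctionFieldFullC (IsLocalRing.ResidueField B) M

/-- the levels of the tower of the finite chart -/
local notation "CSfin" => CS (M * q) q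
  (fun T => Fermat.Agent.BR.Inst.NormalModel.modelBase (M * q) (WS B q T))

/-- `j` is a function of the local ring of the model of level `S`. -/
theorem jBar_mem_ellModel_loc (H : AtlasHyp (chartDataModular B hB hqM) (jx M q))
    (Q' : Place kB FtM) (hQ' : ∀ e, Q' ≠ z₁ (chartDataModular B hB hqM) e)
    (hfin : Q'.adicValuation (jFullC kB M) ≤ 1) (S : Finset Kb) :
    jBar (M * q) ∈ (ellModel B hB hqM H Q' hQ' hfin S).loc := by
  rw [← jx_eq_jBar]
  exact (ellModel B hB hqM H Q' hQ' hfin S).le_loc (chartFin_le_CS B hB S jx_mem_chartFin)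

/-- The residue map of `B` kills the constants of valuation `< 1`. -/
theorem residue_eq_zero_of_lt_one (a : B) (ha : B.valuation (a : Kb) < 1) :
    IsLocalRing.residue B a = 0 := by
  rw [IsLocalRing.residue_eq_zero_iff, IsLocalRing.mem_maximalIdeal, mem_nonunits_iff]
  intro hu
  have h1 := (B.valuation_eq_one_iff a).mp hu
  rw [h1] at ha
  exact lt_irrefl _ ha

set_option maxHeartbeats 1600000 in
/-- **(H) at the frame.**  When `X₀(M)` has no elliptic points, the valuative condition at the
horizontal height one primes of the local ring of the model of level `S` holds at every finite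
non-crossing point `Q'` of `can`, for every level `S`. -/
theorem ellH (h2 : nuTwo M = 0) (h3 : nuThree M = 0)
    (H : AtlasHyp (chartDataModular B hB hqM) (jx M q))
    (Q' : Place kB FtM) (hQ' : ∀ e, Q' ≠ z₁ (chartDataModular B hB hqM) e)
    (hfin : Q'.adicValuation (jFullC kB M) ≤ 1) (S : Finset Kb) :
    EllH B hB hqM H Q' hQ' hfin S := by
  intro p _ hht hϖp W hsint hcentre
  have HF : FrameHyp B (coeffField q S) (CSfin S) (unif B hqF.out hB S) :=
    frameHyp_CS (baseFamily_fin (M * q) B hqF.out hB) hqF.out hB S
  have hsimple : ∀ P ∈ {P | H.r P = ⟨0, Q'⟩}, ∀ c : Kb,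
      IsValueAt P (ellT B hB hqM Q' hfin) c →
        P.ord (ellT B hB hqM Q' hfin - algebraMap Kb (Fb (M * q)) c) = 1 := by
    intro P hP c hc
    have h1 := (regChartCan B hB hqM H Q' hQ').chart.simple P hP c
    rw [regChartCan_t B hB hqM H Q' hQ' hfin] at h1
    exact h1 hc
  have hram : ∀ P'' : Place Kb (Fb (M * q * q)),
      (∀ r ∈ (ellModel B hB hqM H Q' hQ' hfin S).loc, alpha2 M q r ∈ P''.toValuationSubring) →
      Place.ramificationIndexAlong (alpha2 M q) P'' = 1 := by
    intro P'' hreg
    refine Fermat.Agent.BR3.EllPurityUnram.ramificationIndexAlong_alpha2_eq_one hqM h2 h3 P'' ?_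
    have h1 := hreg _ (jBar_mem_ellModel_loc B hB hqM H Q' hQ' hfin S)
    haveI : NeZero q := ⟨hqF.out.ne_zero⟩
    rw [Fermat.Agent.Hecke.Deg.heckeAlphaBar_jBar (M * q) q] at h1
    exact (Fermat.Agent.X0.Place.mem_iff_ord_nonneg P'').mp h1
  have hW : ∀ r : (ellModel B hB hqM H Q' hQ' hfin S).loc,
      alpha2 M q (r : Fb (M * q)) ∈ W := fun r =>
    hsint _ (map_mem_sint (ellModel B hB hqM H Q' hQ' hfin S) _ (ellGenField M q S)
      (alpha2_loc_mem_ellGenField B hB hqM H Q' hQ' hfin S) r)
  exact Fermat.Agent.BR3.EllPurityHoriz.exists_generator_of_unramified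
    (ellModel B hB hqM H Q' hQ' hfin S) HF
    (Fermat.Agent.BR.S0.SmoothAssembly.constRed_res_eq_zero_iff (compW B hB hqM 0))
    (compW B hB hqM 0).res_algebraMap (residue_eq_zero_of_lt_one B) hsimple
    (Fermat.Agent.Good.RamDesc.hplace_Fb (M * q * q)) (alpha2 M q)
    (Fermat.Agent.BR2.LevelGen.isIntegral_fb (alpha2 M q)) hram p
    (Fermat.Agent.BR.S0.HorizProvider.ne_bot_of_height_eq_one hht) hϖp W hW hcentre

end Fermat.Agent.BR3.EllPurity
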