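import Fermat.Agent.BR3.EllPurity.Frame
import Fermat.Agent.BR3.EllPurityPoints

/-!
# Program C, node (ELL-PUR), the `K`-level data of the purity plug (generic)

`M` a smooth model with fraction field `K₀ ⊆ F`, `F'' = F(g)` a finite extension generated by a root
`g` of a monic `G₀ ∈ K₀[X]` of degree `[F'' : F]`, `L'' = K₀(g) ⊆ F''` the finite-level field of the
cover.  With `L := AdjoinRoot G₀`, `j : L → F''`, `S :=` the integral closure of `M.loc` in `L`:

* `exists_etaleGen` : the hypotheses (V) `VertHyp`, (H) `HorizHyp` on the concrete subring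
  `sint M α L''` of `F''` and (char) give, by `PurityPlug.purity_plug`, a standard étale generator
  `u` of `F'' / F` over any local ring `R' ⊇ M.loc` of `F` with algebraically closed residue field
  (`EllPurityPoints.EtaleGen R' u v Ψ`, `deg Ψ = deg G₀`), and every element of `sint M α L''` is a
  polynomial in `u` with coefficients in `R'`.
-/

set_option autoImplicit false
set_option linter.unusedSectionVars false
set_option linter.style.haveILetI false

noncomputable section

namespace Fermat.Agent.BR3.EllPurity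

open AlgebraicCurve IsLocalRing Polynomial
open Fermat.Agent.Red Fermat.Agent.BR.Centre Fermat.Agent.BR.S0
open Fermat.Agent.BR3.PurityPlug Fermat.Agent.BR3.EllPurityPoints

section Generic

variable {K F k : Type*} [Field K] [Field F] [Algebra K F] [Field k]
  {Ft : Type*} [Field Ft] [Algebra k Ft]
  {A : ValuationSubring K} {π : A →+* k} {O : ValuationSubring F} {res : O →+* Ft}
  {Q : Place k Ft} {T : Set (Place K F)} {t : F} {C : Subring F} {ϖ : K}
  (M : SmoothModel A π O res Q T t C ϖ)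
  (hres0 : ∀ x : O, res x = 0 ↔ (x : F) ∈ O.nonunits)
  (K₀ : Type*) [Field K₀] [CharZero K₀] [Algebra M.loc K₀] [IsFractionRing M.loc K₀]
  [Algebra K₀ F] [IsScalarTower M.loc K₀ F]
  {F'' : Type*} [Field F''] [Algebra F F'']

/-- the image of `AdjoinRoot G₀` in `F''` lies in every subfield containing `K₀` and the root -/
theorem lift_mem_of_mem (G₀ : K₀[X]) (i₀ : K₀ →+* F'') (g : F'') (hroot : G₀.eval₂ i₀ g = 0)
    (E : Subfield F'') (hE : ∀ x : K₀, i₀ x ∈ E) (hg : g ∈ E) (l : AdjoinRoot G₀) :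
    AdjoinRoot.lift i₀ g hroot l ∈ E := by
  induction l using AdjoinRoot.induction_on with
  | ih p =>
    rw [AdjoinRoot.lift_mk, Polynomial.eval₂_eq_sum_range]
    exact sum_mem fun n _ => mul_mem (hE _) (pow_mem hg n)

set_option maxHeartbeats 1600000 in
include hres0 in
/-- **(ELL-PUR) the plug on concrete subrings.** -/
theorem exists_etaleGen
    (hres : ∀ (a : K) (ha : a ∈ A) (h : algebraMap K F a ∈ O),
      res ⟨algebraMap K F a, h⟩ = algebraMap k Ft (π ⟨a, ha⟩))
    (hπ0 : ∀ a : A, A.valuation (a : K) < 1 → π a = 0)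
    (hK₀F : ∀ r : M.loc, algebraMap K₀ F (algebraMap M.loc K₀ r) = (r : F))
    (G₀ : K₀[X]) [Fact (Irreducible G₀)] (hG₀ : G₀.Monic)
    (g : F'') (hroot : G₀.eval₂ ((algebraMap F F'').comp (algebraMap K₀ F)) g = 0)
    (hgen : ∀ y : F'', ∃ p : F[X], aeval g p = y)
    (hn : Module.finrank F F'' = G₀.natDegree)
    (L'' : Subfield F'')
    (hK₀L : ∀ x : K₀, algebraMap F F'' (algebraMap K₀ F x) ∈ L'') (hgL : g ∈ L'')
    (hmin : ∀ E : Subfield F'', (∀ x : K₀, algebraMap F F'' (algebraMap K₀ F x) ∈ E) → g ∈ E →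
      L'' ≤ E)
    (hL : ∀ r ∈ M.loc, algebraMap F F'' r ∈ L'')
    (hV : VertHyp.{0} M (algebraMap F F'') L'' G₀.natDegree hL)
    (hH : HorizHyp M (algebraMap F F'') L'')
    (hchar : ∀ p : Ideal M.loc, p.IsPrime → unifLoc M ∉ p → ∀ m : ℕ, m ≠ 0 → (m : M.loc) ∉ p)
    (R' : Subring F) (hMR : M.loc ≤ R') [IsLocalRing R'] [IsAlgClosed (ResidueField R')] :
    ∃ (u v : F'') (Ψ : F[X]), EtaleGen R' u v Ψ ∧ Ψ.natDegree = G₀.natDegree ∧
      ∀ y ∈ sint M (algebraMap F F'') L'', ∃ p : F[X], (∀ i, p.coeff i ∈ R') ∧ aeval u p = y := by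
  classical
  have hne : G₀ ≠ 0 := hG₀.ne_zero
  -- the finite-level field `L` and the integral closure `S`
  haveI : IsScalarTower M.loc K₀ (AdjoinRoot G₀) := inferInstance
  have halg : ∀ r : M.loc, algebraMap M.loc (AdjoinRoot G₀) r =
      algebraMap K₀ (AdjoinRoot G₀) (algebraMap M.loc K₀ r) := fun r =>
    IsScalarTower.algebraMap_apply M.loc K₀ (AdjoinRoot G₀) r
  haveI : FiniteDimensional K₀ (AdjoinRoot G₀) := (AdjoinRoot.powerBasis hne).finite
  have hfin : Module.finrank K₀ (AdjoinRoot G₀) = G₀.natDegree := by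
    rw [(AdjoinRoot.powerBasis hne).finrank, AdjoinRoot.powerBasis_dim]
  haveI : Algebra.IsSeparable K₀ (AdjoinRoot G₀) := inferInstance
  -- the embedding `j : L → F''`
  set i₀ : K₀ →+* F'' := (algebraMap F F'').comp (algebraMap K₀ F) with hi₀
  set j : AdjoinRoot G₀ →+* F'' := AdjoinRoot.lift i₀ g hroot with hj
  have hj_of : ∀ x : K₀, j (algebraMap K₀ (AdjoinRoot G₀) x) = i₀ x := fun x => by
    rw [hj, AdjoinRoot.algebraMap_eq, AdjoinRoot.lift_of]
  have hj_root : j (AdjoinRoot.root G₀) = g := AdjoinRoot.lift_root hroot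
  have hj_loc : ∀ r : M.loc, j (algebraMap M.loc (AdjoinRoot G₀) r) = algebraMap F F'' (r : F) := by
    intro r
    rw [halg, hj_of, hi₀, RingHom.comp_apply, hK₀F]
  have hj_inj : Function.Injective j := j.injective
  have hjL : ∀ l, j l ∈ L'' := lift_mem_of_mem K₀ G₀ i₀ g hroot L'' hK₀L hgL
  have hLj : ∀ y ∈ L'', ∃ l, j l = y := by
    intro y hy
    have h1 : L'' ≤ j.fieldRange :=
      hmin j.fieldRange (fun x => ⟨algebraMap K₀ (AdjoinRoot G₀) x, hj_of x⟩)
        ⟨AdjoinRoot.root G₀, hj_root⟩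
    exact h1 hy
  -- the comparison `S ≃ sint`
  set α : F →+* F'' := algebraMap F F'' with hα
  set φ₀ : M.loc →+* ↥(M.loc.map α) :=
    (α.comp M.loc.subtype).codRestrict (M.loc.map α)
      (fun r => Subring.mem_map.mpr ⟨r, r.2, rfl⟩) with hφ₀
  have hφ₀_surj : Function.Surjective φ₀ := by
    rintro ⟨y, hy⟩
    obtain ⟨r, hr, rfl⟩ := Subring.mem_map.mp hy
    exact ⟨⟨r, hr⟩, rfl⟩
  have hcomm : (algebraMap ↥(M.loc.map α) F'').comp φ₀ =
      j.comp (algebraMap M.loc (AdjoinRoot G₀)) := by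
    ext r
    rw [RingHom.comp_apply, RingHom.comp_apply, hj_loc]
    rfl
  have hjS : ∀ s : integralClosure M.loc (AdjoinRoot G₀),
      j (s : AdjoinRoot G₀) ∈ sint M α L'' := by
    intro s
    refine ⟨hjL _, ?_⟩
    have hs : IsIntegral M.loc (s : AdjoinRoot G₀) := s.2
    exact hs.map_of_comp_eq φ₀ j hcomm
  have hSj : ∀ y ∈ sint M α L'', ∃ s : integralClosure M.loc (AdjoinRoot G₀),
      j (s : AdjoinRoot G₀) = y := by
    intro y hy
    obtain ⟨l, rfl⟩ := hLj y hy.1
    obtain ⟨P, hPm, hP⟩ := hy.2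
    have hPl : P ∈ Polynomial.lifts φ₀ := by
      rw [Polynomial.mem_lifts]
      exact Polynomial.map_surjective φ₀ hφ₀_surj P
    obtain ⟨p, hpP, -, hpm⟩ := Polynomial.lifts_and_degree_eq_and_monic hPl hPm
    refine ⟨⟨l, p, hpm, ?_⟩, rfl⟩
    apply hj_inj
    rw [map_zero, Polynomial.hom_eval₂, ← hcomm, ← Polynomial.eval₂_map, hpP]
    exact hP
  -- the basis of `S`
  obtain ⟨b₁⟩ := exists_basis_closure M hres0 K₀ (AdjoinRoot G₀)
    (integralClosure M.loc (AdjoinRoot G₀)) hres hπ0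
  set b₀ : Module.Basis (Fin G₀.natDegree) M.loc (integralClosure M.loc (AdjoinRoot G₀)) :=
    b₁.reindex (finCongr hfin) with hb₀
  -- (V)
  have hV' : ∃ (Ω : Type) (_ : Field Ω) (φ : M.loc →+* Ω)
      (χ : Fin G₀.natDegree → integralClosure M.loc (AdjoinRoot G₀) →+* Ω),
      φ (unifLoc M) = 0 ∧ Function.Injective χ ∧
        ∀ i x, χ i (algebraMap M.loc (integralClosure M.loc (AdjoinRoot G₀)) x) = φ x := by
    obtain ⟨Ω, hΩ, φ, χ, h0, hχ, hφ⟩ := hV
    set e : integralClosure M.loc (AdjoinRoot G₀) →+* sint M α L'' :=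
      (j.comp (algebraMap (integralClosure M.loc (AdjoinRoot G₀)) (AdjoinRoot G₀))).codRestrict
        (sint M α L'') hjS with he
    refine ⟨Ω, hΩ, φ, fun i => (χ i).comp e, h0, ?_, ?_⟩
    · intro i i' hii
      apply hχ
      ext y
      obtain ⟨s, hs⟩ := hSj y y.2
      have hy : y = e s := Subtype.ext hs.symm
      rw [hy]
      exact RingHom.congr_fun hii s
    · intro i x
      rw [RingHom.comp_apply, ← hφ i x]
      congr 1
      apply Subtype.ext
      show j (algebraMap (integralClosure M.loc (AdjoinRoot G₀)) (AdjoinRoot G₀)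
        (algebraMap M.loc (integralClosure M.loc (AdjoinRoot G₀)) x)) = _
      rw [← IsScalarTower.algebraMap_apply, hj_loc]
  -- (H)
  have hW' : ∀ p : Ideal M.loc, p.IsPrime → p.height = 1 → unifLoc M ∉ p →
      ∀ W : ValuationSubring F'',
      (∀ x : integralClosure M.loc (AdjoinRoot G₀),
        j (algebraMap (integralClosure M.loc (AdjoinRoot G₀)) (AdjoinRoot G₀) x) ∈ W) →
      (∀ r : M.loc, j (algebraMap M.loc (AdjoinRoot G₀) r) ∈ W.nonunits ↔ r ∈ p) →
      ∃ π' ∈ p, ∀ y ∈ W.nonunits, ∃ w ∈ W,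
        y = j (algebraMap M.loc (AdjoinRoot G₀) π') * w := by
    intro p hp h1 hϖ W hSW hc
    obtain ⟨π', hπ', h⟩ := hH p hp h1 hϖ W
      (fun y hy => by
        obtain ⟨s, rfl⟩ := hSj y hy
        exact hSW s)
      (fun r => by
        rw [← hj_loc]
        exact hc r)
    refine ⟨π', hπ', fun y hy => ?_⟩
    obtain ⟨w, hw, e⟩ := h y hy
    exact ⟨w, hw, by rw [hj_loc]; exact e⟩
  -- the images of the basis span `F''` over `F`
  have hspan : ⊤ ≤ Submodule.span F (Set.range fun i =>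
      j (algebraMap (integralClosure M.loc (AdjoinRoot G₀)) (AdjoinRoot G₀) (b₀ i))) := by
    set V := Submodule.span F (Set.range fun i =>
      j (algebraMap (integralClosure M.loc (AdjoinRoot G₀)) (AdjoinRoot G₀) (b₀ i))) with hVdef
    have h1 : ∀ s : integralClosure M.loc (AdjoinRoot G₀),
        j (algebraMap (integralClosure M.loc (AdjoinRoot G₀)) (AdjoinRoot G₀) s) ∈ V := by
      intro s
      rw [← b₀.sum_repr s, map_sum, map_sum]
      refine Submodule.sum_mem _ fun i _ => ?_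
      rw [Algebra.smul_def, map_mul, map_mul, ← IsScalarTower.algebraMap_apply M.loc
        (integralClosure M.loc (AdjoinRoot G₀)) (AdjoinRoot G₀), hj_loc, ← Algebra.smul_def]
      exact Submodule.smul_mem _ _ (Submodule.subset_span ⟨i, rfl⟩)
    have h2 : ∀ l : AdjoinRoot G₀, j l ∈ V := by
      intro l
      have := IsLocalization.isAlgebraic K₀ (nonZeroDivisors M.loc)
      have := Algebra.IsAlgebraic.trans M.loc K₀ (AdjoinRoot G₀)
      have halgl : IsAlgebraic M.loc l := Algebra.IsAlgebraic.isAlgebraic l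
      obtain ⟨y, hy0, hy⟩ := halgl.exists_integral_multiple
      have h3 := h1 ⟨y • l, hy⟩
      have h4 : j (y • l) = ((y : M.loc) : F) • j l := by
        rw [Algebra.smul_def, map_mul, hj_loc, ← Algebra.smul_def]
      have h5 : algebraMap (integralClosure M.loc (AdjoinRoot G₀)) (AdjoinRoot G₀)
          ⟨y • l, hy⟩ = y • l := rfl
      rw [h5, h4] at h3
      have hy0' : ((y : M.loc) : F) ≠ 0 := fun h => hy0 (Subtype.ext h)
      have h6 := Submodule.smul_mem V ((y : F)⁻¹) h3
      rwa [smul_smul, inv_mul_cancel₀ hy0', one_smul] at h6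
    intro y _
    obtain ⟨p, rfl⟩ := hgen y
    rw [Polynomial.aeval_eq_sum_range]
    refine Submodule.sum_mem _ fun n _ => Submodule.smul_mem _ _ ?_
    rw [← hj_root, ← map_pow]
    exact h2 _
  -- the `K`-level ring
  have hinj : Function.Injective (algebraMap R' F) := Subtype.val_injective
  set f : M.loc →+* R' := Subring.inclusion hMR with hf
  have hfj : ∀ r : M.loc, j (algebraMap M.loc (AdjoinRoot G₀) r) = algebraMap R' F'' (f r) := by
    intro r
    rw [hj_loc]
    rfl
  obtain ⟨b, hb, h1, hmul, hmem, χ, u, v, Ψ, hu, hχ, hχres, hsep, hv, hmonic, hdeg, hcoeff,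
    hroot', hirr, hgen', hder, hpoly⟩ :=
    purity_plug M hres0 K₀ (AdjoinRoot G₀) (integralClosure M.loc (AdjoinRoot G₀)) hres hπ0 b₀
      hV' j hchar hW' hinj f hfj hn hspan
  refine ⟨u, v, Ψ, EtaleGen.of_plug (R := R') (fun r => r.2) hv hmonic hcoeff hroot' hirr
    hgen' hder hpoly, hdeg, ?_⟩
  intro y hy
  obtain ⟨s, rfl⟩ := hSj y hy
  obtain ⟨p, hp⟩ := hpoly _ (hmem s)
  refine ⟨p.map (algebraMap R' F), fun i => ?_, ?_⟩
  · rw [coeff_map]
    exact (p.coeff i).2
  · rw [aeval_map_algebraMap]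
    exact hp


end Generic

end Fermat.Agent.BR3.EllPurity
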