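import Fermat.Agent.BR3.EllPurity.GenMid
import Fermat.Agent.BR3.CInfRes

/-!
# Program C, node (ELL-PUR), piece (VALUES), algebra: the minimal polynomials of the residues of a
separating element on the components over `can`

`u ∈ F₂` with `SepU B hB hqM hζ u` (the `q` residues `res_{w₁} u`, `res_{w₂ b} u ∈ k((s))` are
pairwise distinct), `ū_b = resMid b u ∈ FMid M B`, `m_b = minpoly F̃_M ū_b`.

* `SepU.natDegree_minpoly_resMid` : `deg m_b = fMid`;
* **`SepU.aeval_resw2_minpoly_eq_zero_iff`** : the roots of `m_b` in `k((s))` among the residues of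
  `u` are exactly those of the class of `b` (`w₂ b' = w₂ b`);
  `SepU.aeval_resw1_minpoly_ne_zero` : `res_{w₁} u` is not a root of `m_b`;
* **`SepU.isCoprime_minpoly_resMid`** : two DIFFERENT middle components give coprime minimal
  polynomials;
* the factor forms for `SepVal.not_val_eval_lt_one_of_mul` : `SepU.exists_factor_mid_mid`,
  `SepU.exists_factor_inf_mid`, `SepU.exists_factor_mid_inf`.
-/

set_option autoImplicit false
set_option linter.style.haveILetI false
set_option linter.unusedSectionVars false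

noncomputable section

set_option synthInstance.maxHeartbeats 400000

namespace Fermat.Agent.BR3.EllPurity

open ModularCurve AlgebraicCurve HahnSeries Polynomial Fermat.Agent.X0 Fermat.Agent.Val
open Fermat.Agent.Hecke.AL Fermat.Agent.BR.TwoVal Fermat.Agent.BR.ResGen Fermat.Agent.Red
open Fermat.Agent.BR.TwoValInst Fermat.Agent.BR3.FibreProd Fermat.Agent.BR.ConstRedTwo
open Fermat.Agent.BR3.CInfRes

variable {M q : ℕ} [NeZero M] [hq : Fact q.Prime]
variable {B : ValuationSubring (AlgebraicClosure ℚ)} {hB : B.LiesOverPrime q} {hqM : ¬ q ∣ M}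
variable {ζ : Kbˣ} {hζ : IsPrimitiveRoot ζ q} {b : ℕ} (hb : b < q - 1)

local notation "kB" => IsLocalRing.ResidueField B
local notation "FtM" => modularFunctionFieldFullC (IsLocalRing.ResidueField B) M

variable {u : Fb (M * q * q)} (h : SepU B hB hqM hζ u)

include h

/-- the residue of `u` at `w₂ b` in `k((s))` is a root of the minimal polynomial of `resMid b u` -/
theorem SepU.aeval_resw2_minpoly_self (hub : u ∈ w2 B hB hqM hζ hb) :
    aeval (resw2 B hB hqM hζ hb ⟨u, hub⟩)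
      (minpoly FtM (resMid B hB hqM hζ hb ⟨u, hub⟩)) = 0 := by
  have h0 : aeval (resMid B hB hqM hζ hb ⟨u, hub⟩)
      (minpoly FtM (resMid B hB hqM hζ hb ⟨u, hub⟩)) = 0 := minpoly.aeval _ _
  have h1 := congrArg (algebraMap (FMid M B) (LaurentSeries kB)) h0
  rw [← Polynomial.aeval_algebraMap_apply, map_zero] at h1
  exact h1

/-- **`deg m_b = fMid`** -/
theorem SepU.natDegree_minpoly_resMid (hub : u ∈ w2 B hB hqM hζ hb) :
    (minpoly FtM (resMid B hB hqM hζ hb ⟨u, hub⟩)).natDegree = fMid M B hB := by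
  haveI := finiteDimensional_FMid (M := M) B hB hqM
  have hint : IsIntegral FtM (resMid B hB hqM hζ hb ⟨u, hub⟩) :=
    Algebra.IsIntegral.isIntegral _
  have htop : IntermediateField.adjoin FtM {resMid B hB hqM hζ hb ⟨u, hub⟩} = ⊤ := by
    rw [eq_top_iff]
    intro y _
    obtain ⟨p, rfl⟩ := h.gen_resMid hb hub y
    exact IntermediateField.algebra_adjoin_le_adjoin _ _
      (Polynomial.aeval_mem_adjoin_singleton _ _)
  rw [← IntermediateField.adjoin.finrank hint, htop, IntermediateField.finrank_top',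
    finrank_FMid B hB hqM]

/-- **the roots of `m_b` among the residues of `u` on the middle components are exactly those of
the class of `b`** -/
theorem SepU.aeval_resw2_minpoly_eq_zero_iff (hub : u ∈ w2 B hB hqM hζ hb) {b' : ℕ}
    (hb' : b' < q - 1) (hub' : u ∈ w2 B hB hqM hζ hb') :
    aeval (resw2 B hB hqM hζ hb' ⟨u, hub'⟩)
      (minpoly FtM (resMid B hB hqM hζ hb ⟨u, hub⟩)) = 0 ↔
        w2 B hB hqM hζ hb' = w2 B hB hqM hζ hb := by
  classical
  haveI := finiteDimensional_FMid (M := M) B hB hqM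
  refine ⟨fun h0 => ?_, fun hW => aeval_resw2_eq_zero_of_ring_eq B hB hqM hζ hb hb' hW hub hub' _
    (h.aeval_resw2_minpoly_self hb hub)⟩
  set m := minpoly FtM (resMid B hB hqM hζ hb ⟨u, hub⟩) with hm
  have hint : IsIntegral FtM (resMid B hB hqM hζ hb ⟨u, hub⟩) :=
    Algebra.IsIntegral.isIntegral _
  have hne : m.map (algebraMap FtM (LaurentSeries kB)) ≠ 0 :=
    Polynomial.map_ne_zero (minpoly.ne_zero hint)
  set cls : Finset (Fin (q - 1)) :=
    Finset.univ.filter fun b'' : Fin (q - 1) => w2 B hB hqM hζ b''.2 = w2 B hB hqM hζ hb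
    with hcls
  have hinj : Function.Injective fun b'' : Fin (q - 1) =>
      resw2 B hB hqM hζ b''.2 ⟨u, h.mem_w2 b''⟩ := by
    intro b₁ b₂ he
    by_contra hne'
    exact h.resw2_ne_resw2 hne' he
  have hmem := SepVal.mem_of_isRoot_of_card hne
    (cls.image fun b'' : Fin (q - 1) => resw2 B hB hqM hζ b''.2 ⟨u, h.mem_w2 b''⟩)
    (by
      intro x hx
      obtain ⟨b'', hb''cls, rfl⟩ := Finset.mem_image.1 hx
      have hW : w2 B hB hqM hζ b''.2 = w2 B hB hqM hζ hb := (Finset.mem_filter.1 hb''cls).2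
      rw [IsRoot.def, eval_map_algebraMap]
      exact aeval_resw2_eq_zero_of_ring_eq B hB hqM hζ hb b''.2 hW hub (h.mem_w2 b'') _
        (h.aeval_resw2_minpoly_self hb hub))
    (by
      rw [natDegree_map, Finset.card_image_of_injective _ hinj, hcls,
        card_class_eq B hB hqM hζ hb, hm, h.natDegree_minpoly_resMid hb hub])
    (a := resw2 B hB hqM hζ hb' ⟨u, hub'⟩)
    (by rw [IsRoot.def, eval_map_algebraMap]; exact h0)
  obtain ⟨b'', hb''cls, he⟩ := Finset.mem_image.1 hmem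
  have hbb : b'' = ⟨b', hb'⟩ := by
    by_contra hne'
    exact h.resw2_ne_resw2 hne' he
  have hW : w2 B hB hqM hζ b''.2 = w2 B hB hqM hζ hb := (Finset.mem_filter.1 hb''cls).2
  rw [hbb] at hW
  exact hW

/-- `res_{w₁} u` is not a root of `m_b` -/
theorem SepU.aeval_resw1_minpoly_ne_zero (hub : u ∈ w2 B hB hqM hζ hb) (hu1 : u ∈ w1 M B hB) :
    aeval (resw1 M B hB ⟨u, hu1⟩)
      (minpoly FtM (resMid B hB hqM hζ hb ⟨u, hub⟩)) ≠ 0 := by
  classical
  haveI := finiteDimensional_FMid (M := M) B hB hqM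
  intro h0
  set m := minpoly FtM (resMid B hB hqM hζ hb ⟨u, hub⟩) with hm
  have hint : IsIntegral FtM (resMid B hB hqM hζ hb ⟨u, hub⟩) :=
    Algebra.IsIntegral.isIntegral _
  have hne : m.map (algebraMap FtM (LaurentSeries kB)) ≠ 0 :=
    Polynomial.map_ne_zero (minpoly.ne_zero hint)
  set cls : Finset (Fin (q - 1)) :=
    Finset.univ.filter fun b'' : Fin (q - 1) => w2 B hB hqM hζ b''.2 = w2 B hB hqM hζ hb
    with hcls
  have hinj : Function.Injective fun b'' : Fin (q - 1) =>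
      resw2 B hB hqM hζ b''.2 ⟨u, h.mem_w2 b''⟩ := by
    intro b₁ b₂ he
    by_contra hne'
    exact h.resw2_ne_resw2 hne' he
  have hmem := SepVal.mem_of_isRoot_of_card hne
    (cls.image fun b'' : Fin (q - 1) => resw2 B hB hqM hζ b''.2 ⟨u, h.mem_w2 b''⟩)
    (by
      intro x hx
      obtain ⟨b'', hb''cls, rfl⟩ := Finset.mem_image.1 hx
      have hW : w2 B hB hqM hζ b''.2 = w2 B hB hqM hζ hb := (Finset.mem_filter.1 hb''cls).2
      rw [IsRoot.def, eval_map_algebraMap]
      exact aeval_resw2_eq_zero_of_ring_eq B hB hqM hζ hb b''.2 hW hub (h.mem_w2 b'') _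
        (h.aeval_resw2_minpoly_self hb hub))
    (by
      rw [natDegree_map, Finset.card_image_of_injective _ hinj, hcls,
        card_class_eq B hB hqM hζ hb, hm, h.natDegree_minpoly_resMid hb hub])
    (a := resw1 M B hB ⟨u, hu1⟩)
    (by rw [IsRoot.def, eval_map_algebraMap]; exact h0)
  obtain ⟨b'', -, he⟩ := Finset.mem_image.1 hmem
  exact h.resw1_ne_resw2 b'' he.symm

/-- **two different middle components give coprime minimal polynomials** -/
theorem SepU.isCoprime_minpoly_resMid (hub : u ∈ w2 B hB hqM hζ hb) {b' : ℕ}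
    (hb' : b' < q - 1) (hub' : u ∈ w2 B hB hqM hζ hb')
    (hne : w2 B hB hqM hζ hb' ≠ w2 B hB hqM hζ hb) :
    IsCoprime (minpoly FtM (resMid B hB hqM hζ hb ⟨u, hub⟩))
      (minpoly FtM (resMid B hB hqM hζ hb' ⟨u, hub'⟩)) := by
  haveI := finiteDimensional_FMid (M := M) B hB hqM
  have hint : IsIntegral FtM (resMid B hB hqM hζ hb ⟨u, hub⟩) :=
    Algebra.IsIntegral.isIntegral _
  rw [(minpoly.irreducible hint).coprime_iff_not_dvd]
  rintro ⟨g, hg⟩
  -- `res_{w₂ b} u` is a root of `m_b`, hence of `m_{b'}`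
  have h1 : aeval (resw2 B hB hqM hζ hb ⟨u, hub⟩)
      (minpoly FtM (resMid B hB hqM hζ hb' ⟨u, hub'⟩)) = 0 := by
    rw [hg, map_mul, h.aeval_resw2_minpoly_self hb hub, zero_mul]
  exact hne ((h.aeval_resw2_minpoly_eq_zero_iff hb' hub' hb hub).1 h1).symm

/-- **the factor form, two different middle components**: a polynomial vanishing at both residues
is `m_b * g` with `g` vanishing at the residue on the other component -/
theorem SepU.exists_factor_mid_mid (hub : u ∈ w2 B hB hqM hζ hb) {b' : ℕ}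
    (hb' : b' < q - 1) (hub' : u ∈ w2 B hB hqM hζ hb')
    (hne : w2 B hB hqM hζ hb' ≠ w2 B hB hqM hζ hb) {Ψ : FtM[X]}
    (h1 : aeval (resMid B hB hqM hζ hb ⟨u, hub⟩) Ψ = 0)
    (h2 : aeval (resMid B hB hqM hζ hb' ⟨u, hub'⟩) Ψ = 0) :
    ∃ g : FtM[X], Ψ = minpoly FtM (resMid B hB hqM hζ hb ⟨u, hub⟩) * g ∧
      aeval (resMid B hB hqM hζ hb' ⟨u, hub'⟩) g = 0 := by
  obtain ⟨g, hg⟩ := minpoly.dvd FtM _ h1
  refine ⟨g, hg, ?_⟩
  have hd : minpoly FtM (resMid B hB hqM hζ hb' ⟨u, hub'⟩) ∣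
      minpoly FtM (resMid B hB hqM hζ hb ⟨u, hub⟩) * g := by
    rw [← hg]
    exact minpoly.dvd FtM _ h2
  obtain ⟨g', hg'⟩ := (h.isCoprime_minpoly_resMid hb hub hb' hub' hne).symm.dvd_of_dvd_mul_left hd
  rw [hg', map_mul, minpoly.aeval, zero_mul]

/-- **the factor form, `cInf` against a middle component**: `Ψ = (X - ū₁) g` with `g` vanishing at
the residue on the middle component -/
theorem SepU.exists_factor_inf_mid (hub : u ∈ w2 B hB hqM hζ hb) (hu1 : u ∈ w1 M B hB)
    {Ψ : FtM[X]} (h1 : Ψ.eval (resInf B hB hqM ⟨u, hu1⟩) = 0)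
    (h2 : aeval (resMid B hB hqM hζ hb ⟨u, hub⟩) Ψ = 0) :
    ∃ g : FtM[X], Ψ = (X - Polynomial.C (resInf B hB hqM ⟨u, hu1⟩)) * g ∧
      aeval (resMid B hB hqM hζ hb ⟨u, hub⟩) g = 0 := by
  obtain ⟨g, hg⟩ := Polynomial.dvd_iff_isRoot.2 h1
  refine ⟨g, hg, ?_⟩
  rw [hg, map_mul] at h2
  rcases mul_eq_zero.1 h2 with h3 | h3
  · exfalso
    -- then `ū_b = ū₁`, so `res_{w₁} u` is a root of `m_b`
    rw [map_sub, aeval_X, aeval_C, sub_eq_zero] at h3
    apply h.aeval_resw1_minpoly_ne_zero hb hub hu1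
    have h4 := h.aeval_resw2_minpoly_self hb hub
    have h5 : resw2 B hB hqM hζ hb ⟨u, hub⟩ = resw1 M B hB ⟨u, hu1⟩ := by
      have := congrArg (algebraMap (FMid M B) (LaurentSeries kB)) h3
      exact this
    rw [h5] at h4
    exact h4
  · exact h3

/-- **the factor form, a middle component against `cInf`**: `Ψ = m_b g` with `g` vanishing at the
residue on `cInf` -/
theorem SepU.exists_factor_mid_inf (hub : u ∈ w2 B hB hqM hζ hb) (hu1 : u ∈ w1 M B hB)
    {Ψ : FtM[X]} (h1 : Ψ.eval (resInf B hB hqM ⟨u, hu1⟩) = 0)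
    (h2 : aeval (resMid B hB hqM hζ hb ⟨u, hub⟩) Ψ = 0) :
    ∃ g : FtM[X], Ψ = minpoly FtM (resMid B hB hqM hζ hb ⟨u, hub⟩) * g ∧
      g.eval (resInf B hB hqM ⟨u, hu1⟩) = 0 := by
  obtain ⟨g, hg⟩ := minpoly.dvd FtM _ h2
  refine ⟨g, hg, ?_⟩
  rw [hg, eval_mul] at h1
  rcases mul_eq_zero.1 h1 with h3 | h3
  · exfalso
    apply h.aeval_resw1_minpoly_ne_zero hb hub hu1
    have h4 := congrArg (algebraMap FtM (LaurentSeries kB)) h3
    rw [map_zero, ← aeval_algebraMap_apply_eq_algebraMap_eval] at h4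
    exact h4
  · exact h3

end Fermat.Agent.BR3.EllPurity
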