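import Fermat.Agent.BR3.EllPurity.Frame

/-!
# Program C, node (ELL-PUR): the minimal polynomial of `j(s^{q²})` at a finite level

`G M q = Φ_q(X, j(s^q)) / (X − j) ∈ F₁[X]` (the minimal polynomial of `j(s^{q²})` over `α₂ F₁`,
`FibreProd.minpoly_jqq`) has its coefficients in every finite-level field `F_S = FS (M * q) q S`:

* `jBar_mem_FS`, `jq'_mem_FS`, `PhiAt_coeff_mem_FS`, `G_coeff_mem_FS`;
* `coeff_divByMonic_mem` : division by a monic polynomial preserves a subfield of coefficients;
* `exists_G₀` : a monic irreducible `G₀ ∈ F_S[X]` of degree `q` with `G₀.map = G M q`.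
-/

set_option autoImplicit false
set_option linter.unusedSectionVars false
set_option linter.style.haveILetI false

noncomputable section

namespace Fermat.Agent.BR3.EllPurity

open ModularCurve AlgebraicCurve Polynomial
open Fermat.Agent.X0 Fermat.Agent.Hecke.AL Fermat.Agent.BR.Kron
open Fermat.Agent.BR.Inst.Levels Fermat.Agent.BR.Inst.NormalModel
open Fermat.Agent.BR3.FibreProd

set_option synthInstance.maxHeartbeats 400000

/-! ### generic: polynomials with coefficients in a subfield -/

section Subfield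

variable {F : Type*} [Field F] (K₀ : Subfield F)

/-- a polynomial whose coefficients lie in a subfield comes from the subfield -/
theorem exists_map_eq_of_coeff_mem {p : F[X]} (hp : ∀ n, p.coeff n ∈ K₀) :
    ∃ p₀ : K₀[X], p₀.map K₀.subtype = p := by
  have h : p ∈ Polynomial.lifts K₀.subtype := by
    rw [Polynomial.lifts_iff_coeff_lifts]
    intro n
    exact ⟨⟨p.coeff n, hp n⟩, rfl⟩
  exact (Polynomial.mem_lifts p).mp h

/-- division by a monic polynomial preserves a subfield of coefficients -/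
theorem coeff_divByMonic_mem {p d : F[X]} (hp : ∀ n, p.coeff n ∈ K₀) (hd : ∀ n, d.coeff n ∈ K₀)
    (hdm : d.Monic) (n : ℕ) : (p /ₘ d).coeff n ∈ K₀ := by
  obtain ⟨p₀, rfl⟩ := exists_map_eq_of_coeff_mem K₀ hp
  obtain ⟨d₀, rfl⟩ := exists_map_eq_of_coeff_mem K₀ hd
  have hd₀ : d₀.Monic := Polynomial.monic_of_injective K₀.subtype.injective hdm
  rw [← Polynomial.map_divByMonic K₀.subtype hd₀, Polynomial.coeff_map]
  exact (( p₀ /ₘ d₀).coeff n).2

end Subfield

variable {M q : ℕ} [NeZero M] [hqF : Fact q.Prime]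

theorem jBar_mem_FS (S : Finset Kb) : jBar (M * q) ∈ FS (M * q) q S := by
  rw [← jBarD_one_eq (M * q), jBarD_eq_barEmb]
  exact Subfield.subset_closure (Or.inr ⟨_, rfl⟩)

theorem jq'_mem_FS (S : Finset Kb) : jq' M q ∈ FS (M * q) q S := by
  haveI : NeZero q := ⟨hqF.out.ne_zero⟩
  rw [jq', jBarD_eq_barEmb]
  exact Subfield.subset_closure (Or.inr ⟨_, rfl⟩)

theorem PhiAt_coeff_mem_FS (S : Finset Kb) (n : ℕ) : (PhiAt M q).coeff n ∈ FS (M * q) q S := by
  haveI : NeZero q := ⟨hqF.out.ne_zero⟩
  rw [PhiAt, Polynomial.coeff_map, phiK, Polynomial.coeff_map, Polynomial.coe_evalRingHom,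
    Polynomial.coe_mapRingHom, Polynomial.eval_map, Polynomial.eval₂_eq_sum_range]
  refine sum_mem fun i _ => mul_mem ?_ (pow_mem (jq'_mem_FS S) i)
  rw [eq_intCast]
  exact intCast_mem _ _

theorem G_coeff_mem_FS (S : Finset Kb) (n : ℕ) : (G M q).coeff n ∈ FS (M * q) q S := by
  refine coeff_divByMonic_mem (FS (M * q) q S) (PhiAt_coeff_mem_FS S) (fun m => ?_)
    (Polynomial.monic_X_sub_C _) n
  rw [Polynomial.coeff_sub, Polynomial.coeff_X, Polynomial.coeff_C]
  refine sub_mem ?_ ?_
  · split_ifs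
    · exact one_mem _
    · exact zero_mem _
  · split_ifs
    · exact jBar_mem_FS S
    · exact zero_mem _

/-- **the minimal polynomial of `j(s^{q²})` over `α₂ F₁` at the finite level `S`** -/
theorem exists_G₀ (hqM : ¬ q ∣ M) (S : Finset Kb) :
    ∃ G₀ : (FS (M * q) q S)[X], G₀.Monic ∧ G₀.natDegree = q ∧ Irreducible G₀ ∧
      G₀.map (FS (M * q) q S).subtype = G M q := by
  obtain ⟨G₀, hG₀⟩ := exists_map_eq_of_coeff_mem (FS (M * q) q S) (G_coeff_mem_FS (M := M) S)
  have hmonic : G₀.Monic :=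
    Polynomial.monic_of_injective (FS (M * q) q S).subtype.injective (by rw [hG₀]; exact G_monic)
  refine ⟨G₀, hmonic, ?_, ?_, hG₀⟩
  · rw [← hmonic.natDegree_map (FS (M * q) q S).subtype, hG₀, G_natDegree]
  · refine hmonic.irreducible_of_irreducible_map (FS (M * q) q S).subtype G₀ ?_
    rw [hG₀]
    letI := algebraAlong (alpha2 M q)
    haveI : Module.Finite (Fb (M * q)) (Fb (M * q * q)) :=
      Fermat.Agent.Hecke.finiteAlong_heckeAlphaBar (M * q) q
    rw [← minpoly_jqq hqM]
    exact minpoly.irreducible (Algebra.IsIntegral.isIntegral _)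

end Fermat.Agent.BR3.EllPurity
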