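import Fermat.Agent.BR3.EllPurity.KLevel
import Fermat.Agent.BR3.EllPurity.ChartLocal
import Fermat.Agent.BR3.EllPurity.PlugPoly
import Fermat.Agent.BR3.EllPurity.Horiz

/-!
# Program C, node (ELL-PUR): the purity plug at a finite non-crossing point of `can`

`ell_purity` : at a finite non-crossing point `Q'` of the component `can` of the model `S'` of
`X₀(qM)` (in particular at an ELLIPTIC ORDINARY point, gap #1231), for a level `S` of the tower at
which (V) `EllV` and (H) `EllH` hold, the cover `F₂ / α₂ F₁` has a standard étale generator over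
the ring of the regular chart `regChartCan` at `Q'`:
`∃ u v Ψ, EtaleGen (regChartCan ..).chart.R u v Ψ ∧ deg Ψ = q ∧ sint ⊆ R'[u]`.

* `ellChar` : (char) the nonzero integers are units at the horizontal primes of `M_S.loc`;
* `isFractionRing_loc_FS` : `Frac (M_S.loc) = F_S`;
* `exists_aeval_jqq_eq` : `F₂ = α₂F₁[j(s^{q²})]`.
-/

set_option autoImplicit false
set_option linter.unusedSectionVars false
set_option linter.style.haveILetI false

noncomputable section

/- S36 build-time patch: file-local shortcut instances. They only shorten instance search;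
each is the instance that the search finds anyway (reducible, same terms after unfolding). -/
local instance (priority := 100000) Fermat.Agent.BR3.FastInst.instAlgFullC_EllPurity_Plug
    {k : Type*} [Field k] (N : ℕ) :
    Algebra k ↥(ModularCurve.modularFunctionFieldFullC k N) := inferInstance
local instance (priority := 100000) Fermat.Agent.BR3.FastInst.instFieldFullC_EllPurity_Plug
    {k : Type*} [Field k] (N : ℕ) :
    Field ↥(ModularCurve.modularFunctionFieldFullC k N) := inferInstance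
local instance (priority := 100000) Fermat.Agent.BR3.FastInst.instAlgLaurent_EllPurity_Plug
    {k : Type*} [Field k] : Algebra k (LaurentSeries k) := inferInstance


namespace Fermat.Agent.BR3.EllPurity

open ModularCurve AlgebraicCurve IsLocalRing Polynomial
open Fermat.Agent.X0 Fermat.Agent.Val Fermat.Agent.Red Fermat.Agent.BR.Centre
open Fermat.Agent.Hecke.AL
open Fermat.Agent.BR.TwoVal Fermat.Agent.BR.TwoValInst Fermat.Agent.BR.ConstRedTwo
open Fermat.Agent.BR.S0
open Fermat.Agent.BR.S0.RedModular Fermat.Agent.BR.S0.RedHyp Fermat.Agent.BR.S0.PointDict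
open Fermat.Agent.BR.Inst.SmoothModularAll Fermat.Agent.BR3.CoverK
open Fermat.Agent.BR.Inst.Levels Fermat.Agent.BR.Inst.ChartInLevels
open Fermat.Agent.BR3.RegAtlas Fermat.Agent.BR3.RegBase Fermat.Agent.BR3.FibreProd
open Fermat.Agent.BR3.PurityPlug Fermat.Agent.BR3.EllPurityPoints

set_option synthInstance.maxHeartbeats 400000

/-! ### (char), generic -/

section Generic

variable {K F k : Type*} [Field K] [Field F] [Algebra K F] [Field k]
  {Ft : Type*} [Field Ft] [Algebra k Ft]
  {A : ValuationSubring K} {π : A →+* k} {O : ValuationSubring F} {res : O →+* Ft}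
  {Q : Place k Ft} {T : Set (Place K F)} {t : F} {C : Subring F} {ϖ : K}
  (Mo : SmoothModel A π O res Q T t C ϖ)

/-- (char) for a smooth model whose constants see every nonzero integer as a unit times a power of
the uniformiser -/
theorem char_of_natCast_eq
    (h : ∀ m : ℕ, m ≠ 0 → ∃ (n : ℕ) (u u' : K), algebraMap K F u ∈ C ∧ algebraMap K F u' ∈ C ∧
      u * u' = 1 ∧ (m : K) = u * ϖ ^ n) :
    ∀ p : Ideal Mo.loc, p.IsPrime → unifLoc Mo ∉ p → ∀ m : ℕ, m ≠ 0 → (m : Mo.loc) ∉ p := by
  intro p hp hϖ m hm hmp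
  obtain ⟨n, u, u', hu, hu', huu, hmu⟩ := h m hm
  set uL : Mo.loc := ⟨algebraMap K F u, Mo.le_loc hu⟩ with huL
  set uL' : Mo.loc := ⟨algebraMap K F u', Mo.le_loc hu'⟩ with huL'
  have h1 : uL' * uL = 1 := by
    apply Subtype.ext
    show algebraMap K F u' * algebraMap K F u = 1
    rw [← map_mul, mul_comm, huu, map_one]
  have h2 : (m : Mo.loc) = uL * unifLoc Mo ^ n := by
    apply Subtype.ext
    show ((m : Mo.loc) : F) = algebraMap K F u * (algebraMap K F ϖ) ^ n
    rw [← map_pow, ← map_mul, ← hmu, map_natCast]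
    rfl
  rw [h2] at hmp
  have h3 : unifLoc Mo ^ n ∈ p := by
    have h4 := p.mul_mem_left uL' hmp
    rwa [← mul_assoc, h1, one_mul] at h4
  exact hϖ (hp.mem_of_pow_mem n h3)

end Generic

/-! ### the plug for a subfield `K₀ = Frac (M.loc)` of `F` -/

section GenericSubfield

variable {K F k : Type*} [Field K] [Field F] [Algebra K F] [Field k]
  {Ft : Type*} [Field Ft] [Algebra k Ft]
  {A : ValuationSubring K} {π : A →+* k} {O : ValuationSubring F} {res : O →+* Ft}
  {Q : Place k Ft} {T : Set (Place K F)} {t : F} {C : Subring F} {ϖ : K}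
  (Mo : SmoothModel A π O res Q T t C ϖ)
  (hres0 : ∀ x : O, res x = 0 ↔ (x : F) ∈ O.nonunits)
  {F'' : Type*} [Field F''] [Algebra F F'']

set_option maxHeartbeats 1600000 in
include hres0 in
/-- **(ELL-PUR) the plug with `K₀` a subfield of `F`** (`KLevel.exists_etaleGen` with the instances
of `K₀ = Frac (M.loc) ⊆ F` built from `hle`, `hfrac`). -/
theorem exists_etaleGen_subfield [CharZero F]
    (hres : ∀ (a : K) (ha : a ∈ A) (h : algebraMap K F a ∈ O),
      res ⟨algebraMap K F a, h⟩ = algebraMap k Ft (π ⟨a, ha⟩))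
    (hπ0 : ∀ a : A, A.valuation (a : K) < 1 → π a = 0)
    (K₀ : Subfield F) (hle : Mo.loc ≤ K₀.toSubring)
    (hfrac : ∀ x ∈ K₀, ∃ a b : Mo.loc, b ≠ 0 ∧ x * (b : F) = (a : F))
    (G₀ : K₀[X]) (hirr : Irreducible G₀) (hG₀ : G₀.Monic)
    (g : F'') (hroot : G₀.eval₂ ((algebraMap F F'').comp K₀.subtype) g = 0)
    (hgen : ∀ y : F'', ∃ p : F[X], aeval g p = y)
    (hn : Module.finrank F F'' = G₀.natDegree)
    (L'' : Subfield F'')
    (hK₀L : ∀ x ∈ K₀, algebraMap F F'' x ∈ L'') (hgL : g ∈ L'')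
    (hmin : ∀ E : Subfield F'', (∀ x ∈ K₀, algebraMap F F'' x ∈ E) → g ∈ E → L'' ≤ E)
    (hL : ∀ r ∈ Mo.loc, algebraMap F F'' r ∈ L'')
    (hV : VertHyp.{0} Mo (algebraMap F F'') L'' G₀.natDegree hL)
    (hH : HorizHyp Mo (algebraMap F F'') L'')
    (hchar : ∀ p : Ideal Mo.loc, p.IsPrime → unifLoc Mo ∉ p → ∀ m : ℕ, m ≠ 0 → (m : Mo.loc) ∉ p)
    (R' : Subring F) (hMR : Mo.loc ≤ R') [IsLocalRing R'] [IsAlgClosed (ResidueField R')] :
    ∃ (u v : F'') (Ψ : F[X]), EtaleGen R' u v Ψ ∧ Ψ.natDegree = G₀.natDegree ∧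
      ∀ y ∈ sint Mo (algebraMap F F'') L'', ∃ p : F[X], (∀ i, p.coeff i ∈ R') ∧ aeval u p = y := by
  letI algK : Algebra Mo.loc K₀ :=
    ((Mo.loc.subtype).codRestrict K₀ (fun r => hle r.2)).toAlgebra
  haveI : IsScalarTower Mo.loc K₀ F := IsScalarTower.of_algebraMap_eq (fun _ => rfl)
  haveI : FaithfulSMul Mo.loc K₀ := by
    rw [faithfulSMul_iff_algebraMap_injective]
    intro a b hab
    exact Subtype.ext (congrArg (fun z : K₀ => (z : F)) hab)
  haveI : IsFractionRing Mo.loc K₀ := by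
    refine IsFractionRing.of_field Mo.loc K₀ fun z => ?_
    obtain ⟨a, b, hb, hab⟩ := hfrac z z.2
    refine ⟨a, b, ?_⟩
    have hb0 : (algebraMap Mo.loc K₀ b : K₀) ≠ 0 := by
      intro h0
      apply hb
      exact Subtype.ext (congrArg (fun z : K₀ => (z : F)) h0)
    rw [eq_div_iff hb0]
    exact Subtype.ext hab
  haveI : Fact (Irreducible G₀) := ⟨hirr⟩
  exact exists_etaleGen Mo hres0 K₀ hres hπ0 (fun _ => rfl) G₀ hG₀ g hroot hgen hn L''
    (fun x => hK₀L x x.2) hgL (fun E hE hg => hmin E (fun x hx => hE ⟨x, hx⟩) hg) hL hV hH hchar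
    R' hMR

end GenericSubfield

variable {M q : ℕ} [NeZero M] [hqF : Fact q.Prime]
variable (B : ValuationSubring Kb) (hB : B.LiesOverPrime q) (hqM : ¬ q ∣ M)

local notation "kB" => IsLocalRing.ResidueField B
local notation "FtM" => modularFunctionFieldFullC (IsLocalRing.ResidueField B) M

/-- the levels of the tower of the finite chart -/
local notation "CSfin" => CS (M * q) q
  (fun T => Fermat.Agent.BR.Inst.NormalModel.modelBase (M * q) (WS B q T))

/-! ### (char) -/

include hB in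
/-- a nonzero integer is a unit times a power of the uniformiser of the level -/
theorem exists_natCast_eq (S : Finset Kb) (m : ℕ) (hm : m ≠ 0) :
    ∃ (n : ℕ) (u u' : Kb), u ∈ WS B q S ∧ u' ∈ WS B q S ∧ u * u' = 1 ∧
      (m : Kb) = u * unif B hqF.out hB S ^ n := by
  have hmK : (m : Kb) ∈ KS q S := natCast_mem (KS q S) m
  have hm0 : (m : Kb) ≠ 0 := Nat.cast_ne_zero.mpr hm
  obtain ⟨n, hn⟩ := valuation_eq_zpow_unif B hqF.out hB S hmK hm0
  have hγ0 : B.valuation (unif B hqF.out hB S) ≠ 0 :=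
    (_root_.map_ne_zero _).2 (unif_ne_zero B hqF.out hB S)
  have hmB : (m : Kb) ∈ B := natCast_mem B m
  have h1 : B.valuation (unif B hqF.out hB S) ^ n ≤ 1 := by
    rw [← hn]
    exact (B.valuation_le_one_iff _).mpr hmB
  have h2 := Fermat.Agent.BR.UnramTower.zpow_nonneg_of_le_one hγ0 (unif_lt_one B hqF.out hB S) h1
  obtain ⟨n', rfl⟩ := Int.eq_ofNat_of_zero_le h2
  rw [zpow_natCast] at hn
  have hϖ0 : unif B hqF.out hB S ^ n' ≠ 0 := pow_ne_zero _ (unif_ne_zero B hqF.out hB S)
  have hϖK : unif B hqF.out hB S ^ n' ∈ KS q S :=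
    (KS q S).pow_mem (unif_mem_KS B hqF.out hB S) n'
  have hv : B.valuation ((m : Kb) * (unif B hqF.out hB S ^ n')⁻¹) = 1 := by
    rw [map_mul, map_inv₀, map_pow, hn]
    exact mul_inv_cancel₀ (pow_ne_zero _ hγ0)
  have hv' : B.valuation ((unif B hqF.out hB S ^ n') * (m : Kb)⁻¹) = 1 := by
    rw [map_mul, map_inv₀, map_pow, hn]
    exact mul_inv_cancel₀ (pow_ne_zero _ hγ0)
  have hK1 : (m : Kb) * (unif B hqF.out hB S ^ n')⁻¹ ∈ KS q S :=
    (KS q S).mul_mem hmK ((KS q S).inv_mem hϖK)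
  have hK2 : (unif B hqF.out hB S ^ n') * (m : Kb)⁻¹ ∈ KS q S :=
    (KS q S).mul_mem hϖK ((KS q S).inv_mem hmK)
  refine ⟨n', (m : Kb) * (unif B hqF.out hB S ^ n')⁻¹, (unif B hqF.out hB S ^ n') * (m : Kb)⁻¹,
    mem_WS_iff.mpr ⟨(B.valuation_le_one_iff _).mp hv.le, hK1⟩,
    mem_WS_iff.mpr ⟨(B.valuation_le_one_iff _).mp hv'.le, hK2⟩, ?_, ?_⟩
  · field_simp
  · field_simp

/-- **(char) at the frame**: the nonzero integers are units at the horizontal primes of the local
ring of the model of level `S` -/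
theorem ellChar (H : AtlasHyp (chartDataModular B hB hqM) (jx M q))
    (Q' : Place kB FtM) (hQ' : ∀ e, Q' ≠ z₁ (chartDataModular B hB hqM) e)
    (hfin : Q'.adicValuation (jFullC kB M) ≤ 1) (S : Finset Kb) :
    ∀ p : Ideal (ellModel B hB hqM H Q' hQ' hfin S).loc, p.IsPrime →
      unifLoc (ellModel B hB hqM H Q' hQ' hfin S) ∉ p → ∀ m : ℕ, m ≠ 0 →
        (m : (ellModel B hB hqM H Q' hQ' hfin S).loc) ∉ p := by
  refine char_of_natCast_eq (ellModel B hB hqM H Q' hQ' hfin S) fun m hm => ?_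
  obtain ⟨n, u, u', hu, hu', huu, hmu⟩ := exists_natCast_eq B hB S m hm
  exact ⟨n, u, u', const_mem_CS (baseFamily_fin (M * q) B hqF.out hB) hu,
    const_mem_CS (baseFamily_fin (M * q) B hqF.out hB) hu', huu, hmu⟩

/-! ### `Frac (M_S.loc) = F_S` -/

/-- every function of the finite-level field `F_S` is a quotient of functions of the local ring of
the model of level `S` -/
theorem exists_frac_loc (H : AtlasHyp (chartDataModular B hB hqM) (jx M q))
    (Q' : Place kB FtM) (hQ' : ∀ e, Q' ≠ z₁ (chartDataModular B hB hqM) e)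
    (hfin : Q'.adicValuation (jFullC kB M) ≤ 1) (S : Finset Kb) (x : Fb (M * q))
    (hx : x ∈ FS (M * q) q S) :
    ∃ a b : (ellModel B hB hqM H Q' hQ' hfin S).loc, b ≠ 0 ∧
      x * (b : Fb (M * q)) = (a : Fb (M * q)) := by
  obtain ⟨a, b, hb, hab⟩ := (baseFamily_fin (M * q) B hqF.out hB).frac S x hx
  refine ⟨⟨a, (ellModel B hB hqM H Q' hQ' hfin S).le_loc a.2⟩,
    ⟨b, (ellModel B hB hqM H Q' hQ' hfin S).le_loc b.2⟩, ?_, hab⟩
  intro h0
  apply hb
  exact Subtype.ext (congrArg (fun z : (ellModel B hB hqM H Q' hQ' hfin S).loc =>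
    (z : Fb (M * q))) h0)

/-! ### `F₂ = α₂F₁[j(s^{q²})]` -/

include hqM in
/-- `F₂ = α₂ F₁ [j(s^{q²})]` -/
theorem exists_aeval_jqq_eq (y : Fb (M * q * q)) :
    letI := algebraAlong (alpha2 M q)
    ∃ p : (Fb (M * q))[X], aeval (jqq M q) p = y := by
  letI := algebraAlong (alpha2 M q)
  haveI : Module.Finite (Fb (M * q)) (Fb (M * q * q)) :=
    Fermat.Agent.Hecke.finiteAlong_heckeAlphaBar (M * q) q
  have hint : IsIntegral (Fb (M * q)) (jqq M q) := Algebra.IsIntegral.isIntegral _
  have h1 : y ∈ (IntermediateField.adjoin (Fb (M * q)) {jqq M q}).toSubalgebra := by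
    rw [adjoin_jqq_eq_top hqM]
    exact IntermediateField.mem_top
  rw [IntermediateField.adjoin_simple_toSubalgebra_of_isAlgebraic hint.isAlgebraic,
    Algebra.adjoin_singleton_eq_range_aeval] at h1
  exact h1

/-! ### the plug at the frame -/

set_option maxHeartbeats 3200000 in
/-- **(ELL-PUR) the purity plug at a finite non-crossing point of `can`.**  At a level `S` of the
tower where (V) `EllV` and (H) `EllH` hold, the cover `F₂ / α₂ F₁` has a standard étale generator
`u` over the ring `R'` of the regular chart `regChartCan` at `Q'`, of degree `q`, and the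
finite-level integral closure `sint` lies in `R'[u]`. -/
theorem ell_purity (H : AtlasHyp (chartDataModular B hB hqM) (jx M q))
    (Q' : Place kB FtM) (hQ' : ∀ e, Q' ≠ z₁ (chartDataModular B hB hqM) e)
    (hfin : Q'.adicValuation (jFullC kB M) ≤ 1) (S : Finset Kb)
    (hV : EllV B hB hqM H Q' hQ' hfin S) (hH : EllH B hB hqM H Q' hQ' hfin S) :
    letI := algebraAlong (alpha2 M q)
    ∃ (u v : Fb (M * q * q)) (Ψ : (Fb (M * q))[X]),
      EtaleGen (regChartCan B hB hqM H Q' hQ').chart.R u v Ψ ∧ Ψ.natDegree = q ∧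
      ∀ y ∈ sint (ellModel B hB hqM H Q' hQ' hfin S)
          ((alpha2 M q : Fb (M * q) →ₐ[Kb] Fb (M * q * q)) : Fb (M * q) →+* Fb (M * q * q))
          (ellGenField M q S),
        ∃ p : (Fb (M * q))[X], (∀ i, p.coeff i ∈ (regChartCan B hB hqM H Q' hQ').chart.R) ∧
          aeval u p = y := by
  letI := algebraAlong (alpha2 M q)
  obtain ⟨G₀, hmonic, hdeg, hirr, hmap⟩ := exists_G₀ (M := M) hqM S
  have hres : ∀ (a : Kb) (ha : a ∈ B) (h : algebraMap Kb (Fb (M * q)) a ∈ (compW B hB hqM 0).O),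
      (compW B hB hqM 0).res ⟨algebraMap Kb (Fb (M * q)) a, h⟩ =
        algebraMap kB FtM (IsLocalRing.residue B ⟨a, ha⟩) := (compW B hB hqM 0).res_algebraMap
  haveI hloc : IsLocalRing (regChartCan B hB hqM H Q' hQ').chart.R :=
    isLocalRing_chart (regChartCan B hB hqM H Q' hQ').chart hres
  haveI : IsAlgClosed kB := Fermat.Agent.Val.residueField_isAlgClosed_algebraicClosure_rat B
  haveI : IsAlgClosed (ResidueField (regChartCan B hB hqM H Q' hQ').chart.R) :=
    isAlgClosed_residueField_chart (regChartCan B hB hqM H Q' hQ').chart hres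
      (residue_eq_zero_of_lt_one B)
  have hroot : G₀.eval₂ ((algebraMap (Fb (M * q)) (Fb (M * q * q))).comp
      (FS (M * q) q S).subtype) (jqq M q) = 0 := by
    have h := G_map_alpha2_eval_jqq (M := M) (q := q)
    rw [← hmap, Polynomial.map_map, Polynomial.eval_map] at h
    exact h
  have hn : Module.finrank (Fb (M * q)) (Fb (M * q * q)) = G₀.natDegree := by
    rw [hdeg]
    exact finrankAlong_alpha2
  have key := exists_etaleGen_subfield (ellModel B hB hqM H Q' hQ' hfin S)
    (Fermat.Agent.BR.S0.SmoothAssembly.constRed_res_eq_zero_iff (compW B hB hqM 0))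
    hres (residue_eq_zero_of_lt_one B) (FS (M * q) q S)
    (ellModel_loc_le_FS B hB hqM H Q' hQ' hfin S)
    (exists_frac_loc B hB hqM H Q' hQ' hfin S) G₀ hirr hmonic (jqq M q) hroot
    (exists_aeval_jqq_eq hqM) hn (ellGenField M q S)
    (fun x hx => alpha2_mem_ellGenField hx) (jqq_mem_ellGenField S)
    (fun E hE hg => Subfield.closure_le.mpr (by
      rintro y (⟨x, hx, rfl⟩ | rfl)
      · exact hE x hx
      · exact hg))
    (alpha2_loc_mem_ellGenField B hB hqM H Q' hQ' hfin S)
    (by rw [hdeg]; exact hV) hH (ellChar B hB hqM H Q' hQ' hfin S)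
    (regChartCan B hB hqM H Q' hQ').chart.R
    (ellModel_loc_le_regChartCan B hB hqM H Q' hQ' hfin S)
  rw [hdeg] at key
  exact key

/-- **(ELL-PUR) the purity plug at a finite non-crossing point of `can`, with (H) discharged**
(`ellH`, helper15): when `X₀(M)` has no elliptic points, only (V) `EllV` at the level `S` is left. -/
theorem ell_purity_of_vert (h2 : nuTwo M = 0) (h3 : nuThree M = 0)
    (H : AtlasHyp (chartDataModular B hB hqM) (jx M q))
    (Q' : Place kB FtM) (hQ' : ∀ e, Q' ≠ z₁ (chartDataModular B hB hqM) e)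
    (hfin : Q'.adicValuation (jFullC kB M) ≤ 1) (S : Finset Kb)
    (hV : EllV B hB hqM H Q' hQ' hfin S) :
    letI := algebraAlong (alpha2 M q)
    ∃ (u v : Fb (M * q * q)) (Ψ : (Fb (M * q))[X]),
      EtaleGen (regChartCan B hB hqM H Q' hQ').chart.R u v Ψ ∧ Ψ.natDegree = q ∧
      ∀ y ∈ sint (ellModel B hB hqM H Q' hQ' hfin S)
          ((alpha2 M q : Fb (M * q) →ₐ[Kb] Fb (M * q * q)) : Fb (M * q) →+* Fb (M * q * q))
          (ellGenField M q S),
        ∃ p : (Fb (M * q))[X], (∀ i, p.coeff i ∈ (regChartCan B hB hqM H Q' hQ').chart.R) ∧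
          aeval u p = y :=
  ell_purity B hB hqM H Q' hQ' hfin S hV (ellH B hB hqM h2 h3 H Q' hQ' hfin S)

end Fermat.Agent.BR3.EllPurity
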