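import Fermat.Agent.BR3.EllPurity.SepVal
import Fermat.Agent.BR3.EllPurity.ChartsGen

/-!
# Program C, team (ELL-PUR), piece (ELL-PUR-AD) (b): the values of the étale generator separate
the points of the fibre lying on DIFFERENT components

`E'` a function field over `k`, `Q'` a place of `E'`, `Ψ̄ ∈ E'[X]` monic with coefficients regular
at `Q'`; `E₂`, `E₃` two extensions of `E'` with places `Q₂`, `Q₃` over `Q'`, and roots `a₂ ∈ E₂`,
`a₃ ∈ E₃` of `Ψ̄` with `Ψ̄'(a₃)` a unit at `Q₃`.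

* `value_ne_of_aeval_minpoly_ne` : if `a₃` is NOT a root of the minimal polynomial of `a₂` over
  `E'` (the two roots are not conjugate: they belong to different irreducible factors of `Ψ̄`), the
  values of `a₂` at `Q₂` and of `a₃` at `Q₃` are different.

[`Ψ̄ = m g`, `m` the minimal polynomial of `a₂`, `m, g ∈ O_{Q'}[X]` (Gauss); `g(a₃) = 0`, so `m(a₃)`
is a unit at `Q₃` (`SepVal.not_val_eval_lt_one_of_mul`); but `m(a₂) = 0`, so `m(c₂)` vanishes at
`Q'`.]

* `etaleGen_value_ne` : the same for the residues of the étale generator of the purity plug on two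
  components upstairs.
-/

set_option autoImplicit false
set_option linter.unusedSectionVars false

namespace Fermat.Agent.BR3.EllPurity.Values

open AlgebraicCurve Polynomial Fermat.Agent.Red Fermat.Agent.X0 Fermat.Agent.BR3.CoverSmooth
  Fermat.Agent.BR3.EllPurity.EtDVR Fermat.Agent.BR3.EllPurity.SepVal

section Generic

variable {k : Type*} [Field k] {E' E₂ E₃ : Type*} [Field E'] [Field E₂] [Field E₃]
  [Algebra k E'] [Algebra k E₂] [Algebra k E₃] [Algebra E' E₂] [Algebra E' E₃]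
  [IsScalarTower k E' E₂] [IsScalarTower k E' E₃]
  {Q' : Place k E'} {Q₂ : Place k E₂} {Q₃ : Place k E₃}

/-- the monic divisors of a monic polynomial with coefficients regular at a place have regular
coefficients (Gauss) -/
theorem coeff_mem_of_dvd (Q' : Place k E') {Ψ m : E'[X]} (hΨm : Ψ.Monic)
    (hΨ : ∀ n, Ψ.coeff n ∈ Q'.toValuationSubring) (hm : m.Monic) (hdvd : m ∣ Ψ) (n : ℕ) :
    m.coeff n ∈ Q'.toValuationSubring := by
  obtain ⟨P, hP⟩ := exists_lift Q' hΨ
  have hPm : P.Monic :=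
    Polynomial.monic_of_injective Q'.toValuationSubring.subtype_injective (by rw [hP]; exact hΨm)
  have hdvd' : m ∣ P.map (algebraMap Q'.toValuationSubring E') := by
    have : P.map (algebraMap Q'.toValuationSubring E') = Ψ := hP
    rw [this]
    exact hdvd
  obtain ⟨m', hm'⟩ := IsIntegrallyClosed.eq_map_mul_C_of_dvd E' hPm hdvd'
  rw [hm.leadingCoeff, C_1, mul_one] at hm'
  rw [← hm', coeff_map]
  exact (m'.coeff n).2

variable (lies₂ : ∀ g : E', algebraMap E' E₂ g ∈ Q₂.toValuationSubring ↔ g ∈ Q'.toValuationSubring)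
  (lies₃ : ∀ g : E', algebraMap E' E₃ g ∈ Q₃.toValuationSubring ↔ g ∈ Q'.toValuationSubring)

include lies₂ lies₃ in
/-- **The values of two non-conjugate roots at two places over `Q'` are different**, when the
derivative is a unit at one of them. -/
theorem value_ne_of_aeval_minpoly_ne {Ψ : E'[X]} (hΨm : Ψ.Monic)
    (hΨ : ∀ n, Ψ.coeff n ∈ Q'.toValuationSubring) {a₂ : E₂} {a₃ : E₃}
    (hr₂ : aeval a₂ Ψ = 0) (hr₃ : aeval a₃ Ψ = 0)
    (hunit : ¬ Q₃.adicValuation (aeval a₃ (derivative Ψ)) < 1)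
    (hne : aeval a₃ (minpoly E' a₂) ≠ 0) {c₂ c₃ : k}
    (hval₂ : IsValueAt Q₂ a₂ c₂) (hval₃ : IsValueAt Q₃ a₃ c₃) : c₂ ≠ c₃ := by
  rintro rfl
  have hint : IsIntegral E' a₂ := ⟨Ψ, hΨm, hr₂⟩
  have hmm : (minpoly E' a₂).Monic := minpoly.monic hint
  obtain ⟨g, hg⟩ := minpoly.dvd E' a₂ hr₂
  have hgm : g.Monic := hmm.of_mul_monic_left (hg ▸ hΨm)
  have hmc := coeff_mem_of_dvd Q' hΨm hΨ hmm ⟨g, hg⟩
  have hgc := coeff_mem_of_dvd Q' hΨm hΨ hgm ⟨minpoly E' a₂, by rw [hg, mul_comm]⟩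
  -- in `E₃[X]`
  have hΨ₃ : Ψ.map (algebraMap E' E₃) =
      (minpoly E' a₂).map (algebraMap E' E₃) * g.map (algebraMap E' E₃) := by
    rw [← Polynomial.map_mul, ← hg]
  have hgc₃ : ∀ n, (g.map (algebraMap E' E₃)).coeff n ∈ Q₃.toValuationSubring := fun n => by
    rw [coeff_map]
    exact (lies₃ _).2 (hgc n)
  have hmc₃ : ∀ n, ((minpoly E' a₂).map (algebraMap E' E₃)).coeff n ∈ Q₃.toValuationSubring :=
    fun n => by
      rw [coeff_map]
      exact (lies₃ _).2 (hmc n)
  have hmc₂ : ∀ n, ((minpoly E' a₂).map (algebraMap E' E₂)).coeff n ∈ Q₂.toValuationSubring :=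
    fun n => by
      rw [coeff_map]
      exact (lies₂ _).2 (hmc n)
  have hroot₃ : (g.map (algebraMap E' E₃)).eval a₃ = 0 := by
    have h1 : (Ψ.map (algebraMap E' E₃)).eval a₃ = 0 := by
      rw [eval_map_algebraMap]
      exact hr₃
    rw [hΨ₃, eval_mul, eval_map_algebraMap] at h1
    exact (mul_eq_zero.1 h1).resolve_left hne
  have hunit₃ : ¬ Q₃.adicValuation ((derivative (Ψ.map (algebraMap E' E₃))).eval a₃) < 1 := by
    rw [derivative_map, eval_map_algebraMap]
    exact hunit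
  have h3 := not_val_eval_lt_one_of_mul Q₃ hΨ₃ hgc₃ hval₃.mem hroot₃ hunit₃
  apply h3
  -- the constant `m(c)` vanishes at `Q'`
  set x : E' := (minpoly E' a₂).eval (algebraMap k E' c₂) with hx
  have hx₂ : ((minpoly E' a₂).map (algebraMap E' E₂)).eval (algebraMap k E₂ c₂) =
      algebraMap E' E₂ x := by
    rw [hx, IsScalarTower.algebraMap_apply k E' E₂, eval_map_apply]
  have hx₃ : ((minpoly E' a₂).map (algebraMap E' E₃)).eval (algebraMap k E₃ c₂) =
      algebraMap E' E₃ x := by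
    rw [hx, IsScalarTower.algebraMap_apply k E' E₃, eval_map_apply]
  have hc₂ : algebraMap k E₂ c₂ ∈ Q₂.toValuationSubring := by
    rw [IsScalarTower.algebraMap_apply k E' E₂]
    exact (lies₂ _).2 (mem_iff_le_one.2 (Q'.adicValuation_algebraMap_le_one c₂))
  have hc₃ : algebraMap k E₃ c₂ ∈ Q₃.toValuationSubring := by
    rw [IsScalarTower.algebraMap_apply k E' E₃]
    exact (lies₃ _).2 (mem_iff_le_one.2 (Q'.adicValuation_algebraMap_le_one c₂))
  have hQ' : Q'.adicValuation x < 1 := by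
    have h1 := val_eval_sub_lt_one Q₂ hmc₂ hval₂.mem hc₂ hval₂
    rw [eval_map_algebraMap, minpoly.aeval, zero_sub, hx₂, Valuation.map_neg] at h1
    exact (lt_one_iff_of_mem_iff (algebraMap E' E₂) lies₂ x).1 h1
  have h4 := val_eval_sub_lt_one Q₃ hmc₃ hval₃.mem hc₃ hval₃
  rw [hx₃] at h4
  have h5 : Q₃.adicValuation (algebraMap E' E₃ x) < 1 :=
    (lt_one_iff_of_mem_iff (algebraMap E' E₃) lies₃ x).2 hQ'
  have e : ((minpoly E' a₂).map (algebraMap E' E₃)).eval a₃ =
      (((minpoly E' a₂).map (algebraMap E' E₃)).eval a₃ - algebraMap E' E₃ x) +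
        algebraMap E' E₃ x := by ring
  rw [e]
  exact (Valuation.map_add _ _ _).trans_lt (max_lt h4 h5)

end Generic

end Fermat.Agent.BR3.EllPurity.Values
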