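import Fermat.Agent.BR3.EllPurity.Values
import Fermat.Agent.BR3.EllPurity.GenMid
import Fermat.Agent.BR3.MidUnitOrd
import Fermat.Agent.BR3.CoverK.Dict

/-!
# Program C, team (ELL-PUR), piece (ELL-PUR-AD) (b): the values of the étale generator of the
purity plug separate the points of the middle components over a finite non-crossing point of `can`

`G : EtaleGen (regChartCan ..).chart.R u v Ψ` and `h : SepU B hB hqM hζ u` (the output of
`ell_etale_sep`), `Q'` the point of `can`.

* `aeval_resMid_minpoly_ne_zero` : for two DIFFERENT middle valuation rings `w₂ b' ≠ w₂ b`, the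
  residue of `u` at `w₂ b'` is not a root of the minimal polynomial over `F̃_M` of its residue at
  `w₂ b` (the two classes give `2 fMid > fMid` distinct conjugates);
* **`ell_value_ne_of_ring_ne`** : the values of `u` at two points `(w₂ b, Q'')`, `(w₂ b', Q''')`
  over `Q'` on DIFFERENT middle components are different;
* **`ell_value_ne_of_place_ne`** : the values of `u` at two DIFFERENT places `Q'' ≠ Q'''` over `Q'`
  of the SAME middle component `w₂ b` are different (`EtDVR.EtPoint.value_ne`);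
* **`ell_mid_disjoint_of_ring_ne`**, **`ell_mid_disjoint_of_place_ne`** : hence the tubes of ANY two
  regular charts of middle components at two different points over `Q'`, lying over the tube of
  `Q'`, are disjoint (`CoverK.Dict.disjoint_of_isIntegral`): the clause (hMM) of
  `FibreCanDisj.hdisj_canFib`, however the charts were built.
-/

set_option autoImplicit false
set_option linter.style.haveILetI false
set_option linter.unusedSectionVars false

noncomputable section

set_option synthInstance.maxHeartbeats 400000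

namespace Fermat.Agent.BR3.EllPurity

open ModularCurve AlgebraicCurve HahnSeries Polynomial Fermat.Agent.X0 Fermat.Agent.Val
open Fermat.Agent.Hecke.AL Fermat.Agent.BR.TwoVal Fermat.Agent.BR.ResGen Fermat.Agent.Red
open Fermat.Agent.BR.TwoValInst Fermat.Agent.BR3.FibreProd Fermat.Agent.BR.ConstRedTwo
open Fermat.Agent.BR3.CoverK Fermat.Agent.BR3.EllPurityPoints
open Fermat.Agent.BR3.KummerGenus Fermat.Agent.BR3.KummerGenus.MidInst
open Fermat.Agent.BR.S0 Fermat.Agent.BR.S0.RedModular Fermat.Agent.BR.S0.PointDict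
open Fermat.Agent.BR.S0.RedHyp Fermat.Agent.BR3.RegAtlas Fermat.Agent.BR2.LevelGen

variable {M q : ℕ} [NeZero M] [hq : Fact q.Prime]
variable (B : ValuationSubring (AlgebraicClosure ℚ)) (hB : B.LiesOverPrime q) (hqM : ¬ q ∣ M)
variable {ζ : Kbˣ} (hζ : IsPrimitiveRoot ζ q)

local notation "kB" => IsLocalRing.ResidueField B
local notation "FtM" => modularFunctionFieldFullC (IsLocalRing.ResidueField B) M

/-- (shortcut instances) -/
local instance (priority := 100000) instAlgKFtVM : Algebra kB FtM := inferInstance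
local instance (priority := 100000) instAlgKFMidVM : Algebra kB (FMid M B) := inferInstance
local instance (priority := 100000) instAlgFtFMidVM : Algebra FtM (FMid M B) := inferInstance
local instance (priority := 100000) instTowerMidVM : IsScalarTower kB FtM (FMid M B) :=
  inferInstance

/-! ### non-conjugacy across the classes -/

set_option maxHeartbeats 1600000 in
/-- **The residues of the generator on two different middle valuation rings are not conjugate
over `F̃_M`.** -/
theorem aeval_resMid_minpoly_ne_zero {u : Fb (M * q * q)} (h : SepU B hB hqM hζ u)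
    {b b' : ℕ} (hb : b < q - 1) (hb' : b' < q - 1)
    (hW : w2 B hB hqM hζ hb' ≠ w2 B hB hqM hζ hb) :
    aeval (resMid B hB hqM hζ hb' ⟨u, h.mem_w2 ⟨b', hb'⟩⟩)
      (minpoly FtM (resMid B hB hqM hζ hb ⟨u, h.mem_w2 ⟨b, hb⟩⟩)) ≠ 0 := by
  classical
  haveI := finiteDimensional_FMid (M := M) B hB hqM
  intro h0
  set m := minpoly FtM (resMid B hB hqM hζ hb ⟨u, h.mem_w2 ⟨b, hb⟩⟩) with hm
  have hint : IsIntegral FtM (resMid B hB hqM hζ hb ⟨u, h.mem_w2 ⟨b, hb⟩⟩) :=
    Algebra.IsIntegral.isIntegral _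
  have hm0 : m ≠ 0 := minpoly.ne_zero hint
  set ρ : Fin (q - 1) → LaurentSeries kB :=
    fun b'' => resw2 B hB hqM hζ b''.2 ⟨u, h.mem_w2 b''⟩ with hρ
  have hinj : Function.Injective ρ := by
    intro b₁ b₂ h12
    by_contra hne
    exact h.resw2_ne_resw2 hne h12
  set cls : Finset (Fin (q - 1)) :=
    Finset.univ.filter fun b'' : Fin (q - 1) => w2 B hB hqM hζ b''.2 = w2 B hB hqM hζ hb
    with hcls
  set cls' : Finset (Fin (q - 1)) :=
    Finset.univ.filter fun b'' : Fin (q - 1) => w2 B hB hqM hζ b''.2 = w2 B hB hqM hζ hb'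
    with hcls'
  have hdisj : Disjoint cls cls' := by
    rw [Finset.disjoint_left]
    intro b'' h1 h2
    apply hW
    rw [← (Finset.mem_filter.1 h1).2, ← (Finset.mem_filter.1 h2).2]
  -- the two residues are roots of `m` in `k((s))`
  have hr : aeval (resw2 B hB hqM hζ hb ⟨u, h.mem_w2 ⟨b, hb⟩⟩) m = 0 := by
    have h1 : aeval (resMid B hB hqM hζ hb ⟨u, h.mem_w2 ⟨b, hb⟩⟩) m = 0 := minpoly.aeval _ _
    have h2 := congrArg (algebraMap (FMid M B) (LaurentSeries kB)) h1
    rw [← Polynomial.aeval_algebraMap_apply, map_zero] at h2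
    exact h2
  have hr' : aeval (resw2 B hB hqM hζ hb' ⟨u, h.mem_w2 ⟨b', hb'⟩⟩) m = 0 := by
    have h2 := congrArg (algebraMap (FMid M B) (LaurentSeries kB)) h0
    rw [← Polynomial.aeval_algebraMap_apply, map_zero] at h2
    exact h2
  have hroots : ((cls ∪ cls').image ρ).val ⊆ (m.map (algebraMap FtM (LaurentSeries kB))).roots := by
    intro x hx
    rw [Finset.mem_val, Finset.mem_image] at hx
    obtain ⟨b'', hb'', rfl⟩ := hx
    rw [Polynomial.mem_roots (Polynomial.map_ne_zero hm0), IsRoot.def, eval_map_algebraMap]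
    rcases Finset.mem_union.1 hb'' with h1 | h1
    · exact aeval_resw2_eq_zero_of_ring_eq B hB hqM hζ hb b''.2 (Finset.mem_filter.1 h1).2
        (h.mem_w2 ⟨b, hb⟩) (h.mem_w2 b'') m hr
    · exact aeval_resw2_eq_zero_of_ring_eq B hB hqM hζ hb' b''.2 (Finset.mem_filter.1 h1).2
        (h.mem_w2 ⟨b', hb'⟩) (h.mem_w2 b'') m hr'
  have hcard := Polynomial.card_le_degree_of_subset_roots hroots
  rw [natDegree_map, Finset.card_image_of_injective _ hinj, Finset.card_union_of_disjoint hdisj,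
    hcls, hcls', card_class_eq B hB hqM hζ hb, card_class_eq B hB hqM hζ hb'] at hcard
  have hdeg : m.natDegree ≤ fMid M B hB := by
    rw [← finrank_FMid B hB hqM]
    exact minpoly.natDegree_le _
  have hpos := fMid_pos B hB hqM
  omega

/-! ### the values at the points of the middle components -/

section ValuesMid

/-- a place of `F̃_M(θ j̃)` over `Q'` lies over `Q'` -/
theorem lies_of_restrict_mid [FiniteDimensional FtM (FMid M B)] {Q' : Place kB FtM}
    {Q'' : Place kB (FMid M B)}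
    (hQ : Q''.restrict FtM = Q') (g : FtM) :
    algebraMap FtM (FMid M B) g ∈ Q''.toValuationSubring ↔ g ∈ Q'.toValuationSubring := by
  rw [← hQ]
  exact Iff.rfl

/-- **The values of the generator at two points over `Q'` on DIFFERENT middle components are
different.** -/
theorem ell_value_ne_of_ring_ne [FiniteDimensional FtM (FMid M B)]
    (H : AtlasHyp (chartDataModular B hB hqM) (jx M q)) (Q' : Place kB FtM)
    (hQ' : ∀ e, Q' ≠ z₁ (chartDataModular B hB hqM) e)
    {u v : Fb (M * q * q)} {Ψ : (Fb (M * q))[X]}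
    (G : letI := algebraAlong (alpha2 M q)
      EtaleGen (regChartCan B hB hqM H Q' hQ').chart.R u v Ψ)
    (h : SepU B hB hqM hζ u)
    {b b' : ℕ} (hb : b < q - 1) (hb' : b' < q - 1)
    (hW : w2 B hB hqM hζ hb' ≠ w2 B hB hqM hζ hb) {Q'' Q''' : Place kB (FMid M B)}
    (hQ'' : Q''.restrict FtM = Q') (hQ''' : Q'''.restrict FtM = Q') {c c' : kB}
    (hval : IsValueAt Q'' (resMid B hB hqM hζ hb ⟨u, h.mem_w2 ⟨b, hb⟩⟩) c)
    (hval' : IsValueAt Q''' (resMid B hB hqM hζ hb' ⟨u, h.mem_w2 ⟨b', hb'⟩⟩) c') : c ≠ c' := by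
  letI := algebraAlong (alpha2 M q)
  haveI := isScalarTower_along (alpha2 M q)
  have hres : ∀ (a : Kb) (ha : a ∈ B) (hh : algebraMap Kb (Fb (M * q)) a ∈ (constRedW1 B hB hqM).O),
      (constRedW1 B hB hqM).res ⟨algebraMap Kb (Fb (M * q)) a, hh⟩ =
        algebraMap kB FtM (IsLocalRing.residue B ⟨a, ha⟩) := (constRedW1 B hB hqM).res_algebraMap
  have comap_eq : ∀ {b₀ : ℕ} (hb₀ : b₀ < q - 1),
      (constRedMid B hB hqM hζ hb₀).O.comap (algebraMap (Fb (M * q)) (Fb (M * q * q))) =
        (constRedW1 B hB hqM).O := fun hb₀ => comap_alpha2_w2 B hB hqM hζ hb₀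
  have res_map : ∀ {b₀ : ℕ} (hb₀ : b₀ < q - 1) (y : Fb (M * q))
      (hy : y ∈ (constRedW1 B hB hqM).O)
      (hy' : algebraMap (Fb (M * q)) (Fb (M * q * q)) y ∈ (constRedMid B hB hqM hζ hb₀).O),
      (constRedMid B hB hqM hζ hb₀).res ⟨algebraMap (Fb (M * q)) (Fb (M * q * q)) y, hy'⟩ =
        algebraMap FtM (FMid M B) ((constRedW1 B hB hqM).res ⟨y, hy⟩) :=
    fun hb₀ y hy _ => resMid_alpha2 B hB hqM hζ hb₀ y hy
  have hmonic : (ChartsGen.redPoly (regChartCan B hB hqM H Q' hQ').chart G.coeff_mem).Monic :=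
    ((Polynomial.monic_toSubring _ _ _).mpr G.monic).map _
  exact Values.value_ne_of_aeval_minpoly_ne (lies_of_restrict_mid B hQ'') (lies_of_restrict_mid B hQ''')
    hmonic
    (ChartsGen.coeff_redPoly_mem (regChartCan B hB hqM H Q' hQ').chart hres G.coeff_mem)
    (ChartsGen.etaleGen_root_red (regChartCan B hB hqM H Q' hQ').chart (comap_eq hb)
      (res_map hb) G)
    (ChartsGen.etaleGen_root_red (regChartCan B hB hqM H Q' hQ').chart (comap_eq hb')
      (res_map hb') G)
    (ChartsGen.etaleGen_simple_red (regChartCan B hB hqM H Q' hQ').chart hres (comap_eq hb')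
      (res_map hb') (lies_of_restrict_mid B hQ''') G hval')
    (aeval_resMid_minpoly_ne_zero B hB hqM hζ h hb hb' hW) hval hval'

/-- **The values of the generator at two DIFFERENT places over `Q'` of the SAME middle component
are different.** -/
theorem ell_value_ne_of_place_ne [FiniteDimensional FtM (FMid M B)]
    (H : AtlasHyp (chartDataModular B hB hqM) (jx M q)) (Q' : Place kB FtM)
    (hQ' : ∀ e, Q' ≠ z₁ (chartDataModular B hB hqM) e)
    {u v : Fb (M * q * q)} {Ψ : (Fb (M * q))[X]}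
    (G : letI := algebraAlong (alpha2 M q)
      EtaleGen (regChartCan B hB hqM H Q' hQ').chart.R u v Ψ)
    (h : SepU B hB hqM hζ u)
    {b : ℕ} (hb : b < q - 1) {Q'' Q''' : Place kB (FMid M B)}
    (hQ'' : Q''.restrict FtM = Q') (hQ''' : Q'''.restrict FtM = Q') (hne : Q'' ≠ Q''')
    {c c' : kB} (hval : IsValueAt Q'' (resMid B hB hqM hζ hb ⟨u, h.mem_w2 ⟨b, hb⟩⟩) c)
    (hval' : IsValueAt Q''' (resMid B hB hqM hζ hb ⟨u, h.mem_w2 ⟨b, hb⟩⟩) c') : c ≠ c' := by
  letI := algebraAlong (alpha2 M q)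
  haveI := isScalarTower_along (alpha2 M q)
  have hres : ∀ (a : Kb) (ha : a ∈ B) (hh : algebraMap Kb (Fb (M * q)) a ∈ (constRedW1 B hB hqM).O),
      (constRedW1 B hB hqM).res ⟨algebraMap Kb (Fb (M * q)) a, hh⟩ =
        algebraMap kB FtM (IsLocalRing.residue B ⟨a, ha⟩) := (constRedW1 B hB hqM).res_algebraMap
  have comap_eq : (constRedMid B hB hqM hζ hb).O.comap
      (algebraMap (Fb (M * q)) (Fb (M * q * q))) = (constRedW1 B hB hqM).O :=
    comap_alpha2_w2 B hB hqM hζ hb
  have res_map : ∀ (y : Fb (M * q)) (hy : y ∈ (constRedW1 B hB hqM).O)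
      (hy' : algebraMap (Fb (M * q)) (Fb (M * q * q)) y ∈ (constRedMid B hB hqM hζ hb).O),
      (constRedMid B hB hqM hζ hb).res ⟨algebraMap (Fb (M * q)) (Fb (M * q * q)) y, hy'⟩ =
        algebraMap FtM (FMid M B) ((constRedW1 B hB hqM).res ⟨y, hy⟩) :=
    fun y hy _ => resMid_alpha2 B hB hqM hζ hb y hy
  have HE := ChartsGen.etaleGen_etPoint (regChartCan B hB hqM H Q' hQ').chart hres comap_eq
    res_map (lies_of_restrict_mid B hQ''') G (fun y => h.gen_constRedMid hb _ y) hval'
  exact HE.value_ne (lies_of_restrict_mid B hQ'') hne hval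

/-! ### the tubes of the regular charts of two different points are disjoint -/

/-- the residue of the generator on a middle component has a value at every place over `Q'` -/
theorem exists_value_resMid [FiniteDimensional FtM (FMid M B)]
    (H : AtlasHyp (chartDataModular B hB hqM) (jx M q)) (Q' : Place kB FtM)
    (hQ' : ∀ e, Q' ≠ z₁ (chartDataModular B hB hqM) e)
    {u v : Fb (M * q * q)} {Ψ : (Fb (M * q))[X]}
    (G : letI := algebraAlong (alpha2 M q)
      EtaleGen (regChartCan B hB hqM H Q' hQ').chart.R u v Ψ)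
    (h : SepU B hB hqM hζ u) {b : ℕ} (hb : b < q - 1) {Q'' : Place kB (FMid M B)}
    (hQ'' : Q''.restrict FtM = Q') :
    ∃ c : kB, IsValueAt Q'' (resMid B hB hqM hζ hb ⟨u, h.mem_w2 ⟨b, hb⟩⟩) c := by
  letI := algebraAlong (alpha2 M q)
  haveI := isScalarTower_along (alpha2 M q)
  have hres : ∀ (a : Kb) (ha : a ∈ B) (hh : algebraMap Kb (Fb (M * q)) a ∈ (constRedW1 B hB hqM).O),
      (constRedW1 B hB hqM).res ⟨algebraMap Kb (Fb (M * q)) a, hh⟩ =
        algebraMap kB FtM (IsLocalRing.residue B ⟨a, ha⟩) := (constRedW1 B hB hqM).res_algebraMap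
  have comap_eq : (constRedMid B hB hqM hζ hb).O.comap
      (algebraMap (Fb (M * q)) (Fb (M * q * q))) = (constRedW1 B hB hqM).O :=
    comap_alpha2_w2 B hB hqM hζ hb
  have res_map : ∀ (y : Fb (M * q)) (hy : y ∈ (constRedW1 B hB hqM).O)
      (hy' : algebraMap (Fb (M * q)) (Fb (M * q * q)) y ∈ (constRedMid B hB hqM hζ hb).O),
      (constRedMid B hB hqM hζ hb).res ⟨algebraMap (Fb (M * q)) (Fb (M * q * q)) y, hy'⟩ =
        algebraMap FtM (FMid M B) ((constRedW1 B hB hqM).res ⟨y, hy⟩) :=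
    fun y hy _ => resMid_alpha2 B hB hqM hζ hb y hy
  have hmonic : (ChartsGen.redPoly (regChartCan B hB hqM H Q' hQ').chart G.coeff_mem).Monic :=
    ((Polynomial.monic_toSubring _ _ _).mpr G.monic).map _
  have hmem : resMid B hB hqM hζ hb ⟨u, h.mem_w2 ⟨b, hb⟩⟩ ∈ Q''.toValuationSubring :=
    EtDVR.mem_of_monic (lies_of_restrict_mid B hQ'') hmonic
      (ChartsGen.coeff_redPoly_mem (regChartCan B hB hqM H Q' hQ').chart hres G.coeff_mem)
      (ChartsGen.etaleGen_root_red (regChartCan B hB hqM H Q' hQ').chart comap_eq res_map G)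
  exact exists_isValueAt Q'' ((riemannPkg_FMid B hB hqM).deg_one Q'') hmem

set_option maxHeartbeats 1600000 in
/-- **(hMM), different components**: the tubes of ANY two regular charts of two DIFFERENT middle
components at places over `Q'`, lying over the tube of `Q'`, are disjoint. -/
theorem ell_mid_disjoint_of_ring_ne [FiniteDimensional FtM (FMid M B)]
    (H : AtlasHyp (chartDataModular B hB hqM) (jx M q)) (Q' : Place kB FtM)
    (hQ' : ∀ e, Q' ≠ z₁ (chartDataModular B hB hqM) e)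
    {u v : Fb (M * q * q)} {Ψ : (Fb (M * q))[X]}
    (G : letI := algebraAlong (alpha2 M q)
      EtaleGen (regChartCan B hB hqM H Q' hQ').chart.R u v Ψ)
    (h : SepU B hB hqM hζ u) {b b' : ℕ} (hb : b < q - 1) (hb' : b' < q - 1)
    (hW : w2 B hB hqM hζ hb' ≠ w2 B hB hqM hζ hb) {Q'' Q''' : Place kB (FMid M B)}
    (hQ'' : Q''.restrict FtM = Q') (hQ''' : Q'''.restrict FtM = Q')
    {T₂ T₃ : Set (Place Kb (Fb (M * q * q)))}
    (C₂ : RegChart B (constRedMid B hB hqM hζ hb).O (constRedMid B hB hqM hζ hb).res Q'' T₂)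
    (C₃ : RegChart B (constRedMid B hB hqM hζ hb').O (constRedMid B hB hqM hζ hb').res Q''' T₃)
    (hsub₂ : ∀ P ∈ T₂, H.r (P.restrictAlong (alpha2 M q) (isIntegral_fb (alpha2 M q))) =
      (⟨0, Q'⟩ : Σ _ : Fin 2, Place kB FtM))
    (hsub₃ : ∀ P ∈ T₃, H.r (P.restrictAlong (alpha2 M q) (isIntegral_fb (alpha2 M q))) =
      (⟨0, Q'⟩ : Σ _ : Fin 2, Place kB FtM)) : Disjoint T₂ T₃ := by
  letI := algebraAlong (alpha2 M q)
  haveI := isScalarTower_along (alpha2 M q)
  haveI : Module.Finite (Fb (M * q)) (Fb (M * q * q)) :=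
    Fermat.Agent.Hecke.finiteAlong_heckeAlphaBar (M * q) q
  obtain ⟨c, hc⟩ := exists_value_resMid B hB hqM hζ H Q' hQ' G h hb hQ''
  obtain ⟨c', hc'⟩ := exists_value_resMid B hB hqM hζ H Q' hQ' G h hb' hQ'''
  exact Dict.disjoint_of_isIntegral (regChartCan B hB hqM H Q' hQ') C₂ C₃
    (constHyp_of_constRed (constRedMid B hB hqM hζ hb))
    (constHyp_of_constRed (constRedMid B hB hqM hζ hb')) hsub₂ hsub₃ G.monic G.coeff_mem G.root
    (h.mem_w2 ⟨b, hb⟩) (h.mem_w2 ⟨b', hb'⟩) hc hc'
    (ell_value_ne_of_ring_ne B hB hqM hζ H Q' hQ' G h hb hb' hW hQ'' hQ''' hc hc')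

set_option maxHeartbeats 1600000 in
/-- **(hMM), same component**: the tubes of ANY two regular charts of the SAME middle component at
two DIFFERENT places over `Q'`, lying over the tube of `Q'`, are disjoint. -/
theorem ell_mid_disjoint_of_place_ne [FiniteDimensional FtM (FMid M B)]
    (H : AtlasHyp (chartDataModular B hB hqM) (jx M q)) (Q' : Place kB FtM)
    (hQ' : ∀ e, Q' ≠ z₁ (chartDataModular B hB hqM) e)
    {u v : Fb (M * q * q)} {Ψ : (Fb (M * q))[X]}
    (G : letI := algebraAlong (alpha2 M q)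
      EtaleGen (regChartCan B hB hqM H Q' hQ').chart.R u v Ψ)
    (h : SepU B hB hqM hζ u) {b : ℕ} (hb : b < q - 1) {Q'' Q''' : Place kB (FMid M B)}
    (hQ'' : Q''.restrict FtM = Q') (hQ''' : Q'''.restrict FtM = Q') (hne : Q'' ≠ Q''')
    {T₂ T₃ : Set (Place Kb (Fb (M * q * q)))}
    (C₂ : RegChart B (constRedMid B hB hqM hζ hb).O (constRedMid B hB hqM hζ hb).res Q'' T₂)
    (C₃ : RegChart B (constRedMid B hB hqM hζ hb).O (constRedMid B hB hqM hζ hb).res Q''' T₃)
    (hsub₂ : ∀ P ∈ T₂, H.r (P.restrictAlong (alpha2 M q) (isIntegral_fb (alpha2 M q))) =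
      (⟨0, Q'⟩ : Σ _ : Fin 2, Place kB FtM))
    (hsub₃ : ∀ P ∈ T₃, H.r (P.restrictAlong (alpha2 M q) (isIntegral_fb (alpha2 M q))) =
      (⟨0, Q'⟩ : Σ _ : Fin 2, Place kB FtM)) : Disjoint T₂ T₃ := by
  letI := algebraAlong (alpha2 M q)
  haveI := isScalarTower_along (alpha2 M q)
  haveI : Module.Finite (Fb (M * q)) (Fb (M * q * q)) :=
    Fermat.Agent.Hecke.finiteAlong_heckeAlphaBar (M * q) q
  obtain ⟨c, hc⟩ := exists_value_resMid B hB hqM hζ H Q' hQ' G h hb hQ''
  obtain ⟨c', hc'⟩ := exists_value_resMid B hB hqM hζ H Q' hQ' G h hb hQ'''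
  exact Dict.disjoint_of_isIntegral (regChartCan B hB hqM H Q' hQ') C₂ C₃
    (constHyp_of_constRed (constRedMid B hB hqM hζ hb))
    (constHyp_of_constRed (constRedMid B hB hqM hζ hb)) hsub₂ hsub₃ G.monic G.coeff_mem G.root
    (h.mem_w2 ⟨b, hb⟩) (h.mem_w2 ⟨b, hb⟩) hc hc'
    (ell_value_ne_of_place_ne B hB hqM hζ H Q' hQ' G h hb hQ'' hQ''' hne hc hc')

/-! ### hypothesis-free forms -/

set_option maxHeartbeats 1600000 in
/-- **(hMM) at a finite non-crossing point of `can`, different components** (hypothesis-free): the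
tubes of ANY two regular charts of two DIFFERENT middle components at places over `Q'`, lying over
the tube of `Q'`, are disjoint. -/
theorem ell_disjoint_mid_of_ring_ne [FiniteDimensional FtM (FMid M B)]
    (h2 : nuTwo M = 0) (h3 : nuThree M = 0)
    (H : AtlasHyp (chartDataModular B hB hqM) (jx M q)) (Q' : Place kB FtM)
    (hQ' : ∀ e, Q' ≠ z₁ (chartDataModular B hB hqM) e)
    (hfin : Q'.adicValuation (jFullC kB M) ≤ 1)
    {b b' : ℕ} (hb : b < q - 1) (hb' : b' < q - 1)
    (hW : w2 B hB hqM hζ hb' ≠ w2 B hB hqM hζ hb) {Q'' Q''' : Place kB (FMid M B)}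
    (hQ'' : Q''.restrict FtM = Q') (hQ''' : Q'''.restrict FtM = Q')
    {T₂ T₃ : Set (Place Kb (Fb (M * q * q)))}
    (C₂ : RegChart B (constRedMid B hB hqM hζ hb).O (constRedMid B hB hqM hζ hb).res Q'' T₂)
    (C₃ : RegChart B (constRedMid B hB hqM hζ hb').O (constRedMid B hB hqM hζ hb').res Q''' T₃)
    (hsub₂ : ∀ P ∈ T₂, H.r (P.restrictAlong (alpha2 M q) (isIntegral_fb (alpha2 M q))) =
      (⟨0, Q'⟩ : Σ _ : Fin 2, Place kB FtM))
    (hsub₃ : ∀ P ∈ T₃, H.r (P.restrictAlong (alpha2 M q) (isIntegral_fb (alpha2 M q))) =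
      (⟨0, Q'⟩ : Σ _ : Fin 2, Place kB FtM)) : Disjoint T₂ T₃ := by
  obtain ⟨u, v, Ψ, G, -, h⟩ := ell_etale_sep B hB hqM hζ h2 h3 H Q' hQ' hfin
  exact ell_mid_disjoint_of_ring_ne B hB hqM hζ H Q' hQ' G h hb hb' hW hQ'' hQ''' C₂ C₃ hsub₂
    hsub₃

set_option maxHeartbeats 1600000 in
/-- **(hMM) at a finite non-crossing point of `can`, same component** (hypothesis-free): the tubes
of ANY two regular charts of the SAME middle component at two DIFFERENT places over `Q'`, lying over
the tube of `Q'`, are disjoint. -/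
theorem ell_disjoint_mid_of_place_ne [FiniteDimensional FtM (FMid M B)]
    (h2 : nuTwo M = 0) (h3 : nuThree M = 0)
    (H : AtlasHyp (chartDataModular B hB hqM) (jx M q)) (Q' : Place kB FtM)
    (hQ' : ∀ e, Q' ≠ z₁ (chartDataModular B hB hqM) e)
    (hfin : Q'.adicValuation (jFullC kB M) ≤ 1)
    {b : ℕ} (hb : b < q - 1) {Q'' Q''' : Place kB (FMid M B)}
    (hQ'' : Q''.restrict FtM = Q') (hQ''' : Q'''.restrict FtM = Q') (hne : Q'' ≠ Q''')
    {T₂ T₃ : Set (Place Kb (Fb (M * q * q)))}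
    (C₂ : RegChart B (constRedMid B hB hqM hζ hb).O (constRedMid B hB hqM hζ hb).res Q'' T₂)
    (C₃ : RegChart B (constRedMid B hB hqM hζ hb).O (constRedMid B hB hqM hζ hb).res Q''' T₃)
    (hsub₂ : ∀ P ∈ T₂, H.r (P.restrictAlong (alpha2 M q) (isIntegral_fb (alpha2 M q))) =
      (⟨0, Q'⟩ : Σ _ : Fin 2, Place kB FtM))
    (hsub₃ : ∀ P ∈ T₃, H.r (P.restrictAlong (alpha2 M q) (isIntegral_fb (alpha2 M q))) =
      (⟨0, Q'⟩ : Σ _ : Fin 2, Place kB FtM)) : Disjoint T₂ T₃ := by
  obtain ⟨u, v, Ψ, G, -, h⟩ := ell_etale_sep B hB hqM hζ h2 h3 H Q' hQ' hfin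
  exact ell_mid_disjoint_of_place_ne B hB hqM hζ H Q' hQ' G h hb hQ'' hQ''' hne C₂ C₃ hsub₂
    hsub₃

end ValuesMid

end Fermat.Agent.BR3.EllPurity
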