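import Fermat.Agent.BR3.EllPurity.VertAbs
import Fermat.Agent.BR3.FibreProdMidFull

/-!
# Program C, node (ELL-PUR-V): the vertical characters (V) of the purity plug at a finite
non-crossing point of `can`

`EllV B hB hqM H Q' hQ' hfin S` (frame `BR3/EllPurity/Frame.lean`) holds for every level `S`
containing a fixed level `S₀` (`ellV_cofinal`).

`Ω := k((s))`, `φ := res₁` on `M_S.loc`, and the `q` characters are the restrictions to the
finite-level integral closure `sint` of the residue maps `res_{w₁}` and `res_{w₂ b}`, `b < q - 1`,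
of the valuations of `F₂` over `can` along `α₂` (`WAll`, `rhoAll`). They are separated at the top
level (`rhoAll_top`: the Kummer generator `Ũ_b` has residues `θ j̃` and `m θ j̃`, `m ≢ 1`, at two
indices with the same valuation ring), hence by elements of the integral closure of `O1` in `F₂`
(`VertAbs.exists_separating` on `FibreProd.setupAll`, `Full.isIntegralElem_iff` on `fullAll`),
which descend to the levels after multiplication by a denominator which is a unit of `O1`
(`VertAbs.vertHyp_of_chars`).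
-/

set_option autoImplicit false
set_option linter.unusedSectionVars false
set_option linter.style.haveILetI false

noncomputable section

namespace Fermat.Agent.BR3.EllPurity

open ModularCurve AlgebraicCurve IsLocalRing Polynomial
open Fermat.Agent.X0 Fermat.Agent.Val Fermat.Agent.Red Fermat.Agent.BR.Centre
open Fermat.Agent.Hecke.AL
open Fermat.Agent.BR.TwoVal Fermat.Agent.BR.TwoValInst Fermat.Agent.BR.ConstRedTwo
open Fermat.Agent.BR.S0
open Fermat.Agent.BR.S0.RedModular Fermat.Agent.BR.S0.RedHyp Fermat.Agent.BR.S0.PointDict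
open Fermat.Agent.BR.Inst.SmoothModularAll Fermat.Agent.BR3.CoverK
open Fermat.Agent.BR.Inst.CkPointModular Fermat.Agent.BR.S0.GeomModular
open Fermat.Agent.BR.Inst.Inf.SmoothInstInf Fermat.Agent.BR.Inst.LevelsInst
open Fermat.Agent.BR.Inst.SpecIso Fermat.Agent.BR.Inst.SpecIsoInf
open Fermat.Agent.BR.Inst.Levels Fermat.Agent.BR.Inst.ChartInLevels
open Fermat.Agent.BR.S0.SmoothLevelsGlue Fermat.Agent.BR.S0.SmoothAssembly
open Fermat.Agent.BR3.RegAtlas Fermat.Agent.BR3.RegBase Fermat.Agent.BR3.FibreProd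
open Fermat.Agent.BR3.PurityPlug Fermat.Agent.BR3.MultiVal Fermat.Agent.Igusa Fermat.Agent.BR.ResGen
open Fermat.Agent.BR3.IgSq

set_option synthInstance.maxHeartbeats 400000

variable {M q : ℕ} [NeZero M] [hqF : Fact q.Prime]
variable (B : ValuationSubring Kb) (hB : B.LiesOverPrime q) (hqM : ¬ q ∣ M)

local notation "kB" => IsLocalRing.ResidueField B
local notation "FtM" => modularFunctionFieldFullC (IsLocalRing.ResidueField B) M

/-- the levels of the tower of the finite chart -/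
local notation "CSfin" => CS (M * q) q
  (fun T => Fermat.Agent.BR.Inst.NormalModel.modelBase (M * q) (WS B q T))

/-! ### the `q` characters at the top level -/

section Chars

variable {ζ : Kbˣ} (hζ : IsPrimitiveRoot ζ q)

/-- the valuation rings of `F₂` over `can` along `α₂`, with the multiplicities of the middle ones:
`w₁` and the `w₂ b`, `b < q - 1` -/
def WAll : Option (Fin (q - 1)) → ValuationSubring (Fb (M * q * q))
  | none => w1 M B hB
  | some b => w2 B hB hqM hζ b.2

/-- the residue maps with values in `k((s))` -/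
def rhoAll : ∀ i : Option (Fin (q - 1)),
    WAll B hB hqM hζ i →+* LaurentSeries (IsLocalRing.ResidueField B)
  | none => resw1 M B hB
  | some b => resw2 B hB hqM hζ b.2

/-- the index of the valuation ring in the family without repetition -/
def vAll : Option (Fin (q - 1)) → Option (Mid B hB hqM hζ)
  | none => none
  | some b => some (midOf B hB hqM hζ b)

theorem WAll_eq_OAll (i : Option (Fin (q - 1))) :
    WAll B hB hqM hζ i = OAll B hB hqM hζ (vAll B hB hqM hζ i) := by
  rcases i with _ | b <;> rfl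

theorem card_index : Fintype.card (Option (Fin (q - 1))) = q := by
  rw [Fintype.card_option, Fintype.card_fin]
  exact Nat.sub_add_cancel hqF.out.pos

theorem rhoAll_nonunits (i : Option (Fin (q - 1))) (x : WAll B hB hqM hζ i)
    (hx : (x : Fb (M * q * q)) ∈ (WAll B hB hqM hζ i).nonunits) : rhoAll B hB hqM hζ i x = 0 := by
  rcases i with _ | b
  · exact (mem_nonunits_O1_iff (M := M * q) B hB x.2).mp hx
  · exact (mem_nonunits_w2_iff B hB hqM hζ b.2 x.2).mp hx

theorem alpha2_mem_WAll (i : Option (Fin (q - 1))) {x : Fb (M * q)} (hx : x ∈ O1 M B hB) :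
    alpha2 M q x ∈ WAll B hB hqM hζ i := by
  rcases i with _ | b
  · exact (alpha2_mem_w1_iff B hB x).2 hx
  · exact (alpha2_mem_w2_iff B hB hqM hζ b.2 x).2 hx

theorem rhoAll_alpha2 (i : Option (Fin (q - 1))) (x : Fb (M * q)) (hx : x ∈ O1 M B hB) :
    rhoAll B hB hqM hζ i ⟨alpha2 M q x, alpha2_mem_WAll B hB hqM hζ i hx⟩ =
      res1 M B hB ⟨x, hx⟩ := by
  rcases i with _ | b
  · exact resw1_alpha2 B hB x hx
  · exact resw2_alpha2 B hB hqM hζ b.2 x hx

include hB in
/-- **the characters are pairwise different at the top level** -/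
theorem rhoAll_top (i j : Option (Fin (q - 1))) (hij : i ≠ j)
    (hW : WAll B hB hqM hζ i = WAll B hB hqM hζ j) :
    ∃ (u : Fb (M * q * q)) (hi : u ∈ WAll B hB hqM hζ i) (hj : u ∈ WAll B hB hqM hζ j),
      rhoAll B hB hqM hζ i ⟨u, hi⟩ ≠ rhoAll B hB hqM hζ j ⟨u, hj⟩ := by
  haveI := charP_kB B hB
  haveI : NeZero q := ⟨hqF.out.ne_zero⟩
  rcases i with _ | b <;> rcases j with _ | b'
  · exact absurd rfl hij
  · exact absurd hW.symm (w2_ne_w1 B hB hqM hζ b'.2)
  · exact absurd hW (w2_ne_w1 B hB hqM hζ b.2)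
  · have hbb : b ≠ b' := fun h => hij (by rw [h])
    have hcop : Nat.Coprime ((b : ℕ) + 1) q := by
      rw [Nat.coprime_comm]
      refine (Nat.Prime.coprime_iff_not_dvd hqF.out).2 fun h => ?_
      have := Nat.le_of_dvd (Nat.succ_pos (b : ℕ)) h
      have := b.2
      omega
    have hprim : IsPrimitiveRoot (ζ ^ ((b : ℕ) + 1)) q := hζ.pow_of_coprime _ hcop
    obtain ⟨m, -, hm⟩ := hprim.eq_pow_of_mem_rootsOfUnity
      ((mem_rootsOfUnity q _).mpr (zeta_pow_pow hζ (b := (b' : ℕ))))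
    obtain ⟨hmem, hr⟩ := resw2_Utilde_of_pow B hB hqM hζ (b := (b : ℕ)) b'.2 m hm.symm
    refine ⟨Utilde M q ((ζ ^ ((b : ℕ) + 1) : Kbˣ) : Kb), Utilde_mem_w2 B hB hqM hζ b.2, hmem, ?_⟩
    show resw2 B hB hqM hζ b.2 ⟨_, Utilde_mem_w2 B hB hqM hζ b.2⟩ ≠
      resw2 B hB hqM hζ b'.2 ⟨_, hmem⟩
    rw [resw2_Utilde, hr]
    intro h
    have h1 : (HahnSeries.C ((m : ℕ) : kB) : LaurentSeries kB) = 1 := by
      have h2 : thetaL kB (jqModC kB) * 1 = thetaL kB (jqModC kB) * HahnSeries.C ((m : ℕ) : kB) := by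
        rw [mul_one]
        exact h
      exact (mul_left_cancel₀ (thetaL_jqModC_ne_zero B) h2).symm
    have h2 : ((m : ℕ) : kB) = ((1 : ℕ) : kB) := by
      rw [Nat.cast_one]
      have h1' : (HahnSeries.C ((m : ℕ) : kB) : LaurentSeries kB) = HahnSeries.C (1 : kB) := by
        rw [h1, map_one]
      exact HahnSeries.C_injective h1'
    have h3 : m ≡ 1 [MOD q] := (CharP.natCast_eq_natCast kB q).1 h2
    have h4 : (ζ ^ ((b : ℕ) + 1)) ^ m = (ζ ^ ((b : ℕ) + 1)) ^ 1 := by
      rw [pow_eq_pow_iff_modEq, ← hprim.eq_orderOf]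
      exact h3
    rw [hm, pow_one] at h4
    have h5 := hζ.pow_inj (by have := b'.2; omega) (by have := b.2; omega) h4
    exact hbb (Fin.ext (by omega)).symm

end Chars

/-! ### the levels -/

section Levels

include hqM in
/-- `F₂ = ⋃ ellGenField S`, cofinal form -/
theorem exists_forall_mem_ellGenField (y : Fb (M * q * q)) :
    ∃ S : Finset Kb, ∀ T : Finset Kb, S ⊆ T → y ∈ ellGenField M q T := by
  classical
  letI := algebraAlong (alpha2 M q)
  haveI : Module.Finite (Fb (M * q)) (Fb (M * q * q)) :=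
    Fermat.Agent.Hecke.finiteAlong_heckeAlphaBar (M * q) q
  have hint : IsIntegral (Fb (M * q)) (jqq M q) := Algebra.IsIntegral.isIntegral _
  have hy : y ∈ (IntermediateField.adjoin (Fb (M * q)) {jqq M q}).toSubalgebra := by
    rw [IntermediateField.mem_toSubalgebra, adjoin_jqq_eq_top hqM]
    exact IntermediateField.mem_top
  rw [IntermediateField.adjoin_simple_toSubalgebra_of_isAlgebraic hint.isAlgebraic,
    Algebra.adjoin_singleton_eq_range_aeval] at hy
  obtain ⟨p, rfl⟩ := hy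
  choose S hS using fun k : Fin (p.natDegree + 1) => exists_forall_mem_FS (M * q) q (p.coeff k)
  refine ⟨Finset.univ.biUnion S, fun T hT => ?_⟩
  show aeval (jqq M q) p ∈ ellGenField M q T
  rw [aeval_eq_sum_range, Finset.sum_range]
  refine sum_mem fun k _ => ?_
  rw [Algebra.smul_def]
  refine mul_mem ?_ (pow_mem (jqq_mem_ellGenField T) _)
  exact alpha2_mem_ellGenField
    (hS k T ((Finset.subset_biUnion_of_mem S (Finset.mem_univ k)).trans hT))

include hB hqM in
/-- **the separating elements with their integral equations and a level** -/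
theorem exists_sep_level {ζ : Kbˣ} (hζ : IsPrimitiveRoot ζ q) (i j : Option (Fin (q - 1)))
    (hij : i ≠ j) :
    ∃ (y : Fb (M * q * q)) (p : (Fb (M * q))[X]) (S₀ : Finset Kb), p.Monic ∧
      eval₂ ((alpha2 M q : Fb (M * q) →ₐ[Kb] Fb (M * q * q)) : Fb (M * q) →+* Fb (M * q * q))
        y p = 0 ∧
      (∀ k, p.coeff k ∈ O1 M B hB) ∧
      (∃ (hi : y ∈ WAll B hB hqM hζ i) (hj : y ∈ WAll B hB hqM hζ j),
        rhoAll B hB hqM hζ i ⟨y, hi⟩ ≠ rhoAll B hB hqM hζ j ⟨y, hj⟩) ∧
      ∀ T : Finset Kb, S₀ ⊆ T → y ∈ ellGenField M q T ∧ ∀ k, p.coeff k ∈ FS (M * q) q T := by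
  classical
  letI := algebraAlong (alpha2 M q)
  haveI := finiteDimensional_alpha2 (M := M) (q := q)
  obtain ⟨y, hall, hi, hj, hne⟩ := VertAbs.exists_separating (setupAll B hB hqM hζ)
    (WAll B hB hqM hζ) (vAll B hB hqM hζ) (WAll_eq_OAll B hB hqM hζ) (rhoAll B hB hqM hζ)
    (rhoAll_nonunits B hB hqM hζ) (rhoAll_top B hB hqM hζ) i j hij
  obtain ⟨p₀, hp₀, hp₀y⟩ := ((fullAll B hB hqM hζ).isIntegralElem_iff y).mpr hall
  set p : (Fb (M * q))[X] := p₀.map (O1 M B hB).subtype with hp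
  obtain ⟨Sy, hSy⟩ := exists_forall_mem_ellGenField hqM y
  choose Sk hSk using fun k : Fin (p.natDegree + 1) =>
    exists_forall_mem_FS (M * q) q (p.coeff k)
  refine ⟨y, p, Sy ∪ Finset.univ.biUnion Sk, hp₀.map _, ?_, ?_, ⟨hi, hj, hne⟩,
    fun T hT => ⟨?_, fun k => ?_⟩⟩
  · rw [hp, eval₂_map]
    exact hp₀y
  · intro k
    rw [hp, coeff_map]
    exact (p₀.coeff k).2
  · exact hSy T (Finset.union_subset_left hT)
  · by_cases hk : k ≤ p.natDegree
    · exact hSk ⟨k, Nat.lt_succ_of_le hk⟩ T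
        ((Finset.subset_biUnion_of_mem Sk (Finset.mem_univ _)).trans
          (Finset.union_subset_right hT))
    · rw [coeff_eq_zero_of_natDegree_lt (not_le.mp hk)]
      exact zero_mem _

end Levels

/-! ### (V) at the frame -/

section Final

theorem alpha2_ringHom_mem_WAll {ζ : Kbˣ} (hζ : IsPrimitiveRoot ζ q) (i : Option (Fin (q - 1)))
    (x : Fb (M * q)) (hx : x ∈ (compW B hB hqM 0).O) :
    ((alpha2 M q : Fb (M * q) →ₐ[Kb] Fb (M * q * q)) : Fb (M * q) →+* Fb (M * q * q)) x ∈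
      WAll B hB hqM hζ i := by
  rw [RingHom.coe_coe]
  exact alpha2_mem_WAll B hB hqM hζ i hx

/-- **(ELL-PUR-V): the vertical characters at every sufficiently large level.** -/
theorem ellV_cofinal (H : AtlasHyp (chartDataModular B hB hqM) (jx M q))
    (Q' : Place kB FtM) (hQ' : ∀ e, Q' ≠ z₁ (chartDataModular B hB hqM) e)
    (hfin : Q'.adicValuation (jFullC kB M) ≤ 1) :
    ∃ S₀ : Finset Kb, ∀ S : Finset Kb, S₀ ⊆ S → EllV B hB hqM H Q' hQ' hfin S := by
  classical
  haveI : NeZero q := ⟨hqF.out.ne_zero⟩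
  obtain ⟨ζ₀, hζ₀⟩ := HasEnoughRootsOfUnity.exists_primitiveRoot Kb q
  have hζ : IsPrimitiveRoot (hζ₀.isUnit (NeZero.ne q)).unit q := by
    rw [← IsPrimitiveRoot.coe_units_iff]
    exact hζ₀
  choose y p S₀ hp hpy hpO hne hlev using
    fun ij : {ij : Option (Fin (q - 1)) × Option (Fin (q - 1)) // ij.1 ≠ ij.2} =>
      exists_sep_level B hB hqM hζ ij.1.1 ij.1.2 ij.2
  refine ⟨Finset.univ.biUnion S₀, fun S hS => ?_⟩
  have hloc : ∀ z ∈ (ellModel B hB hqM H Q' hQ' hfin S).loc, z ∈ (compW B hB hqM 0).O :=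
    (ellModel B hB hqM H Q' hQ' hfin S).loc_le
      (fun y hy => (constRed_res_eq_zero_iff (compW B hB hqM 0) y).mpr hy)
  have hϖ : algebraMap Kb (Fb (M * q)) (unif B hqF.out hB S) ∈ (compW B hB hqM 0).O.nonunits :=
    (Fermat.Agent.BR.Separate.algebraMap_mem_nonunits_O1_iff (M := M) B hB _).mpr
      ((ValuationSubring.mem_nonunits_iff B).mpr (unif_lt_one B hqF.out hB S))
  refine VertAbs.vertHyp_of_chars (ellModel B hB hqM H Q' hQ' hfin S) _ _
    (alpha2_loc_mem_ellGenField B hB hqM H Q' hQ' hfin S) hloc hϖ (res1 M B hB)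
    (fun x => (mem_nonunits_O1_iff (M := M) B hB x.2).symm) card_index
    (WAll B hB hqM hζ) (alpha2_ringHom_mem_WAll B hB hqM hζ) (rhoAll B hB hqM hζ)
    (fun i x hx => rhoAll_alpha2 B hB hqM hζ i x hx) ?_
  intro i j hij
  have hS' : S₀ ⟨(i, j), hij⟩ ⊆ S :=
    (Finset.subset_biUnion_of_mem S₀ (Finset.mem_univ _)).trans hS
  obtain ⟨hyL, hpF⟩ := hlev ⟨(i, j), hij⟩ S hS'
  refine ⟨y ⟨(i, j), hij⟩, p ⟨(i, j), hij⟩, hyL, hp _, hpy _, fun k => ⟨hpO _ k, ?_⟩,
    hne ⟨(i, j), hij⟩⟩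
  obtain ⟨a, b, hb0, hab⟩ := (baseFamily_fin (M * q) B hqF.out hB).frac S _ (hpF k)
  refine ⟨⟨a, (ellModel B hB hqM H Q' hQ' hfin S).le_loc a.2⟩,
    ⟨b, (ellModel B hB hqM H Q' hQ' hfin S).le_loc b.2⟩, ?_, hab⟩
  intro h0
  apply hb0
  apply Subtype.ext
  exact congrArg (fun z : (ellModel B hB hqM H Q' hQ' hfin S).loc => (z : Fb (M * q))) h0

end Final

end Fermat.Agent.BR3.EllPurity
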