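import Mathlib
import Fermat.Agent.BR3.EllPurity.Frame
import Fermat.Agent.BR3.MultiValExhaust

/-!
# Program C, node (ELL-PUR-V), abstract part: vertical characters from a full family of valuations

* `exists_denominator` : `R ⊆ O` a noetherian subring of a valuation ring of `F` such that the
  trace of the maximal ideal of `O` on `R` is generated by `ϖ`; an element `a = b / c ∈ O`
  (`b, c ∈ R`) has a denominator `d ∈ R` which is a unit of `O`;
* `isIntegral_map_mul` : if `p (y) = 0`, `p` monic, and `d` clears the denominators of the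
  coefficients of `p`, then `α d * y` is integral over `α R` (`scaleRoots`);
* `mem_of_isIntegral_subring` : valuation rings are integrally closed;
* `exists_separating` : in a `MultiVal.Setup`, finitely many characters `ρ i` of the valuation
  rings which are pairwise different at the top level are separated by elements of `⋂ O v`;
* `vertHyp_of_chars` : **(V) of the purity plug** for the local ring of a smooth model from
  characters `ρ i : W i → Ω` of valuation rings of the cover, separated by elements with integral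
  equations over `O` whose coefficients are fractions of the local ring.
-/

set_option autoImplicit false
set_option linter.unusedSectionVars false

universe w

namespace Fermat.Agent.BR3.EllPurity.VertAbs

open Polynomial AlgebraicCurve Fermat.Agent.Val Fermat.Agent.BR.TwoVal Fermat.Agent.BR3.MultiVal
  Fermat.Agent.BR.S0 Fermat.Agent.BR3.PurityPlug

/-! ### denominators outside the vertical prime -/

section Denominator

variable {F : Type*} [Field F]

/-- a product of units of a valuation ring is not in the maximal ideal -/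
theorem mul_notMem_nonunits (O : ValuationSubring F) {x y : F} (hy : y ∈ O)
    (hx' : x ∉ O.nonunits) (hy' : y ∉ O.nonunits) : x * y ∉ O.nonunits := fun h =>
  hx' (mem_nonunits_of_mul_mem_nonunits O hy hy' h)

/-- **Denominators outside the vertical prime.** -/
theorem exists_denominator (O : ValuationSubring F) (R : Subring F) [IsNoetherianRing R]
    (hR : ∀ z ∈ R, z ∈ O) (ϖ : R) (hϖ : (ϖ : F) ∈ O.nonunits)
    (hvert : ∀ z : R, (z : F) ∈ O.nonunits → ϖ ∣ z)
    {a : F} (ha : a ∈ O) {b c : R} (hc : c ≠ 0) (hab : a * (c : F) = (b : F)) :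
    ∃ d : R, (d : F) ∉ O.nonunits ∧ a * (d : F) ∈ R := by
  have hunit : ¬ IsUnit ϖ := by
    intro hu
    obtain ⟨w, hw⟩ := isUnit_iff_exists_inv.mp hu
    have hwF : (ϖ : F) * (w : F) = 1 := congrArg (fun z : R => (z : F)) hw
    apply one_notMem_nonunits O
    rw [← hwF]
    exact mul_mem_nonunits_right O hϖ (hR w w.2)
  have hcF0 : (c : F) ≠ 0 := fun h => hc (Subtype.ext h)
  by_cases hb0 : b = 0
  · refine ⟨1, ?_, ?_⟩
    · rw [Subring.coe_one]
      exact one_notMem_nonunits O
    · have ha0 : a = 0 := by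
        rw [hb0, Subring.coe_zero] at hab
        exact (mul_eq_zero.mp hab).resolve_right hcF0
      rw [ha0, zero_mul]
      exact R.zero_mem
  have hbF0 : (b : F) ≠ 0 := fun h => hb0 (Subtype.ext h)
  obtain ⟨n, c', hc', hcn⟩ := WfDvdMonoid.max_power_factor' hc hunit
  obtain ⟨m, b', hb', hbm⟩ := WfDvdMonoid.max_power_factor' hb0 hunit
  have hc'n : (c' : F) ∉ O.nonunits := fun h => hc' (hvert c' h)
  have hb'n : (b' : F) ∉ O.nonunits := fun h => hb' (hvert b' h)
  have hcF : (c : F) = (ϖ : F) ^ n * (c' : F) := by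
    rw [hcn, Subring.coe_mul, SubmonoidClass.coe_pow]
  have hbF : (b : F) = (ϖ : F) ^ m * (b' : F) := by
    rw [hbm, Subring.coe_mul, SubmonoidClass.coe_pow]
  have hϖn : (ϖ : F) ^ n ≠ 0 := fun h => hcF0 (by rw [hcF, h, zero_mul])
  have hϖm : (ϖ : F) ^ m ≠ 0 := fun h => hbF0 (by rw [hbF, h, zero_mul])
  rcases le_or_gt n m with hnm | hnm
  · refine ⟨c', hc'n, ?_⟩
    have h1 : a * (c' : F) = (ϖ : F) ^ (m - n) * (b' : F) := by
      apply mul_left_cancel₀ hϖn
      calc (ϖ : F) ^ n * (a * (c' : F)) = a * ((ϖ : F) ^ n * (c' : F)) := by ring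
        _ = a * (c : F) := by rw [hcF]
        _ = (b : F) := hab
        _ = (ϖ : F) ^ m * (b' : F) := hbF
        _ = (ϖ : F) ^ n * ((ϖ : F) ^ (m - n) * (b' : F)) := by
            rw [← mul_assoc, ← pow_add, Nat.add_sub_cancel' hnm]
    rw [h1]
    exact R.mul_mem (R.pow_mem ϖ.2 _) b'.2
  · exfalso
    apply hb'n
    have h1 : (b' : F) = (a * (c' : F)) * (ϖ : F) ^ (n - m) := by
      apply mul_left_cancel₀ hϖm
      calc (ϖ : F) ^ m * (b' : F) = (b : F) := hbF.symm
        _ = a * (c : F) := hab.symm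
        _ = a * ((ϖ : F) ^ n * (c' : F)) := by rw [hcF]
        _ = a * ((ϖ : F) ^ (m + (n - m)) * (c' : F)) := by
            rw [Nat.add_sub_cancel' hnm.le]
        _ = (ϖ : F) ^ m * (a * (c' : F) * (ϖ : F) ^ (n - m)) := by
            rw [pow_add]
            ring
    rw [h1]
    exact mul_mem_nonunits_of_mem O (O.mul_mem _ _ ha (hR c' c'.2))
      (pow_mem_nonunits O hϖ (by omega))

end Denominator

/-! ### scaling an integral equation -/

section Scale

variable {F E : Type*} [Field F] [Field E]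

/-- **Scaling.** If `p (y) = 0` with `p` monic over `F` and `d ∈ R` clears the denominators of the
lower coefficients of `p`, then `α d * y` is integral over `α R`. -/
theorem isIntegral_map_mul (α : F →+* E) (R : Subring F) {y : E} {p : F[X]} (hp : p.Monic)
    (hpy : eval₂ α y p = 0) {d : F} (hdR : d ∈ R)
    (hd : ∀ k < p.natDegree, p.coeff k * d ∈ R) : IsIntegral ↥(R.map α) (α d * y) := by
  set q := scaleRoots p d with hq
  have hqR : ∀ k, q.coeff k ∈ R := by
    intro k
    rw [hq, coeff_scaleRoots]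
    rcases lt_trichotomy k p.natDegree with h | h | h
    · have e : p.natDegree - k = (p.natDegree - k - 1) + 1 := by omega
      rw [e, pow_succ, ← mul_assoc, mul_right_comm]
      exact R.mul_mem (hd k h) (R.pow_mem hdR _)
    · rw [h, Nat.sub_self, pow_zero, mul_one, hp.coeff_natDegree]
      exact R.one_mem
    · rw [coeff_eq_zero_of_natDegree_lt h, zero_mul]
      exact R.zero_mem
  have hqm : q.Monic := (monic_scaleRoots_iff d).mpr hp
  have hq0 : eval₂ α (α d * y) q = 0 := scaleRoots_eval₂_eq_zero α hpy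
  have hqc : (↑q.coeffs : Set F) ⊆ R := by
    intro z hz
    obtain ⟨k, -, rfl⟩ := Polynomial.mem_coeffs_iff.mp hz
    exact hqR k
  set q₁ : R[X] := q.toSubring R hqc with hq₁
  have hq₁m : q₁.Monic := (monic_toSubring q R hqc).mpr hqm
  have hq₁map : q₁.map R.subtype = q := map_toSubring q R hqc
  let ψ : R →+* ↥(R.map α) :=
    (α.comp R.subtype).codRestrict (R.map α) fun r => Subring.mem_map.mpr ⟨r, r.2, rfl⟩
  refine ⟨q₁.map ψ, hq₁m.map ψ, ?_⟩
  rw [eval₂_map]
  have hcomp : (algebraMap ↥(R.map α) E).comp ψ = α.comp R.subtype := by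
    ext r
    rfl
  rw [hcomp, ← eval₂_map, hq₁map]
  exact hq0

/-- valuation rings are integrally closed -/
theorem mem_of_isIntegral_subring (Z : ValuationSubring E) (R : Subring E)
    (hR : ∀ r ∈ R, r ∈ Z) {y : E} (hy : IsIntegral ↥R y) : y ∈ Z := by
  obtain ⟨p, hp, hpy⟩ := hy
  let ψ : R →+* Z := R.subtype.codRestrict Z.toSubring fun r => hR r r.2
  have hint : IsIntegral Z y := by
    refine ⟨p.map ψ, hp.map _, ?_⟩
    rw [eval₂_map]
    have hcomp : (algebraMap Z E).comp ψ = algebraMap ↥R E := by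
      ext r
      rfl
    rw [hcomp]
    exact hpy
  obtain ⟨z, hz⟩ := (IsIntegrallyClosed.isIntegral_iff (R := Z) (K := E)).mp hint
  rw [← hz]
  exact z.2

end Scale

/-! ### separating elements of the intersection -/

section Separate

variable {F E : Type*} [Field F] [Field E] [Algebra F E]
  {O₀ : ValuationSubring F} {V : Type*} [Fintype V] {O : V → ValuationSubring E}

/-- **Separation by elements of `⋂ O v`.** Characters `ρ i` of valuation rings `W i = O (vI i)`
of a `MultiVal.Setup`, killing the maximal ideals, pairwise different when the rings agree, are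
pairwise separated by elements of the intersection of all the `O v`. -/
theorem exists_separating (S : Setup O₀ O) {I : Type*} (W : I → ValuationSubring E)
    (vI : I → V) (hvI : ∀ i, W i = O (vI i)) {Ω : Type*} [Ring Ω] [Nontrivial Ω]
    (ρ : ∀ i, W i →+* Ω) (hρ : ∀ i (x : W i), (x : E) ∈ (W i).nonunits → ρ i x = 0)
    (htop : ∀ i j, i ≠ j → W i = W j →
      ∃ (u : E) (hi : u ∈ W i) (hj : u ∈ W j), ρ i ⟨u, hi⟩ ≠ ρ j ⟨u, hj⟩)
    (i j : I) (hij : i ≠ j) :
    ∃ y : E, (∀ v, y ∈ O v) ∧ ∃ (hi : y ∈ W i) (hj : y ∈ W j), ρ i ⟨y, hi⟩ ≠ ρ j ⟨y, hj⟩ := by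
  classical
  by_cases h : vI i = vI j
  · have hWij : W i = W j := by rw [hvI i, hvI j, h]
    obtain ⟨u, hi, hj, hne⟩ := htop i j hij hWij
    have hui : u ∈ O (vI i) := by rw [← hvI i]; exact hi
    obtain ⟨y', hy'⟩ := S.exists_adapted (vI i) (ι := Unit) (x := fun _ => u) (fun _ => hui)
      (σ := Empty) (fun t => t.elim)
    obtain ⟨hyv, hyd, hyw⟩ := hy' ()
    have hall : ∀ v, y' () ∈ O v := by
      intro v
      by_cases hv : v = vI i
      · rw [hv]
        exact hyv
      · exact mem_of_mem_nonunits (O v) (hyw v hv).1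
    have hyi : y' () ∈ W i := by rw [hvI i]; exact hyv
    have hyj : y' () ∈ W j := by rw [← hWij]; exact hyi
    have hdi : y' () - u ∈ (W i).nonunits := by rw [hvI i]; exact hyd
    have hdj : y' () - u ∈ (W j).nonunits := by rw [← hWij]; exact hdi
    refine ⟨y' (), hall, hyi, hyj, ?_⟩
    have h1 : ρ i ⟨y' (), hyi⟩ = ρ i ⟨u, hi⟩ := by
      have h2 := hρ i (⟨y' (), hyi⟩ - ⟨u, hi⟩) hdi
      rw [map_sub, sub_eq_zero] at h2
      exact h2
    have h1' : ρ j ⟨y' (), hyj⟩ = ρ j ⟨u, hj⟩ := by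
      have h2 := hρ j (⟨y' (), hyj⟩ - ⟨u, hj⟩) hdj
      rw [map_sub, sub_eq_zero] at h2
      exact h2
    rw [h1, h1']
    exact hne
  · obtain ⟨ε, hε, hεw⟩ := S.exists_idem_univ (vI i) (σ := Empty) (fun t => t.elim)
    have hall : ∀ v, ε ∈ O v := by
      intro v
      by_cases hv : v = vI i
      · rw [hv]
        exact mem_of_sub_one_mem_nonunits (O (vI i)) hε
      · exact mem_of_mem_nonunits (O v) (hεw v hv).1
    have hεi : ε ∈ W i := by rw [hvI i]; exact hall _
    have hεj : ε ∈ W j := by rw [hvI j]; exact hall _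
    have hdi : ε - 1 ∈ (W i).nonunits := by rw [hvI i]; exact hε
    have hdj : ε ∈ (W j).nonunits := by
      rw [hvI j]
      exact (hεw (vI j) (fun h' => h h'.symm)).1
    refine ⟨ε, hall, hεi, hεj, ?_⟩
    have h1 : ρ i ⟨ε, hεi⟩ = 1 := by
      have h2 := hρ i (⟨ε, hεi⟩ - 1) hdi
      rw [map_sub, map_one, sub_eq_zero] at h2
      exact h2
    have h1' : ρ j ⟨ε, hεj⟩ = 0 := hρ j ⟨ε, hεj⟩ hdj
    rw [h1, h1']
    exact one_ne_zero

end Separate

/-! ### (V) for the local ring of a smooth model -/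

section Model

variable {K F k : Type*} [Field K] [Field F] [Algebra K F] [Field k]
  {Ft : Type*} [Field Ft] [Algebra k Ft]
  {A : ValuationSubring K} {π : A →+* k} {O : ValuationSubring F} {res : O →+* Ft}
  {Q : Place k Ft} {T : Set (Place K F)} {t : F} {C : Subring F} {ϖ : K}
  (M : SmoothModel A π O res Q T t C ϖ) {F'' : Type*} [Field F''] (α : F →+* F'')
  (L'' : Subfield F'')

/-- **(V) from characters of valuation rings of the cover.** -/
theorem vertHyp_of_chars (hL : ∀ r ∈ M.loc, α r ∈ L'') (hloc : ∀ z ∈ M.loc, z ∈ O)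
    (hϖ : algebraMap K F ϖ ∈ O.nonunits)
    {Ω : Type w} [Field Ω] (ρ₀ : O →+* Ω)
    (hρ₀ : ∀ x : O, ρ₀ x = 0 ↔ (x : F) ∈ O.nonunits)
    {n : ℕ} {I : Type*} [Fintype I] (hI : Fintype.card I = n)
    (W : I → ValuationSubring F'') (hWα : ∀ i, ∀ x ∈ O, α x ∈ W i)
    (ρ : ∀ i, W i →+* Ω)
    (hρα : ∀ i (x : F) (hx : x ∈ O), ρ i ⟨α x, hWα i x hx⟩ = ρ₀ ⟨x, hx⟩)
    (hsep : ∀ i j, i ≠ j → ∃ (y : F'') (p : F[X]), y ∈ L'' ∧ p.Monic ∧ eval₂ α y p = 0 ∧
      (∀ k, p.coeff k ∈ O ∧ ∃ b c : M.loc, c ≠ 0 ∧ p.coeff k * (c : F) = (b : F)) ∧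
      ∃ (hi : y ∈ W i) (hj : y ∈ W j), ρ i ⟨y, hi⟩ ≠ ρ j ⟨y, hj⟩) :
    VertHyp.{w} M α L'' n hL := by
  classical
  have hN : IsNoetherianRing M.loc := Fermat.Agent.BR3.CoverSmooth.loc_isNoetherianRing M
  let e : Fin n ≃ I := (Fintype.equivFinOfCardEq hI).symm
  have hMW : ∀ i, ∀ y ∈ sint M α L'', y ∈ W i := by
    intro i y hy
    refine mem_of_isIntegral_subring (W i) (M.loc.map α) ?_ hy.2
    intro r hr
    obtain ⟨x, hx, rfl⟩ := Subring.mem_map.mp hr
    exact hWα i x (hloc x hx)
  let incl : ∀ i, ↥(sint M α L'') →+* ↥(W i) := fun i =>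
    (sint M α L'').subtype.codRestrict (W i).toSubring fun y => hMW i y y.2
  let φ : ↥M.loc →+* Ω := ρ₀.comp (M.loc.subtype.codRestrict O.toSubring fun z => hloc z z.2)
  refine ⟨Ω, inferInstance, φ, fun a => (ρ (e a)).comp (incl (e a)), ?_, ?_, ?_⟩
  · exact (hρ₀ _).mpr hϖ
  · intro a b hab
    by_contra hne
    have hij : e a ≠ e b := fun h => hne (e.injective h)
    obtain ⟨y, p, hyL, hp, hpy, hcoef, hi, hj, hyne⟩ := hsep (e a) (e b) hij
    have hden : ∀ k, ∃ d : M.loc, (d : F) ∉ O.nonunits ∧ p.coeff k * (d : F) ∈ M.loc := by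
      intro k
      obtain ⟨hk, b', c', hc', hbc⟩ := hcoef k
      exact exists_denominator O M.loc hloc (unifLoc M) hϖ (fun z hz => M.loc_vert z hz) hk hc'
        hbc
    choose d hdn hdR using hden
    set D : M.loc := ∏ k ∈ Finset.range p.natDegree, d k with hD
    have hDn : (D : F) ∉ O.nonunits := by
      rw [hD]
      refine Finset.prod_induction (fun k => d k) (fun z : M.loc => (z : F) ∉ O.nonunits) ?_ ?_
        (fun k _ => hdn k)
      · intro x y hx hy
        rw [Subring.coe_mul]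
        exact mul_notMem_nonunits O (hloc y y.2) hx hy
      · rw [Subring.coe_one]
        exact one_notMem_nonunits O
    have hDk : ∀ k < p.natDegree, p.coeff k * (D : F) ∈ M.loc := by
      intro k hk
      have hk' : k ∈ Finset.range p.natDegree := Finset.mem_range.mpr hk
      rw [hD, ← Finset.mul_prod_erase _ _ hk', Subring.coe_mul, ← mul_assoc]
      exact M.loc.mul_mem (hdR k) (Subtype.property _)
    have hint : IsIntegral ↥(M.loc.map α) (α (D : F) * y) :=
      isIntegral_map_mul α M.loc hp hpy D.2 hDk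
    have hzs : α (D : F) * y ∈ sint M α L'' :=
      ⟨L''.mul_mem (hL D D.2) hyL, hint⟩
    have hDO : (D : F) ∈ O := hloc D D.2
    have key : ∀ (i : I) (hyi : y ∈ W i),
        ρ i (incl i ⟨α (D : F) * y, hzs⟩) = ρ₀ ⟨(D : F), hDO⟩ * ρ i ⟨y, hyi⟩ := by
      intro i hyi
      have e1 : incl i ⟨α (D : F) * y, hzs⟩ = ⟨α (D : F), hWα i D hDO⟩ * ⟨y, hyi⟩ :=
        Subtype.ext rfl
      rw [e1, map_mul, hρα]
    have h1 := congrArg (fun χ : ↥(sint M α L'') →+* Ω => χ ⟨α (D : F) * y, hzs⟩) hab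
    simp only [RingHom.comp_apply] at h1
    rw [key (e a) hi, key (e b) hj] at h1
    have hD0 : ρ₀ ⟨(D : F), hDO⟩ ≠ 0 := fun h0 => hDn ((hρ₀ _).mp h0)
    exact hyne (mul_left_cancel₀ hD0 h1)
  · intro a r
    show ρ (e a) (incl (e a) ⟨α (r : F), _⟩) = ρ₀ _
    have e1 : incl (e a) ⟨α (r : F), map_mem_sint M α L'' hL r⟩ =
        ⟨α (r : F), hWα (e a) r (hloc r r.2)⟩ := Subtype.ext rfl
    rw [e1, hρα]
    rfl

end Model

end Fermat.Agent.BR3.EllPurity.VertAbs
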